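import Fermat.Agent.Jacobian.Lat.Series
import Mathlib.RingTheory.PowerSeries.Inverse

/-!
# Unit series

A Laurent series without terms below `0` and with invertible constant term is an invertible power
series.
-/

set_option autoImplicit false

noncomputable section

universe u

namespace FermatAgent.Jacobian

variable {A : Type u} [CommRing A]

/-- A series without polar part is a power series. -/
theorem exists_powerSeries_of_mem_fil_zero {x : LaurentSeries A} (hx : x ∈ fil A 0) :
    ∃ p : PowerSeries A, HahnSeries.ofPowerSeries ℤ A p = x := by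
  refine ⟨PowerSeries.mk fun n => x.coeff n, HahnSeries.ext (funext fun i => ?_)⟩
  rcases lt_or_ge i 0 with hi | hi
  · rw [hx i hi, HahnSeries.ofPowerSeries_apply, HahnSeries.embDomain_of_notMem_range]
    rintro ⟨n, hn⟩
    simp at hn
    omega
  · obtain ⟨n, rfl⟩ := Int.eq_ofNat_of_zero_le hi
    rw [HahnSeries.ofPowerSeries_apply_coeff, PowerSeries.coeff_mk]

theorem ofPowerSeries_mem_fil_zero (p : PowerSeries A) :
    HahnSeries.ofPowerSeries ℤ A p ∈ fil A 0 := by
  intro i hi
  rw [HahnSeries.ofPowerSeries_apply, HahnSeries.embDomain_of_notMem_range]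
  rintro ⟨n, hn⟩
  simp at hn
  omega

theorem coeff_zero_ofPowerSeries (p : PowerSeries A) :
    (HahnSeries.ofPowerSeries ℤ A p).coeff 0 = PowerSeries.constantCoeff p := by
  have h := HahnSeries.ofPowerSeries_apply_coeff (Γ := ℤ) p 0
  rw [Nat.cast_zero] at h
  rw [h, PowerSeries.coeff_zero_eq_constantCoeff]

theorem isUnitSeries_iff_exists {u : LaurentSeries A} :
    IsUnitSeries A u ↔ ∃ p : PowerSeries A, IsUnit p ∧ HahnSeries.ofPowerSeries ℤ A p = u := by
  constructor
  · rintro ⟨h0, hu⟩
    obtain ⟨p, rfl⟩ := exists_powerSeries_of_mem_fil_zero hu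
    exact ⟨p, PowerSeries.isUnit_iff_constantCoeff.mpr (coeff_zero_ofPowerSeries p ▸ h0), rfl⟩
  · rintro ⟨p, hp, rfl⟩
    exact ⟨(coeff_zero_ofPowerSeries p).symm ▸ PowerSeries.isUnit_iff_constantCoeff.mp hp,
      ofPowerSeries_mem_fil_zero p⟩

theorem isUnitSeries_ofPowerSeries {p : PowerSeries A} (hp : IsUnit p) :
    IsUnitSeries A (HahnSeries.ofPowerSeries ℤ A p) :=
  isUnitSeries_iff_exists.mpr ⟨p, hp, rfl⟩

theorem IsUnitSeries.isUnit {u : LaurentSeries A} (hu : IsUnitSeries A u) : IsUnit u := by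
  obtain ⟨p, hp, rfl⟩ := isUnitSeries_iff_exists.mp hu
  exact hp.map _

end FermatAgent.Jacobian
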