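import Fermat.Agent.Jacobian.Lat.Field
import Fermat.Agent.Jacobian.Cell.Ring
import Fermat.Agent.Jacobian.Bridge.UnitSeries

/-!
# The normalised lattice of a chart

A list of rational points turns a lattice with the Euler characteristic of the trivial one into
one of characteristic `1`; the chart is where the latter has no cohomology at level `1`.
-/

set_option autoImplicit false

noncomputable section

universe u

namespace FermatAgent.Jacobian

open Module

variable {k : Type u} [Field k] {D : CurveDatum k} {A : Type u} [CommRing A] [Algebra k A]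

theorem mul_mem_fil_unitSeries {u x : LaurentSeries A} (hu : IsUnitSeries A u) {n : ℤ}
    (hx : x ∈ fil A n) : x * u ∈ fil A n := by
  simpa using mul_mem_fil hx hu.2

theorem CurveDatum.Compl.of_equiv {M M' : D.Sub A} {n : ℤ} (h : D.Compl M n)
    (e : D.Equiv M M') : D.Compl M' n := by
  obtain ⟨u, hu, rfl⟩ := e
  obtain ⟨v, hv, huv⟩ := IsUnitSeries.exists_inv hu
  refine ⟨fun x => ?_, fun m hm hmf => ?_⟩
  · obtain ⟨m, hm, hmx⟩ := h.1 (x * v)
    refine ⟨m * u, D.mul_mem_mul_singleton hm, ?_⟩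
    have h1 := mul_mem_fil_unitSeries hu hmx
    rwa [sub_mul, mul_assoc, mul_comm v u, huv, mul_one] at h1
  · obtain ⟨y, hy, rfl⟩ := D.mem_mul_singleton.mp hm
    have h1 := mul_mem_fil_unitSeries hv hmf
    rw [mul_assoc, huv, mul_one] at h1
    rw [h.2 y hy h1, zero_mul]

theorem CurveDatum.Equiv.cancel {M N P : D.Sub A} (hP : IsUnit P)
    (e : D.Equiv (M * P) (N * P)) : D.Equiv M N := by
  obtain ⟨u, hu, he⟩ := e
  refine ⟨u, hu, hP.mul_right_cancel ?_⟩
  rw [he, mul_right_comm]

/-- Normalised cell lattices which are equivalent are equal. -/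
theorem CurveDatum.InCell.eq_of_equiv {M M' : D.Sub A} (h : D.InCell M) (h' : D.InCell M')
    (e : D.Equiv M M') : M = M' := by
  obtain ⟨u, hu, rfl⟩ := e
  obtain ⟨m, hm, hmu⟩ := D.mem_mul_singleton.mp h'.1
  obtain ⟨v, hv, huv⟩ := IsUnitSeries.exists_inv hu
  have hmv : m = v := by
    calc m = m * (u * v) := by rw [huv, mul_one]
      _ = (m * u) * v := (mul_assoc _ _ _).symm
      _ = v := by rw [hmu, one_mul]
  subst hmv
  have hc : HahnSeries.C (m.coeff 0) ∈ M := by
    rw [← mul_one (HahnSeries.C (m.coeff 0)), C_mul_eq_smul']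
    exact D.cell_coeff_smul_mem _ h.1
  have h0 : m - HahnSeries.C (m.coeff 0) ∈ fil A 1 := fun i hi => by
    rw [HahnSeries.coeff_sub, HahnSeries.C_apply]
    rcases eq_or_ne i 0 with rfl | hne
    · rw [HahnSeries.coeff_single_same, sub_self]
    · rw [HahnSeries.coeff_single_of_ne hne, sub_zero, hv.2 i (by omega)]
  have hm' : m = HahnSeries.C (m.coeff 0) := sub_eq_zero.mp (h.2.2 _ (sub_mem hm hc) h0)
  obtain ⟨a, ha⟩ := hv.1
  rw [← ha] at hm'
  have hu' : u = HahnSeries.C (↑a⁻¹ : A) := by
    calc u = u * (m * HahnSeries.C (↑a⁻¹ : A)) := by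
          rw [hm', ← map_mul, Units.mul_inv, map_one, mul_one]
      _ = _ := by rw [← mul_assoc, huv, one_mul]
  refine le_antisymm (fun x hx => ?_) fun x hx => ?_
  · refine D.mem_mul_singleton.mpr ⟨HahnSeries.C (↑a : A) * x, ?_, ?_⟩
    · rw [C_mul_eq_smul']; exact D.cell_coeff_smul_mem _ hx
    · rw [hu', mul_right_comm, ← map_mul, Units.mul_inv, map_one, one_mul]
  · obtain ⟨y, hy, rfl⟩ := D.mem_mul_singleton.mp hx
    rw [hu', mul_comm, C_mul_eq_smul']
    exact D.cell_coeff_smul_mem _ hy

variable (D) in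
/-- The twist normalising the chart of the points `xs`. -/
def CurveDatum.chartShift (xs : List (D.R →ₐ[k] k)) : ℤ :=
  1 - D.chi (1 : D.Sub k) + xs.length

variable (D A) in
/-- The product of the ideals of the points. -/
def CurveDatum.pointsLat (xs : List (D.R →ₐ[k] k)) : D.Sub A := (xs.map (D.pointIdeal A)).prod

/-- The normalised lattice of the chart. -/
def CurveDatum.chartLatt (xs : List (D.R →ₐ[k] k)) (M : D.Sub A) : D.Sub A :=
  D.twist (D.chartShift xs) (M * D.pointsLat A xs)

theorem CurveDatum.isLat_pointsLat (xs : List (D.R →ₐ[k] k)) : D.IsLat (D.pointsLat A xs) := by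
  rw [CurveDatum.pointsLat]
  induction xs with
  | nil => exact D.isLat_one
  | cons φ xs ih =>
    rw [List.map_cons, List.prod_cons]
    exact (D.isLat_pointIdeal A φ).mul ih

theorem CurveDatum.bc_pointsLat {B : Type u} [CommRing B] [Algebra k B] (f : A →ₐ[k] B)
    (xs : List (D.R →ₐ[k] k)) : D.bc f (D.pointsLat A xs) = D.pointsLat B xs := by
  rw [CurveDatum.pointsLat, CurveDatum.pointsLat]
  induction xs with
  | nil => exact D.bc_one f
  | cons φ xs ih =>
    rw [List.map_cons, List.map_cons, List.prod_cons, List.prod_cons, D.bc_mul f, ih,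
      D.bc_pointIdeal]

theorem CurveDatum.IsLat.chartLatt {M : D.Sub A} (hM : D.IsLat M) (xs : List (D.R →ₐ[k] k)) :
    D.IsLat (D.chartLatt xs M) :=
  (hM.mul (D.isLat_pointsLat xs)).twist _

theorem CurveDatum.bc_chartLatt {B : Type u} [CommRing B] [Algebra k B] (f : A →ₐ[k] B)
    (xs : List (D.R →ₐ[k] k)) (M : D.Sub A) :
    D.bc f (D.chartLatt xs M) = D.chartLatt xs (D.bc f M) := by
  rw [CurveDatum.chartLatt, CurveDatum.chartLatt, D.bc_twist f, D.bc_mul f, D.bc_pointsLat]

theorem CurveDatum.Equiv.chartLatt {M M' : D.Sub A} (e : D.Equiv M M')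
    (xs : List (D.R →ₐ[k] k)) : D.Equiv (D.chartLatt xs M) (D.chartLatt xs M') := by
  obtain ⟨u, hu, rfl⟩ := e
  refine ⟨u, hu, ?_⟩
  rw [CurveDatum.chartLatt, CurveDatum.chartLatt, CurveDatum.twist, CurveDatum.twist]
  simp only [mul_assoc, mul_comm, mul_left_comm]

theorem CurveDatum.equiv_of_chartLatt {M M' : D.Sub A} {xs : List (D.R →ₐ[k] k)}
    (e : D.Equiv (D.chartLatt xs M) (D.chartLatt xs M')) : D.Equiv M M' :=
  (e.cancel (D.isUnit_span_singleton
    (IsMonicAt.isUnit (isMonicAt_single (D.chartShift xs))))).cancel (D.isLat_pointsLat xs).isUnit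

section Field

variable {K : Type u} [Field K] [Algebra k K]

theorem CurveDatum.chi_one_eq : D.chi (1 : D.Sub K) = D.chi (1 : D.Sub k) := by
  have h := (D.isLat_one (A := k)).chi_bc (L := K)
  rwa [D.bc_one] at h

theorem CurveDatum.IsLat.chi_chartLatt {M : D.Sub K} (hM : D.IsLat M)
    (xs : List (D.R →ₐ[k] k)) :
    D.chi (D.chartLatt xs M) = 1 + (D.chi M - D.chi (1 : D.Sub K)) := by
  rw [CurveDatum.chartLatt, (hM.mul (D.isLat_pointsLat xs)).chi_twist, CurveDatum.pointsLat,
    hM.chi_mul_prod, D.chi_one_eq, CurveDatum.chartShift]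
  ring

/-- Absence of cohomology descends along field extensions. -/
theorem CurveDatum.IsLat.compl_of_bc {M : D.Sub K} (hM : D.IsLat M) {L : Type u} [Field L]
    [Algebra k L] (f : K →ₐ[k] L) {n : ℤ} (h : D.Compl (D.bc f M) n) : D.Compl M n := by
  let := f.toRingHom.toAlgebra
  have : IsScalarTower k K L := IsScalarTower.of_algebraMap_eq fun x => (f.commutes x).symm
  have hf : f = IsScalarTower.toAlgHom k K L := AlgHom.ext fun _ => rfl
  have hchi : D.chi M = n := by
    rw [← hM.chi_bc (L := L), ← hf]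
    exact ((CurveDatum.IsLat.bc f hM).compl_iff_chi.mp h).2
  obtain ⟨n₀, hn₀⟩ := hM.exists_surj
  have hs := hn₀ (min n₀ n) (min_le_left _ _)
  rw [CurveDatum.compl_iff_bijective hs (min_le_right _ _)]
  have := hM.finite_kerMod hs
  have hinj : Function.Injective (D.winMap M (min n₀ n) n) := by
    rw [injective_iff_map_eq_zero]
    intro x hx
    have hxf : (x : LaurentSeries K) ∈ fil K n := (CurveDatum.winMap_eq_zero_iff x).mp hx
    have h0 : lsMap f.toRingHom (x : LaurentSeries K) = 0 :=
      h.2 _ (D.subset_bc f x.2.1) fun i hi => by rw [coeff_lsMap, hxf i hi, map_zero]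
    refine Subtype.ext (HahnSeries.ext (funext fun i => f.toRingHom.injective ?_))
    have h1 := congrArg (fun z : LaurentSeries L => z.coeff i) h0
    simp only [coeff_lsMap, HahnSeries.coeff_zero] at h1
    rw [h1]
    exact (map_zero _).symm
  refine ⟨hinj, (LinearMap.injective_iff_surjective_of_finrank_eq_finrank ?_).mp hinj⟩
  have h1 := hM.chi_eq hs
  rw [finrank_fintype_fun_eq_card, Fintype.card_coe, Int.card_Ico]
  omega

end Field

end FermatAgent.Jacobian
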