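import Fermat.Agent.Jacobian.Bridge.Functor
import Fermat.Agent.Jacobian.Bridge.ChartLattice
import Fermat.Agent.Jacobian.Setup.Natural

/-!
# The open loci of the charts
-/

set_option autoImplicit false

noncomputable section

open CategoryTheory CategoryTheory.Limits AlgebraicGeometry AlgebraicGeometry.RelPicard
  TopologicalSpace AlgebraicCurve NeronModelInfra

namespace FermatAgent.Jacobian

universe u

variable {k : Type u} [Field k]

/-- The structure of algebra given by a morphism to the base. -/
@[reducible] def baseAlg {B : CommRingCat.{u}} (t : Spec B ⟶ Spec (CommRingCat.of k)) :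
    Algebra k B :=
  (Spec.preimage t).hom.toAlgebra

theorem algSpecMap_baseAlg {B : CommRingCat.{u}} (t : Spec B ⟶ Spec (CommRingCat.of k)) :
    letI := baseAlg t
    algSpecMap (k := k) B = t :=
  Spec.map_preimage t

/-- A morphism from the spectrum of a ring, over the base of the algebra it defines. -/
def homOverAlg {T : Scheme.{u}} (t : T ⟶ Spec (CommRingCat.of k)) {B : CommRingCat.{u}}
    (g : Spec B ⟶ T) :
    letI := baseAlg (g ≫ t)
    SchemeHomOver (algSpecMap (k := k) B) t :=
  letI := baseAlg (g ≫ t)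
  ⟨g, (algSpecMap_baseAlg (g ≫ t)).symm⟩

variable [IsAlgClosed k] {C : Scheme.{u}}
  (c : C ⟶ Spec (CommRingCat.of k)) [SmoothOfRelativeDimension 1 c] [IsIntegral C] [IsProper c]
  (ε : SchemeHomOver (𝟙 (Spec (CommRingCat.of k))) c)

/-- The class lies in the chart of `xs`. -/
def InChartAt (xs : List ((curveDatum c ε).R →ₐ[k] k)) {K : Type u} [CommRing K] [Algebra k K]
    (y : PicC (curveOver c K)) : Prop :=
  ∀ M : (curveDatum c ε).Sub K, (curveDatum c ε).IsLat M → HasLatt c ε y M →
    (curveDatum c ε).Compl ((curveDatum c ε).chartLatt xs M) 1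

variable {c ε} {xs : List ((curveDatum c ε).R →ₐ[k] k)}

theorem inChartAt_iff {K : Type u} [CommRing K] [Algebra k K] {y : PicC (curveOver c K)}
    {M : (curveDatum c ε).Sub K} (hM : (curveDatum c ε).IsLat M) (h : HasLatt c ε y M) :
    InChartAt c ε xs y ↔ (curveDatum c ε).Compl ((curveDatum c ε).chartLatt xs M) 1 :=
  ⟨fun H => H M hM h, fun H _ _ h' => H.of_equiv ((h.equiv h').chartLatt xs)⟩

theorem inChartAt_bc (hlat : LattExists c ε) {K L : Type u} [Field K] [Algebra k K] [Field L]
    [Algebra k L] (f : K →ₐ[k] L) {y : PicC (curveOver c K)} (hy : Rigidified c ε y) :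
    InChartAt c ε xs (PicC.pull (curveMap c f) y) ↔ InChartAt c ε xs y := by
  obtain ⟨M, hM, h⟩ := hlat K y hy
  rw [inChartAt_iff hM h, inChartAt_iff (CurveDatum.IsLat.bc f hM) (h.bc f),
    ← CurveDatum.bc_chartLatt]
  exact ⟨(hM.chartLatt xs).compl_of_bc f, fun H => H.bc f⟩

variable {T : Scheme.{u}} {t : T ⟶ Spec (CommRingCat.of k)}

variable (c ε xs) in
/-- The points at which the class lies in the chart. -/
def locusSet (x : PicC (pullback c t)) : Set T :=
  {p | letI := baseAlg (T.fromSpecResidueField p ≫ t)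
    InChartAt c ε xs (PicC.pull (baseChangeSnd c (homOverAlg t (T.fromSpecResidueField p))) x)}

omit [IsAlgClosed k] [SmoothOfRelativeDimension 1 c] [IsIntegral C] [IsProper c] in
theorem rigidified_pull {x : PicC (pullback c t)} (hx : Rigidified c ε x) {T' : Scheme.{u}}
    {t' : T' ⟶ Spec (CommRingCat.of k)} (s : SchemeHomOver t' t) :
    Rigidified c ε (PicC.pull (baseChangeSnd c s) x) :=
  (RigClass.map s (RigClass.mk x hx)).pull_val

/-- The locus can be tested on any point with values in a field. -/
theorem mem_locusSet_iff (hlat : LattExists c ε) {x : PicC (pullback c t)}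
    (hx : Rigidified c ε x) {K : Type u} [Field K] [Algebra k K]
    (s : SchemeHomOver (algSpecMap (k := k) K) t) :
    s.1 (IsLocalRing.closedPoint K) ∈ locusSet c ε xs x ↔
      InChartAt c ε xs (PicC.pull (baseChangeSnd c s) x) := by
  have hs := (Scheme.SpecToEquivOfField K T).symm_apply_apply s.1
  set e := Scheme.SpecToEquivOfField K T s.1
  have hp : s.1 (IsLocalRing.closedPoint K) = e.1 := rfl
  rw [hp]
  obtain ⟨p, φ⟩ := e
  change Spec.map φ ≫ T.fromSpecResidueField p = s.1 at hs
  let := baseAlg (T.fromSpecResidueField p ≫ t)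
  have hφ : Spec.map φ ≫ algSpecMap (k := k) (T.residueField p) = algSpecMap (k := k) K := by
    rw [algSpecMap_baseAlg, ← Category.assoc, hs, s.2]
  have hc : (φ.hom).comp (algebraMap k (T.residueField p)) = algebraMap k K := by
    rw [← Spec.map_comp] at hφ
    exact congrArg CommRingCat.Hom.hom (Spec.map_injective hφ)
  let f : T.residueField p →ₐ[k] K := { φ.hom with commutes' := RingHom.congr_fun hc }
  have h1 : PicC.pull (baseChangeSnd c s) x = PicC.pull (curveMap c f)
      (PicC.pull (baseChangeSnd c (homOverAlg t (T.fromSpecResidueField p))) x) := by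
    rw [pull_baseChangeSnd_postComp]
    congr 3
    exact Subtype.ext hs.symm
  rw [h1, inChartAt_bc hlat f (rigidified_pull hx _)]
  rfl

/-- On an affine test scheme the locus is where the fibres of the chart lattice have no
cohomology. -/
theorem preimage_locusSet (hlat : LattExists c ε) {x : PicC (pullback c t)}
    (hx : Rigidified c ε x) {B : Type u} [CommRing B] [Algebra k B]
    (s : SchemeHomOver (algSpecMap (k := k) B) t) {M : (curveDatum c ε).Sub B}
    (hM : (curveDatum c ε).IsLat M) (h : HasLatt c ε (PicC.pull (baseChangeSnd c s) x) M)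
    (q : PrimeSpectrum B) :
    s.1 q ∈ locusSet c ε xs x ↔
      (curveDatum c ε).Compl
        ((curveDatum c ε).fibre ((curveDatum c ε).chartLatt xs M) q) 1 := by
  let s' := postComp s (algHomOver (toResidue (k := k) q))
  have hq : s'.1 (IsLocalRing.closedPoint q.asIdeal.ResidueField) = s.1 q := by
    show s.1 (Spec.map (CommRingCat.ofHom (toResidue (k := k) q).toRingHom) _) = s.1 q
    congr 1
    refine PrimeSpectrum.ext ?_
    show Ideal.comap (algebraMap B q.asIdeal.ResidueField) (IsLocalRing.maximalIdeal _) = q.asIdeal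
    rw [IsLocalRing.maximalIdeal_eq_bot]
    exact Ideal.ker_algebraMap_residueField q.asIdeal
  rw [← hq, mem_locusSet_iff hlat hx s', ← pull_baseChangeSnd_postComp,
    inChartAt_iff (CurveDatum.IsLat.bc _ hM) (h.bc _), ← CurveDatum.bc_chartLatt]
  rfl

theorem isOpen_locusSet (hlat : LattExists c ε) {x : PicC (pullback c t)}
    (hx : Rigidified c ε x) : IsOpen (locusSet c ε xs x) := by
  refine isOpen_iff_forall_mem_open.mpr fun p hp => ?_
  obtain ⟨_, ⟨W, hW, rfl⟩, hpW, -⟩ :=
    T.isBasis_affineOpens.exists_subset_of_mem_open (Set.mem_univ p) isOpen_univ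
  replace hW : IsAffineOpen W := hW
  let := baseAlg (hW.fromSpec ≫ t)
  let s := homOverAlg t hW.fromSpec
  obtain ⟨M, hM, h⟩ := hlat Γ(T, W) _ (rigidified_pull hx s)
  refine ⟨hW.fromSpec '' {q | (curveDatum c ε).Compl
    ((curveDatum c ε).fibre ((curveDatum c ε).chartLatt xs M) q) 1}, ?_, ?_, ?_⟩
  · rintro _ ⟨q, hq, rfl⟩
    exact (preimage_locusSet hlat hx s hM h q).mpr hq
  · exact hW.fromSpec.isOpenEmbedding.isOpenMap _ ((hM.chartLatt xs).isOpen_compl 1)
  · obtain ⟨q, rfl⟩ : p ∈ Set.range hW.fromSpec := hW.range_fromSpec.symm ▸ hpW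
    exact ⟨q, (preimage_locusSet hlat hx s hM h q).mp hp, rfl⟩

end FermatAgent.Jacobian
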