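import Fermat.Prelude.Def_AlgebraicGeometry_RelPicardAlgEquivZeroCut
import Fermat.Agent.Jacobian.Bridge.Locus

/-!
# Algebraic equivalence to zero gives Euler characteristic zero

The Euler characteristic of a rigidified class is locally constant on the base, so on a connected
base it is determined by one point.
-/

set_option autoImplicit false

noncomputable section

open CategoryTheory CategoryTheory.Limits AlgebraicGeometry AlgebraicGeometry.RelPicard
  TopologicalSpace AlgebraicCurve NeronModelInfra

namespace FermatAgent.Jacobian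

universe u

variable {k : Type u} [Field k] [IsAlgClosed k] {C : Scheme.{u}}
  (c : C ⟶ Spec (CommRingCat.of k)) [SmoothOfRelativeDimension 1 c] [IsIntegral C] [IsProper c]
  (ε : SchemeHomOver (𝟙 (Spec (CommRingCat.of k))) c)

/-- The class over a field has the Euler characteristic of the trivial one. -/
def ChiTrivialAt {K : Type u} [Field K] [Algebra k K] (y : PicC (curveOver c K)) : Prop :=
  ∀ M : (curveDatum c ε).Sub K, (curveDatum c ε).IsLat M → HasLatt c ε y M →
    (curveDatum c ε).chi M = (curveDatum c ε).chi (1 : (curveDatum c ε).Sub K)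

variable {c ε}

theorem chiTrivialAt_iff {K : Type u} [Field K] [Algebra k K] {y : PicC (curveOver c K)}
    {M : (curveDatum c ε).Sub K} (hM : (curveDatum c ε).IsLat M) (h : HasLatt c ε y M) :
    ChiTrivialAt c ε y ↔
      (curveDatum c ε).chi M = (curveDatum c ε).chi (1 : (curveDatum c ε).Sub K) :=
  ⟨fun H => H M hM h, fun H _ hM' h' => (hM'.chi_equiv (h'.equiv h)).symm.trans H⟩

theorem chiTrivialAt_one {K : Type u} [Field K] [Algebra k K] :
    ChiTrivialAt c ε (1 : PicC (curveOver c K)) :=
  (chiTrivialAt_iff (CurveDatum.isLat_one _) HasLatt.one).2 rfl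

theorem chiTrivialAt_bc (hlat : LattExists c ε) {K L : Type u} [Field K] [Algebra k K] [Field L]
    [Algebra k L] (f : K →ₐ[k] L) {y : PicC (curveOver c K)} (hy : Rigidified c ε y) :
    ChiTrivialAt c ε (PicC.pull (curveMap c f) y) ↔ ChiTrivialAt c ε y := by
  obtain ⟨M, hM, h⟩ := hlat K y hy
  let := f.toRingHom.toAlgebra
  have : IsScalarTower k K L := IsScalarTower.of_algebraMap_eq fun x => (f.commutes x).symm
  have hf : IsScalarTower.toAlgHom k K L = f := AlgHom.ext fun _ => rfl
  rw [← hf, chiTrivialAt_iff hM h, chiTrivialAt_iff (CurveDatum.IsLat.bc _ hM) (h.bc _), hM.chi_bc,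
    ← CurveDatum.IsLat.chi_bc (L := L) ((curveDatum c ε).isLat_one (A := K)), CurveDatum.bc_one]

variable {T : Scheme.{u}} {t : T ⟶ Spec (CommRingCat.of k)}

variable (c ε) in
/-- The points at which the class has Euler characteristic zero. -/
def chiTrivialSet (x : PicC (pullback c t)) : Set T :=
  {p | letI := baseAlg (T.fromSpecResidueField p ≫ t)
    ChiTrivialAt c ε (PicC.pull (baseChangeSnd c (homOverAlg t (T.fromSpecResidueField p))) x)}

theorem mem_chiTrivialSet_iff (hlat : LattExists c ε) {x : PicC (pullback c t)}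
    (hx : Rigidified c ε x) {K : Type u} [Field K] [Algebra k K]
    (s : SchemeHomOver (algSpecMap (k := k) K) t) :
    s.1 (IsLocalRing.closedPoint K) ∈ chiTrivialSet c ε x ↔
      ChiTrivialAt c ε (PicC.pull (baseChangeSnd c s) x) := by
  have hs := (Scheme.SpecToEquivOfField K T).symm_apply_apply s.1
  set e := Scheme.SpecToEquivOfField K T s.1
  have hp : s.1 (IsLocalRing.closedPoint K) = e.1 := rfl
  rw [hp]
  obtain ⟨p, φ⟩ := e
  change Spec.map φ ≫ T.fromSpecResidueField p = s.1 at hs
  let := baseAlg (T.fromSpecResidueField p ≫ t)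
  have hφ : Spec.map φ ≫ algSpecMap (k := k) (T.residueField p) = algSpecMap (k := k) K := by
    rw [algSpecMap_baseAlg, ← Category.assoc, hs, s.2]
  have hc : (φ.hom).comp (algebraMap k (T.residueField p)) = algebraMap k K := by
    rw [← Spec.map_comp] at hφ
    exact congrArg CommRingCat.Hom.hom (Spec.map_injective hφ)
  let f : T.residueField p →ₐ[k] K := { φ.hom with commutes' := RingHom.congr_fun hc }
  have h1 : PicC.pull (baseChangeSnd c s) x = PicC.pull (curveMap c f)
      (PicC.pull (baseChangeSnd c (homOverAlg t (T.fromSpecResidueField p))) x) := by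
    rw [pull_baseChangeSnd_postComp]
    congr 3
    exact Subtype.ext hs.symm
  rw [h1, chiTrivialAt_bc hlat f (rigidified_pull hx _)]
  rfl

theorem preimage_chiTrivialSet (hlat : LattExists c ε) {x : PicC (pullback c t)}
    (hx : Rigidified c ε x) {B : Type u} [CommRing B] [Algebra k B]
    (s : SchemeHomOver (algSpecMap (k := k) B) t) {M : (curveDatum c ε).Sub B}
    (hM : (curveDatum c ε).IsLat M) (h : HasLatt c ε (PicC.pull (baseChangeSnd c s) x) M)
    (q : PrimeSpectrum B) :
    s.1 q ∈ chiTrivialSet c ε x ↔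
      (curveDatum c ε).chiAt M q = (curveDatum c ε).chiAt (1 : (curveDatum c ε).Sub B) q := by
  let s' := postComp s (algHomOver (toResidue (k := k) q))
  have hq : s'.1 (IsLocalRing.closedPoint q.asIdeal.ResidueField) = s.1 q := by
    show s.1 (Spec.map (CommRingCat.ofHom (toResidue (k := k) q).toRingHom) _) = s.1 q
    congr 1
    refine PrimeSpectrum.ext ?_
    show Ideal.comap (algebraMap B q.asIdeal.ResidueField) (IsLocalRing.maximalIdeal _) = q.asIdeal
    rw [IsLocalRing.maximalIdeal_eq_bot]
    exact Ideal.ker_algebraMap_residueField q.asIdeal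
  rw [← hq, mem_chiTrivialSet_iff hlat hx s', ← pull_baseChangeSnd_postComp,
    chiTrivialAt_iff (CurveDatum.IsLat.bc _ hM) (h.bc _)]
  simp only [CurveDatum.chiAt, CurveDatum.fibre, CurveDatum.bc_one]

theorem isClopen_chiTrivialSet (hlat : LattExists c ε) {x : PicC (pullback c t)}
    (hx : Rigidified c ε x) : IsClopen (chiTrivialSet c ε x) := by
  have key : ∀ p : T, ∃ U : Set T, IsOpen U ∧ p ∈ U ∧
      ∀ p' ∈ U, (p' ∈ chiTrivialSet c ε x ↔ p ∈ chiTrivialSet c ε x) := fun p => by
    obtain ⟨_, ⟨W, hW, rfl⟩, hpW, -⟩ :=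
      T.isBasis_affineOpens.exists_subset_of_mem_open (Set.mem_univ p) isOpen_univ
    replace hW : IsAffineOpen W := hW
    let := baseAlg (hW.fromSpec ≫ t)
    let s := homOverAlg t hW.fromSpec
    obtain ⟨M, hM, h⟩ := hlat Γ(T, W) _ (rigidified_pull hx s)
    obtain ⟨q, rfl⟩ : p ∈ Set.range hW.fromSpec := hW.range_fromSpec.symm ▸ hpW
    let χ : PrimeSpectrum Γ(T, W) → ℤ × ℤ := fun q => ((curveDatum c ε).chiAt M q,
      (curveDatum c ε).chiAt (1 : (curveDatum c ε).Sub Γ(T, W)) q)
    have hχ : IsLocallyConstant χ :=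
      hM.isLocallyConstant_chiAt.prodMk ((curveDatum c ε).isLat_one.isLocallyConstant_chiAt)
    refine ⟨hW.fromSpec '' (χ ⁻¹' {χ q}), hW.fromSpec.isOpenEmbedding.isOpenMap _ (hχ _),
      ⟨q, rfl, rfl⟩, ?_⟩
    rintro _ ⟨q', hq', rfl⟩
    refine (preimage_chiTrivialSet hlat hx s hM h q').trans
      (Iff.trans ?_ (preimage_chiTrivialSet hlat hx s hM h q).symm)
    obtain ⟨h₁, h₂⟩ := Prod.ext_iff.1 (show χ q' = χ q from hq')
    simp only [χ] at h₁ h₂
    rw [h₁, h₂]
  refine ⟨⟨isOpen_iff_forall_mem_open.mpr fun p hp => ?_⟩,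
    isOpen_iff_forall_mem_open.mpr fun p hp => ?_⟩
  · obtain ⟨U, hU, hpU, h⟩ := key p
    exact ⟨U, fun q hq hc => hp ((h q hq).1 hc), hU, hpU⟩
  · obtain ⟨U, hU, hpU, h⟩ := key p
    exact ⟨U, fun q hq => (h q hq).2 hp, hU, hpU⟩

/-- On a connected base one point decides. -/
theorem eulerZero_of_preconnected (hlat : LattExists c ε) [PreconnectedSpace T]
    {x : PicC (pullback c t)} (hx : Rigidified c ε x) {K : Type u} [Field K] [Algebra k K]
    (s : SchemeHomOver (algSpecMap (k := k) K) t)
    (h : ChiTrivialAt c ε (PicC.pull (baseChangeSnd c s) x)) : EulerZero c ε x := by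
  have h₀ := (mem_chiTrivialSet_iff hlat hx s).2 h
  refine eulerZero_of_exists fun L _ _ s' => ?_
  obtain ⟨M, hM, hxM⟩ := hlat L _ (rigidified_pull hx s')
  refine ⟨M, hM, hxM, (chiTrivialAt_iff hM hxM).1 ((mem_chiTrivialSet_iff hlat hx s').1 ?_)⟩
  exact ((isClopen_chiTrivialSet hlat hx).eq_univ ⟨_, h₀⟩).ge (Set.mem_univ _)

/-- A class algebraically equivalent to zero on a geometric fibre has Euler characteristic zero
there. -/
theorem chiTrivialAt_of_isAlgEquivZero (hlat : LattExists c ε) (L : RigidifiedLineBundle c ε t)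
    {K : Type u} [Field K] [IsAlgClosed K] [Algebra k K]
    (s : SchemeHomOver (algSpecMap (k := k) K) t)
    (h : IsAlgEquivZero (fibreAt c t s.1)
      ((Scheme.Modules.pullback (pullback.fst (pullback.snd c t) s.1)).obj L.L)) :
    ChiTrivialAt c ε (PicC.pull (baseChangeSnd c s) (PicC.ofModule L.L L.isInvertible)) := by
  obtain ⟨T', g, _, _, M, hM, t₀, t₁, e₀, e₁⟩ := h
  have : IsIntegral T' := GeometricallyIntegral.isIntegral_of_subsingleton g
  let t'' : T' ⟶ Spec (CommRingCat.of k) := g ≫ algSpecMap (k := k) K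
  let e : pullback c t'' ⟶ pullback (fibreAt c t s.1) g :=
    pullback.lift
      (pullback.lift (baseChangeSnd c (⟨g ≫ s.1, by rw [Category.assoc, s.2]⟩ : SchemeHomOver t'' t))
        (pullback.snd c t'' ≫ g)
        (by rw [baseChangeSnd, pullback.lift_snd]; exact (Category.assoc _ _ _).symm))
      (pullback.snd c t'') (by rw [fibreAt, pullback.lift_snd])
  let y₀ : PicC (pullback c t'') := PicC.pull e (PicC.ofModule M hM)
  let y := y₀ / PicC.pull (pullback.snd c t'') (PicC.pull (rigSection c t'' ε) y₀)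
  have hy : Rigidified c ε y := by
    show PicC.pull (rigSection c t'' ε) _ = 1
    rw [map_div, ← PicC.pull_comp _ (pullback.snd c t''), rigSection_snd, PicC.pull_id, div_self']
  let ν : curveOver c K ⟶ pullback (fibreAt c t s.1) (𝟙 (Spec (CommRingCat.of K))) :=
    pullback.lift (pullback.lift (baseChangeSnd c s) (pullback.snd c _)
        (by rw [baseChangeSnd, pullback.lift_snd]))
      (pullback.snd c _) (by rw [fibreAt, pullback.lift_snd, Category.comp_id])
  have key : ∀ (ti : SchemeHomOver (𝟙 (Spec (CommRingCat.of K))) g) (σ : SchemeHomOver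
      (algSpecMap (k := k) K) t''), σ.1 = ti.1 →
      PicC.pull (baseChangeSnd c σ) y = PicC.pull ν (PicC.pull (baseChangeSnd (fibreAt c t s.1) ti)
        (PicC.ofModule M hM)) := fun ti σ hσ => by
    have h1 : baseChangeSnd c σ ≫ e = ν ≫ baseChangeSnd (fibreAt c t s.1) ti := by
      have hg : σ.1 ≫ g = 𝟙 _ := by rw [hσ]; exact ti.2
      apply pullback.hom_ext
      · simp only [e, ν, baseChangeSnd, Category.assoc, pullback.lift_fst, Category.comp_id]
        apply pullback.hom_ext
        · simp only [Category.assoc, pullback.lift_fst]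
          apply pullback.hom_ext
          · simp only [Category.assoc, pullback.lift_fst, Category.comp_id]
          · simp only [Category.assoc, pullback.lift_snd, pullback.lift_snd_assoc]
            rw [← Category.assoc σ.1, hg, Category.id_comp]
        · simp only [Category.assoc, pullback.lift_snd, pullback.lift_snd_assoc, hg,
            Category.comp_id]
      · simp only [e, ν, baseChangeSnd, Category.assoc, pullback.lift_snd,
          pullback.lift_snd_assoc, hσ]
    have h2 : baseChangeSnd c σ ≫ pullback.snd c t'' = pullback.snd c _ ≫ σ.1 := by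
      rw [baseChangeSnd, pullback.lift_snd]
    rw [← PicC.pull_comp ν, ← h1, map_div, PicC.pull_comp _ e,
      ← PicC.pull_comp _ (pullback.snd c t''), h2, PicC.pull_comp _ σ.1,
      PicC.eq_one_of_subsingleton (PicC.pull σ.1 _), map_one, div_one]
  have hσ : ∀ ti : SchemeHomOver (𝟙 (Spec (CommRingCat.of K))) g,
      ti.1 ≫ t'' = algSpecMap (k := k) K := fun ti => by
    rw [← Category.assoc, ti.2, Category.id_comp]
  have hy0 : EulerZero c ε y := by
    refine eulerZero_of_preconnected hlat hy ⟨t₀.1, hσ t₀⟩ ?_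
    rw [key t₀ ⟨t₀.1, hσ t₀⟩ rfl, PicC.pull_ofModule,
      (PicC.ofModule_eq_iff (hN := Scheme.Modules.isInvertible_unit _)).mpr e₀, PicC.ofModule_unit,
      map_one]
    exact chiTrivialAt_one
  have h1 : ChiTrivialAt c ε (PicC.pull (baseChangeSnd c ⟨t₁.1, hσ t₁⟩) y) := fun N hN hyN =>
    (hy0.chi_eq hlat hy _ hyN).2
  rw [key t₁ ⟨t₁.1, hσ t₁⟩ rfl, PicC.pull_ofModule,
    (PicC.ofModule_eq_iff (hN := (L.isInvertible.pullback _).pullback _)).mpr e₁,
    ← PicC.pull_ofModule _ (L.isInvertible.pullback _), ← PicC.pull_ofModule _ L.isInvertible,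
    ← PicC.pull_comp, ← PicC.pull_comp] at h1
  have hν : ν ≫ pullback.fst (fibreAt c t s.1) (𝟙 _) ≫ pullback.fst (pullback.snd c t) s.1 =
      baseChangeSnd c s := by
    simp only [ν, pullback.lift_fst_assoc, pullback.lift_fst]
  rw [Category.assoc, hν] at h1
  exact h1

/-- A rigidified bundle fibrewise algebraically equivalent to zero has Euler characteristic
zero. -/
theorem eulerZero_of_fibrewiseAlgEquivZero (hlat : LattExists c ε)
    (L : RigidifiedLineBundle c ε t) (h : FibrewiseAlgEquivZero L) :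
    EulerZero c ε (PicC.ofModule L.L L.isInvertible) := by
  have hx : Rigidified c ε (PicC.ofModule L.L L.isInvertible) := (RigClass.ofBundle L).pull_val
  refine eulerZero_of_exists fun K _ _ s => ?_
  obtain ⟨M, hM, hxM⟩ := hlat K _ (rigidified_pull hx s)
  refine ⟨M, hM, hxM, (chiTrivialAt_iff hM hxM).1 ?_⟩
  let f : K →ₐ[k] AlgebraicClosure K := IsScalarTower.toAlgHom k K (AlgebraicClosure K)
  rw [← chiTrivialAt_bc hlat f (rigidified_pull hx s), pull_baseChangeSnd_postComp]
  exact chiTrivialAt_of_isAlgEquivZero hlat L _ (h _ _)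

end FermatAgent.Jacobian
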