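import Fermat.Prelude.Def_AlgebraicGeometry_RelPicardAlgEquivZeroCut
import Fermat.Agent.Jacobian.Cocycle.Group
import Fermat.Agent.Jacobian.Rep.Interface

/-!
# Classes of a representable functor are algebraically equivalent to zero

If the representing scheme is covered on geometric points by a geometrically integral scheme, every
class of the functor is fibrewise algebraically equivalent to zero.
-/

set_option autoImplicit false

noncomputable section

open CategoryTheory CategoryTheory.Limits AlgebraicGeometry AlgebraicGeometry.RelPicard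
  NeronModelInfra

namespace FermatAgent.Jacobian

universe u

variable {k : Type u} [Field k] {C : Scheme.{u}} {c : C ⟶ Spec (CommRingCat.of k)}
  {ε : SchemeHomOver (𝟙 (Spec (CommRingCat.of k))) c} {G : GroupFunctor k}

/-- The classes of a represented functor are fibrewise algebraically equivalent to zero. -/
theorem fibrewiseAlgEquivZero_of_represents
    (toPic : ∀ {T : Scheme.{u}} (t : T ⟶ Spec (CommRingCat.of k)), G.obj t → PicC (pullback c t))
    (toPic_one : ∀ {T : Scheme.{u}} (t : T ⟶ Spec (CommRingCat.of k)), toPic t 1 = 1)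
    (natural : ∀ {T T' : Scheme.{u}} {t : T ⟶ Spec (CommRingCat.of k)}
      {t' : T' ⟶ Spec (CommRingCat.of k)} (ψ : SchemeHomOver t' t) (x : G.obj t),
      PicC.pull (baseChangeSnd c ψ) (toPic t x) = toPic t' (G.map ψ x))
    (R : Represents G) {X : Scheme.{u}} {x : X ⟶ Spec (CommRingCat.of k)}
    [LocallyOfFiniteType x] [GeometricallyIntegral x] (a : SchemeHomOver x R.toBase)
    (hlift : ∀ (K : Type u) [Field K] [IsAlgClosed K] (s : Spec (CommRingCat.of K) ⟶ R.J),
      ∃ s' : Spec (CommRingCat.of K) ⟶ X, s' ≫ a.1 = s)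
    {T : Scheme.{u}} {t : T ⟶ Spec (CommRingCat.of k)} (L : RigidifiedLineBundle c ε t)
    (g : G.obj t) (hg : PicC.ofModule L.L L.isInvertible = toPic t g) :
    FibrewiseAlgEquivZero L := by
  intro K _ _ s
  obtain ⟨φ, hφ⟩ := (R.bijective t).2 g
  obtain ⟨z, hz⟩ := (R.bijective (s ≫ t)).2 1
  obtain ⟨q₀, hq₀⟩ := hlift K z.1
  obtain ⟨q₁, hq₁⟩ := hlift K (s ≫ φ.1)
  have hx₀ : q₀ ≫ x = s ≫ t := by rw [← a.2, ← Category.assoc, hq₀, z.2]
  have hx₁ : q₁ ≫ x = s ≫ t := by rw [← a.2, ← Category.assoc, hq₁, Category.assoc, φ.2]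
  let h : pullback x (s ≫ t) ⟶ Spec (CommRingCat.of K) := pullback.snd x (s ≫ t)
  let t₀ : SchemeHomOver (𝟙 (Spec (CommRingCat.of K))) h :=
    ⟨pullback.lift q₀ (𝟙 _) (by rw [hx₀, Category.id_comp]), pullback.lift_snd _ _ _⟩
  let t₁ : SchemeHomOver (𝟙 (Spec (CommRingCat.of K))) h :=
    ⟨pullback.lift q₁ (𝟙 _) (by rw [hx₁, Category.id_comp]), pullback.lift_snd _ _ _⟩
  let v : pullback (pullback.snd c t) s ⟶ pullback c (s ≫ t) :=
    pullback.lift (pullback.fst _ s ≫ pullback.fst c t) (fibreAt c t s)
      (by rw [Category.assoc, pullback.condition, pullback.condition_assoc, fibreAt])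
  let w : pullback (fibreAt c t s) h ⟶ pullback c R.toBase :=
    pullback.lift (pullback.fst _ h ≫ v ≫ pullback.fst c _)
      (pullback.snd _ h ≫ pullback.fst x (s ≫ t) ≫ a.1)
      (by
        rw [Category.assoc, Category.assoc, Category.assoc, Category.assoc, a.2,
          pullback.condition (f := x), pullback.condition (f := c), ← pullback.condition_assoc]
        simp only [v, pullback.lift_snd_assoc])
  have hw : ∀ (ti : SchemeHomOver (𝟙 (Spec (CommRingCat.of K))) h)
      (p : SchemeHomOver (s ≫ t) R.toBase), ti.1 ≫ pullback.fst x (s ≫ t) ≫ a.1 = p.1 →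
      baseChangeSnd (fibreAt c t s) ti ≫ w =
        pullback.fst (fibreAt c t s) (𝟙 _) ≫ v ≫ baseChangeSnd c p := fun ti p hp => by
    apply pullback.hom_ext
    · simp only [w, v, baseChangeSnd, Category.assoc, pullback.lift_fst, pullback.lift_fst_assoc,
        Category.comp_id]
    · simp only [w, v, baseChangeSnd, Category.assoc, pullback.lift_snd, pullback.lift_snd_assoc]
      rw [hp, pullback.condition_assoc, Category.id_comp]
  obtain ⟨d, hd⟩ := PicC.mk_surjective (toPic R.toBase R.univ)
  refine ⟨pullback x (s ≫ t), h, inferInstance, inferInstance,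
    (Scheme.Modules.pullback w).obj d.toModules, d.isInvertible_toModules.pullback w, t₀, t₁,
    ?_, ?_⟩
  · refine (PicC.ofModule_eq_iff (hM := (d.isInvertible_toModules.pullback w).pullback _)
      (hN := Scheme.Modules.isInvertible_unit _)).mp ?_
    rw [PicC.ofModule_unit, ← PicC.pull_ofModule _ (d.isInvertible_toModules.pullback w),
      ← PicC.pull_ofModule _ d.isInvertible_toModules, PicC.ofModule_toModules, hd,
      ← PicC.pull_comp, hw t₀ z (by rw [pullback.lift_fst_assoc, hq₀]), PicC.pull_comp,
      PicC.pull_comp, natural, show G.map z R.univ = 1 from hz, toPic_one, map_one, map_one]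
  · refine (PicC.ofModule_eq_iff (hM := (d.isInvertible_toModules.pullback w).pullback _)
      (hN := (L.isInvertible.pullback _).pullback _)).mp ?_
    let st : SchemeHomOver (s ≫ t) t := ⟨s, rfl⟩
    rw [← PicC.pull_ofModule _ (d.isInvertible_toModules.pullback w),
      ← PicC.pull_ofModule _ d.isInvertible_toModules, PicC.ofModule_toModules, hd,
      ← PicC.pull_comp, hw t₁ (postComp φ st) (by rw [pullback.lift_fst_assoc, hq₁]; rfl),
      PicC.pull_comp, PicC.pull_comp, natural, ← G.map_comp, show G.map φ R.univ = g from hφ,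
      ← natural, ← hg, ← PicC.pull_ofModule _ (L.isInvertible.pullback _),
      ← PicC.pull_ofModule _ L.isInvertible, ← PicC.pull_comp v]
    congr 2
    congr 1
    simp only [v, st, baseChangeSnd]
    apply pullback.hom_ext
    · simp only [Category.assoc, pullback.lift_fst, Category.comp_id]
    · simp only [Category.assoc, pullback.lift_snd, pullback.lift_snd_assoc, fibreAt]
      exact pullback.condition.symm

end FermatAgent.Jacobian
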