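import Fermat.Agent.Jacobian.Bridge.Model

/-!
# The Jacobian with its properties, from the bridge
-/

set_option autoImplicit false

noncomputable section

open CategoryTheory CategoryTheory.Limits AlgebraicGeometry AlgebraicGeometry.RelPicard
  TopologicalSpace AlgebraicCurve NeronModelInfra GoodReductionJacobian

namespace FermatAgent.Jacobian

universe u

variable {k : Type u} [Field k] [IsAlgClosed k] {C : Scheme.{u}}
  {c : C ⟶ Spec (CommRingCat.of k)} [SmoothOfRelativeDimension 1 c] [IsIntegral C] [IsProper c]
  {ε : SchemeHomOver (𝟙 (Spec (CommRingCat.of k))) c}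

/-- The designation of the Jacobian, given the comparison of the cut with the Euler
characteristic. -/
theorem BridgeFacts.exists_designation (F : BridgeFacts c ε)
    (gen : GeneratingFamily (F.functor c ε) c)
    (hmem : ∀ (R : Represents (F.functor c ε)),
      (∃ (X : Scheme.{u}) (x : X ⟶ Spec (CommRingCat.of k)) (a : SchemeHomOver x R.toBase),
          IsProper x ∧ GeometricallyIntegral x ∧
            ∀ (K : Type u) [Field K] [IsAlgClosed K] (s : Spec (CommRingCat.of K) ⟶ R.J),
              ∃ s', s' ≫ a.1 = s) →
        ∀ {T : Scheme.{u}} (t : T ⟶ Spec (CommRingCat.of k)) (x : (F.functor c ε).obj t),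
          FibrewiseAlgEquivZero (F.toBundle x))
    (hsurj : ∀ {T : Scheme.{u}} (t : T ⟶ Spec (CommRingCat.of k))
      (L : RigidifiedLineBundle c ε t), FibrewiseAlgEquivZero L →
        EulerZero c ε (RigClass.ofBundle L).val) :
    ∃ D : RelativePic0Designation k c,
      Nonempty (RepresentsRelSubPic c ε (algEquivZeroCut c ε) D) ∧
        Smooth D.toBase ∧ IsProper D.toBase ∧ GeometricallyConnected D.toBase := by
  obtain ⟨R, hs, hp, hg, hX⟩ := F.exists_represents gen
  exact ⟨(F.picModel (hmem R hX) hsurj).designation R,
    (F.picModel (hmem R hX) hsurj).nonempty_represents R, hs, hp, hg⟩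

end FermatAgent.Jacobian
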