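import Fermat.Agent.Jacobian.Bridge.Classes
import Fermat.Agent.Jacobian.Bridge.Cut
import Fermat.Agent.Jacobian.Bridge.CutConverse
import Fermat.Agent.Jacobian.Bridge.Final

/-!
# The Jacobian from the bridge and the diagonal family
-/

set_option autoImplicit false

noncomputable section

open CategoryTheory CategoryTheory.Limits AlgebraicGeometry AlgebraicGeometry.RelPicard
  TopologicalSpace AlgebraicCurve NeronModelInfra GoodReductionJacobian

namespace FermatAgent.Jacobian

universe u

variable {k : Type u} [Field k] [IsAlgClosed k] {C : Scheme.{u}}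
  {c : C ⟶ Spec (CommRingCat.of k)} [SmoothOfRelativeDimension 1 c] [IsIntegral C] [IsProper c]
  {ε : SchemeHomOver (𝟙 (Spec (CommRingCat.of k))) c}

/-- A rigidified family over the curve which is trivial at the base point has trivial Euler
characteristic. -/
theorem eulerZero_of_trivial_at_base (hlat : LattExists c ε) (δ : PicC (pullback c c))
    (hrig : Rigidified c ε δ) (hε : PicC.pull (baseChangeSnd c (algPoint ε)) δ = 1) :
    EulerZero c ε δ := by
  refine eulerZero_of_preconnected hlat hrig (algPoint ε) ?_
  rw [hε]
  exact chiTrivialAt_one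

/-- The Jacobian, given the dictionary and the diagonal family. -/
theorem BridgeFacts.exists_designation_of_family (F : BridgeFacts c ε) (δ : PicC (pullback c c))
    (hrig : Rigidified c ε δ) (hε : PicC.pull (baseChangeSnd c (algPoint ε)) δ = 1)
    (hδ : ∀ φ : (curveDatum c ε).R →ₐ[k] k, ∃ L : (curveDatum c ε).Sub k,
      HasLatt c ε (PicC.pull (baseChangeSnd c (pointOfHom c ε φ)) δ) L ∧
        (curveDatum c ε).Equiv (L * (curveDatum c ε).pointIdeal k φ)
          ((curveDatum c ε).twist (-1) 1)) :
    ∃ D : RelativePic0Designation k c,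
      Nonempty (RepresentsRelSubPic c ε (algEquivZeroCut c ε) D) ∧
        Smooth D.toBase ∧ IsProper D.toBase ∧ GeometricallyConnected D.toBase := by
  obtain ⟨gen⟩ := F.nonempty_generatingFamily δ hrig
    (eulerZero_of_trivial_at_base F.lattExists δ hrig hε) hε hδ
  refine F.exists_designation gen ?_
    (fun t L hL => eulerZero_of_fibrewiseAlgEquivZero F.lattExists L hL)
  rintro R ⟨X, x, a, hx, hgi, hlift⟩ T t g
  exact fibrewiseAlgEquivZero_of_represents (G := F.functor c ε) (fun _ y => y.1.val)
    (fun _ => rfl) (fun _ _ => rfl) R a hlift (F.toBundle g) g (F.ofModule_toBundle g)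

end FermatAgent.Jacobian
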