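import Fermat.Agent.Jacobian.Bridge.Class

/-!
# The multiples of the section

Gluing `U_A` and `V_A` by a power of the uniformiser gives the bundles with lattice `t ^ n`.
-/

set_option autoImplicit false

noncomputable section

open CategoryTheory CategoryTheory.Limits AlgebraicGeometry AlgebraicGeometry.RelPicard
  TopologicalSpace AlgebraicCurve NeronModelInfra

namespace FermatAgent.Jacobian

universe u

variable {k : Type u} [Field k] [IsAlgClosed k] {C : Scheme.{u}}
  (c : C ⟶ Spec (CommRingCat.of k)) [SmoothOfRelativeDimension 1 c] [IsIntegral C] [IsProper c]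
  (ε : SchemeHomOver (𝟙 (Spec (CommRingCat.of k))) c) (A : Type u) [CommRing A] [Algebra k A]

theorem isUnit_chartVarA_overlap :
    IsUnit (ores (inf_le_right : openUV c ε A ≤ openV c ε A) (chartVarA c ε A)) := by
  have h := (RingedSpace.isUnit_res_basicOpen (curveOver c A).toRingedSpace (chartVarA c ε A)).ores
    (openAbove_overlap c ε A).le
  exact (ores_ores _ _ _) ▸ h

/-- The uniformiser on the overlap, as a unit. -/
def overlapVar : Γ(curveOver c A, openUV c ε A)ˣ :=
  (isUnit_chartVarA_overlap c ε A).unit

theorem expUV_overlapVar :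
    Units.map (expUV c ε A).toMonoidHom (overlapVar c ε A) =
      ⟨HahnSeries.single 1 1, HahnSeries.single (-1) 1,
        by rw [HahnSeries.single_mul_single]; simp,
        by rw [HahnSeries.single_mul_single]; simp⟩ := by
  refine Units.ext ?_
  show expUV c ε A (ores inf_le_right (chartVarA c ε A)) = _
  rw [expUV_ores_right]
  exact expSec_chartVarA c ε A

theorem expUV_overlapVar_zpow (n : ℤ) :
    expUV c ε A ↑(overlapVar c ε A ^ n) = HahnSeries.single n (1 : A) := by
  have h : Units.map (expUV c ε A).toMonoidHom (overlapVar c ε A ^ n) =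
      ⟨HahnSeries.single n 1, HahnSeries.single (-n) 1,
        by rw [HahnSeries.single_mul_single]; simp,
        by rw [HahnSeries.single_mul_single]; simp⟩ := by
    rw [map_zpow, expUV_overlapVar]
    induction n using Int.induction_on with
    | zero => exact Units.ext (by simp)
    | succ i ih =>
      rw [zpow_add_one, ih]
      exact Units.ext (by simp [HahnSeries.single_mul_single])
    | pred i ih =>
      rw [zpow_sub_one, ih]
      exact Units.ext (by simp [HahnSeries.single_mul_single, sub_eq_add_neg])
  exact congrArg Units.val h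

/-- The two opens. -/
def twistOpen : Bool → (curveOver c A).Opens
  | false => openU c ε A
  | true => openV c ε A

/-- The transition functions. -/
def twistTrans (n : ℤ) : ∀ i j, Γ(curveOver c A, twistOpen c ε A i ⊓ twistOpen c ε A j)ˣ
  | false, false => 1
  | true, true => 1
  | false, true => overlapVar c ε A ^ n
  | true, false => (Units.map ((curveOver c A).presheaf.map
      (homOfLE (inf_comm (openV c ε A) (openU c ε A)).le).op).hom.toMonoidHom
        (overlapVar c ε A ^ (-n)))

theorem twistTrans_cocycle (n : ℤ) (i j l : Bool) (W : (curveOver c A).Opens)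
    (hi : W ≤ twistOpen c ε A i) (hj : W ≤ twistOpen c ε A j) (hl : W ≤ twistOpen c ε A l) :
    ores (le_inf hi hj) (twistTrans c ε A n i j : Γ(curveOver c A, _)) *
      ores (le_inf hj hl) (twistTrans c ε A n j l : Γ(curveOver c A, _)) =
    ores (le_inf hi hl) (twistTrans c ε A n i l : Γ(curveOver c A, _)) := by
  have key : ∀ (hU : W ≤ openU c ε A) (hV : W ≤ openV c ε A),
      ores (le_inf hU hV) (↑(overlapVar c ε A ^ n) : Γ(curveOver c A, _)) *
        ores (le_inf hU hV) (↑(overlapVar c ε A ^ (-n)) : Γ(curveOver c A, _)) = 1 := by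
    intro hU hV
    rw [← ores_mul, ← Units.val_mul, ← zpow_add, add_neg_cancel, zpow_zero, Units.val_one, ores_one]
  have e : ∀ (hV : W ≤ openV c ε A) (hU : W ≤ openU c ε A),
      ores (le_inf hV hU : W ≤ openV c ε A ⊓ openU c ε A)
        ((twistTrans c ε A n true false).val : Γ(curveOver c A, openV c ε A ⊓ openU c ε A)) =
        ores (le_inf hU hV) (↑(overlapVar c ε A ^ (-n)) : Γ(curveOver c A, _)) :=
    fun hV hU => ores_ores (le_inf hV hU) (inf_comm (openV c ε A) (openU c ε A)).le
      (↑(overlapVar c ε A ^ (-n)) : Γ(curveOver c A, openUV c ε A))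
  have one : ∀ (b : Bool) (h : W ≤ twistOpen c ε A b ⊓ twistOpen c ε A b),
      ores h (twistTrans c ε A n b b : Γ(curveOver c A, _)) = 1 := by
    intro b h
    cases b <;> exact ores_one h
  cases i <;> cases j <;> cases l <;> simp only [one, one_mul, mul_one]
  · exact (congrArg (_ * ·) (e hj hl)).trans (key hl hj)
  · exact ((congrArg (· * _) (e hi hj)).trans (mul_comm _ _)).trans (key hj hi)

theorem exists_mem_twistOpen (x : curveOver c A) :
    ∃ b, x ∈ twistOpen c ε A b := by
  have h : x ∈ openU c ε A ⊔ openV c ε A := (openAbove_base_sup_chart c ε A).ge trivial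
  rcases h with h | h
  · exact ⟨false, h⟩
  · exact ⟨true, h⟩

/-- The cocycle of the `n`-fold section. -/
def twistCocycle (n : ℤ) : Cocycle (curveOver c A) :=
  Cocycle.ofCover (twistOpen c ε A) (fun x => (exists_mem_twistOpen c ε A x).choose)
    (fun x => (exists_mem_twistOpen c ε A x).choose_spec)
    (fun i j => (twistTrans c ε A n i j : Γ(curveOver c A, _)))
    (fun _ _ => Units.isUnit _) (twistTrans_cocycle c ε A n)

/-- The frame on the affine curve. -/
def twistFrameU (n : ℤ) : Γ((twistCocycle c ε A n).toModules, openU c ε A) :=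
  Cocycle.coverFrame (U := twistOpen c ε A) false

/-- The frame near the section. -/
def twistFrameV (n : ℤ) : Γ((twistCocycle c ε A n).toModules, openV c ε A) :=
  Cocycle.coverFrame (U := twistOpen c ε A) true

theorem isFrame_twistFrameU (n : ℤ) : IsFrame (twistFrameU c ε A n) :=
  Cocycle.isFrame_coverFrame (U := twistOpen c ε A) false

theorem twistFrameU_eq_smul (n : ℤ) :
    mres (twistCocycle c ε A n).toModules (inf_le_left : openUV c ε A ≤ openU c ε A)
        (twistFrameU c ε A n) =
      (↑(overlapVar c ε A ^ n) : Γ(curveOver c A, openUV c ε A)) •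
        mres (twistCocycle c ε A n).toModules inf_le_right (twistFrameV c ε A n) :=
  Cocycle.coverFrame_eq_smul false true

/-- Its trivialisation near the section. -/
def twistTriv (n : ℤ) : NearTriv c ε A (twistCocycle c ε A n) where
  g := 1
  near := isNear_one c ε A
  q := mres _ ((curveOver c A).basicOpen_le (1 : Γ(curveOver c A, openV c ε A)))
    (twistFrameV c ε A n)
  isFrame := (Cocycle.isFrame_coverFrame (U := twistOpen c ε A) true).res _

theorem latt_twistTriv (n : ℤ) :
    (twistTriv c ε A n).latt = (curveDatum c ε).twist n 1 := by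
  have hval : (twistTriv c ε A n).val (twistFrameU c ε A n) = HahnSeries.single n (1 : A) := by
    rw [← expUV_overlapVar_zpow c ε A n, NearTriv.val,
      ← expG_ores_UV (twistTriv c ε A n).near _ (openG_le_openUV _)]
    congr 1
    refine IsFrame.coef_eq _ ?_
    have h' := congrArg (mres (twistCocycle c ε A n).toModules
      (openG_le_openUV (twistTriv c ε A n).g)) (twistFrameU_eq_smul c ε A n)
    simp only [mres_smul, mres_mres] at h'
    simp only [twistTriv, mres_mres]
    exact h'.symm
  rw [CurveDatum.twist, one_mul]
  refine le_antisymm ?_ ((Submodule.span_singleton_le_iff_mem _ _).mpr ⟨_, hval⟩)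
  rintro _ ⟨s, rfl⟩
  obtain ⟨r, hr⟩ := (isFrame_twistFrameU c ε A n (openU c ε A) le_rfl).surjective s
  simp only [mres_self] at hr
  rw [← hr, NearTriv.val_smul, hval, ← (ringU c ε A).apply_symm_apply r, expU_ringU]
  exact Submodule.smul_mem _ ((ringU c ε A).symm r) (Submodule.mem_span_singleton_self _)

theorem hasLatt_twist (n : ℤ) :
    HasLatt c ε (PicC.mk (twistCocycle c ε A n)) ((curveDatum c ε).twist n 1) := by
  rw [← latt_twistTriv]
  exact HasLatt.of_triv _

end FermatAgent.Jacobian
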