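import Fermat.Agent.Jacobian.Bridge.Facts
import Fermat.Agent.Jacobian.Bridge.Locus
import Fermat.Agent.Jacobian.Bridge.Twist
import Fermat.Agent.Jacobian.Cell.Invertible

/-!
# The charts of the Picard functor

For a list of rational points the classes whose normalised lattice has no cohomology form an open
subfunctor represented by the cell; these charts cover.
-/

set_option autoImplicit false

noncomputable section

open CategoryTheory CategoryTheory.Limits AlgebraicGeometry AlgebraicGeometry.RelPicard
  TopologicalSpace AlgebraicCurve NeronModelInfra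

namespace FermatAgent.Jacobian

universe u

theorem exists_algebra_algSpecMap {k B : Type u} [Field k] [CommRing B]
    (t : Spec (CommRingCat.of B) ⟶ Spec (CommRingCat.of k)) :
    ∃ _ : Algebra k B, algSpecMap (k := k) B = t :=
  ⟨baseAlg t, algSpecMap_baseAlg t⟩

theorem exists_algHomOver_eq {k A B : Type u} [Field k] [CommRing A] [Algebra k A] [CommRing B]
    [Algebra k B] (g : SchemeHomOver (algSpecMap (k := k) B) (algSpecMap (k := k) A)) :
    ∃ f : A →ₐ[k] B, algHomOver f = g := by
  have hg : Spec.map (Spec.preimage g.1) ≫ Spec.map (CommRingCat.ofHom (algebraMap k A)) =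
      Spec.map (CommRingCat.ofHom (algebraMap k B)) := by
    rw [Spec.map_preimage]
    exact g.2
  rw [← Spec.map_comp] at hg
  have hc : (Spec.preimage g.1).hom.comp (algebraMap k A) = algebraMap k B :=
    congrArg CommRingCat.Hom.hom (Spec.map_injective hg)
  exact ⟨{ (Spec.preimage g.1).hom with commutes' := RingHom.congr_fun hc },
    Subtype.ext (Spec.map_preimage g.1)⟩

theorem mul_prod_map_eq_one {M ι : Type*} [CommMonoid M] (f g : ι → M) (xs : List ι)
    (h : ∀ i, f i * g i = 1) : (xs.map f).prod * (xs.map g).prod = 1 := by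
  induction xs with
  | nil => simp
  | cons i xs ih =>
    rw [List.map_cons, List.map_cons, List.prod_cons, List.prod_cons, mul_mul_mul_comm, h, ih,
      one_mul]

variable {k : Type u} [Field k] [IsAlgClosed k] {C : Scheme.{u}}
  {c : C ⟶ Spec (CommRingCat.of k)} [SmoothOfRelativeDimension 1 c] [IsIntegral C] [IsProper c]
  {ε : SchemeHomOver (𝟙 (Spec (CommRingCat.of k))) c}

theorem HasLatt.list_prod {A : Type u} [CommRing A] [Algebra k A] {ι : Type*} (xs : List ι)
    (y : ι → PicC (curveOver c A)) (M : ι → (curveDatum c ε).Sub A)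
    (h : ∀ i, HasLatt c ε (y i) (M i)) : HasLatt c ε (xs.map y).prod (xs.map M).prod := by
  induction xs with
  | nil => exact HasLatt.one
  | cons i xs ih =>
    rw [List.map_cons, List.map_cons, List.prod_cons, List.prod_cons]
    exact (h i).mul ih

namespace BridgeFacts

variable (F : BridgeFacts c ε)
include F

theorem isLat_of_hasLatt {A : Type u} [CommRing A] [Algebra k A] {x : PicC (curveOver c A)}
    {M : (curveDatum c ε).Sub A} (h : HasLatt c ε x M) : (curveDatum c ε).IsLat M := by
  obtain ⟨M', hM', h'⟩ := F.lattExists A x (F.rigidified_of_hasLatt A x M h)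
  exact hM'.equiv (h'.equiv h)

/-- A class with prescribed lattice in a chart. -/
theorem exists_chart_class {A : Type u} [CommRing A] [Algebra k A]
    {N : (curveDatum c ε).Sub A} (hN : (curveDatum c ε).InCell N)
    (xs : List ((curveDatum c ε).R →ₐ[k] k)) :
    ∃ (x : PicC (curveOver c A)) (M : (curveDatum c ε).Sub A), (curveDatum c ε).IsLat M ∧
      Rigidified c ε x ∧ HasLatt c ε x M ∧ (curveDatum c ε).chartLatt xs M = N := by
  obtain ⟨a, ha⟩ := F.exists_inCell A N hN
  choose y Q hy hQ using F.exists_point A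
  set j := (curveDatum c ε).chartShift xs with hj
  have h := (ha.mul (HasLatt.list_prod xs y Q hy)).mul (hasLatt_twist c ε A (-j))
  refine ⟨_, _, F.isLat_of_hasLatt h, F.rigidified_of_hasLatt A _ _ h, h, ?_⟩
  have hprod : (xs.map Q).prod * (curveDatum c ε).pointsLat A xs = 1 :=
    mul_prod_map_eq_one Q ((curveDatum c ε).pointIdeal A) xs hQ
  rw [CurveDatum.chartLatt, CurveDatum.twist, CurveDatum.twist, one_mul, ← hj]
  calc _ = N * ((xs.map Q).prod * (curveDatum c ε).pointsLat A xs) *
        (Submodule.span ((curveDatum c ε).RA A) {HahnSeries.single (-j) (1 : A)} *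
          Submodule.span ((curveDatum c ε).RA A) {HahnSeries.single j (1 : A)}) := by
        simp only [mul_assoc, mul_comm, mul_left_comm]
    _ = N := by
        rw [hprod, mul_one, Submodule.span_mul_span, Set.singleton_mul_singleton,
          HahnSeries.single_mul_single, neg_add_cancel, one_mul,
          show HahnSeries.single (0 : ℤ) (1 : A) = 1 from rfl,
          CurveDatum.span_singleton_one, mul_one]

variable (c ε) in
/-- The functor of the classes with trivial Euler characteristic. -/
abbrev functor : GroupFunctor k := picZeroFunctor c ε F.lattExists F.rigidUnits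

theorem exists_chart_univ (xs : List ((curveDatum c ε).R →ₐ[k] k)) :
    ∃ (u : (F.functor c ε).obj (algSpecMap (k := k) (curveDatum c ε).CellRing))
      (M : (curveDatum c ε).Sub (curveDatum c ε).CellRing), (curveDatum c ε).IsLat M ∧
      HasLatt c ε u.1.val M ∧
      (curveDatum c ε).chartLatt xs M = (curveDatum c ε).univCell := by
  obtain ⟨x, M, hM, hx, hxM, hch⟩ :=
    F.exists_chart_class (curveDatum c ε).inCell_univCell xs
  refine ⟨⟨RigClass.mk x hx, eulerZero_of_exists fun K _ _ s => ?_⟩, M, hM, hxM, hch⟩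
  obtain ⟨f, rfl⟩ := exists_algHomOver_eq s
  refine ⟨(curveDatum c ε).bc f M, CurveDatum.IsLat.bc f hM, hxM.bc f, ?_⟩
  have hcp : (curveDatum c ε).Compl
      ((curveDatum c ε).chartLatt xs ((curveDatum c ε).bc f M)) 1 := by
    rw [← CurveDatum.bc_chartLatt, hch]
    exact CurveDatum.Compl.bc (curveDatum c ε).inCell_univCell.2 f
  have hMf := CurveDatum.IsLat.bc f hM
  have h1 := ((hMf.chartLatt xs).compl_iff_chi.mp hcp).2
  rw [hMf.chi_chartLatt] at h1
  omega

/-- The universal class of a chart. -/
def chartUniv (xs : List ((curveDatum c ε).R →ₐ[k] k)) :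
    (F.functor c ε).obj (algSpecMap (k := k) (curveDatum c ε).CellRing) :=
  (F.exists_chart_univ xs).choose

theorem chartUniv_spec (xs : List ((curveDatum c ε).R →ₐ[k] k)) :
    ∃ M : (curveDatum c ε).Sub (curveDatum c ε).CellRing, (curveDatum c ε).IsLat M ∧
      HasLatt c ε (F.chartUniv xs).1.val M ∧
      (curveDatum c ε).chartLatt xs M = (curveDatum c ε).univCell :=
  (F.exists_chart_univ xs).choose_spec

/-- The chart of a list of points. -/
def chartLocus (xs : List ((curveDatum c ε).R →ₐ[k] k)) {T : Scheme.{u}}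
    {t : T ⟶ Spec (CommRingCat.of k)} (x : (F.functor c ε).obj t) : T.Opens :=
  ⟨locusSet c ε xs x.1.val, isOpen_locusSet F.lattExists x.1.pull_val⟩

theorem chartLocus_map (xs : List ((curveDatum c ε).R →ₐ[k] k)) {T T' : Scheme.{u}}
    {t : T ⟶ Spec (CommRingCat.of k)} {t' : T' ⟶ Spec (CommRingCat.of k)}
    (ψ : SchemeHomOver t' t) (x : (F.functor c ε).obj t) :
    F.chartLocus xs ((F.functor c ε).map ψ x) = ψ.1 ⁻¹ᵁ F.chartLocus xs x := by
  refine Opens.ext (Set.ext fun p => ?_)
  show p ∈ locusSet c ε xs ((RigClass.map ψ x.1).val) ↔ ψ.1 p ∈ locusSet c ε xs x.1.val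
  let := baseAlg (T'.fromSpecResidueField p ≫ t')
  have h := mem_locusSet_iff (xs := xs) F.lattExists x.1.pull_val
    (postComp ψ (homOverAlg t' (T'.fromSpecResidueField p)))
  rw [show (postComp ψ (homOverAlg t' (T'.fromSpecResidueField p))).1
      (IsLocalRing.closedPoint (T'.residueField p)) = ψ.1 p from
        congrArg ψ.1 (Scheme.fromSpecResidueField_apply p _)] at h
  rw [h, ← pull_baseChangeSnd_postComp]
  rfl

theorem chartLocus_univ (xs : List ((curveDatum c ε).R →ₐ[k] k)) :
    F.chartLocus xs (F.chartUniv xs) = ⊤ := by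
  obtain ⟨M, hM, hu, hch⟩ := F.chartUniv_spec xs
  refine Opens.ext (Set.eq_univ_of_forall fun q => ?_)
  have hid : PicC.pull (baseChangeSnd c
      (⟨𝟙 _, Category.id_comp _⟩ : SchemeHomOver (algSpecMap (k := k) (curveDatum c ε).CellRing)
        (algSpecMap (k := k) (curveDatum c ε).CellRing))) (F.chartUniv xs).1.val =
      (F.chartUniv xs).1.val := by
    rw [baseChangeSnd_id]
    exact PicC.pull_id _
  refine (preimage_locusSet (xs := xs) F.lattExists (F.chartUniv xs).1.pull_val
    ⟨𝟙 _, Category.id_comp _⟩ hM (hid.symm ▸ hu) q).mpr ?_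
  rw [hch]
  exact CurveDatum.Compl.bc (curveDatum c ε).inCell_univCell.2 _

theorem chart_classify (xs : List ((curveDatum c ε).R →ₐ[k] k)) {B : Type u} [CommRing B]
    (t : Spec (CommRingCat.of B) ⟶ Spec (CommRingCat.of k)) (x : (F.functor c ε).obj t)
    (hx : F.chartLocus xs x = ⊤) :
    ∃! g : SchemeHomOver t (algSpecMap (k := k) (curveDatum c ε).CellRing),
      (F.functor c ε).map g (F.chartUniv xs) = x := by
  obtain ⟨inst, rfl⟩ := exists_algebra_algSpecMap t
  obtain ⟨M₀, hM₀, hu, hch⟩ := F.chartUniv_spec xs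
  obtain ⟨M, hM, hxM⟩ := F.lattExists B x.1.val x.1.pull_val
  have hid : PicC.pull (baseChangeSnd c
      (⟨𝟙 _, Category.id_comp _⟩ : SchemeHomOver (algSpecMap (k := k) B) (algSpecMap (k := k) B)))
      x.1.val = x.1.val := by
    rw [baseChangeSnd_id]
    exact PicC.pull_id _
  have hcp : (curveDatum c ε).Compl ((curveDatum c ε).chartLatt xs M) 1 :=
    (hM.chartLatt xs).compl_of_forall fun q =>
      (preimage_locusSet (xs := xs) F.lattExists x.1.pull_val
        ⟨𝟙 _, Category.id_comp _⟩ hM (hid.symm ▸ hxM) q).mp ((le_of_eq hx.symm) trivial)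
  obtain ⟨e, ⟨he, he'⟩, -⟩ := hcp.existsUnique_unit
  obtain ⟨w, hw, hew⟩ := (CurveDatum.isUnitSeries_of_sub_one_mem he').exists_inv
  have hN := hcp.inCell he he' hew
  have key : ∀ f : (curveDatum c ε).CellRing →ₐ[k] B,
      (F.functor c ε).map (algHomOver f) (F.chartUniv xs) = x ↔ f = hN.cellHom := by
    intro f
    have hf : HasLatt c ε (RigClass.map (algHomOver f) (F.chartUniv xs).1).val
        ((curveDatum c ε).bc f M₀) := hu.bc f
    have hcf : (curveDatum c ε).chartLatt xs ((curveDatum c ε).bc f M₀) =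
        (curveDatum c ε).bc f (curveDatum c ε).univCell := by
      rw [← CurveDatum.bc_chartLatt, hch]
    constructor
    · intro h
      refine hN.cellHom_unique (((curveDatum c ε).inCell_univCell.bc f).eq_of_equiv hN ?_)
      rw [← hcf]
      rw [show (RigClass.map (algHomOver f) (F.chartUniv xs).1) = x.1 from
        congrArg Subtype.val h] at hf
      exact ((hf.equiv hxM).chartLatt xs).trans ⟨w, hw, rfl⟩
    · rintro rfl
      refine Subtype.ext (RigClass.ext' ?_)
      refine F.eq_of_hasLatt B _ _ M (RigClass.map _ (F.chartUniv xs).1).pull_val x.1.pull_val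
        (hf.congr (CurveDatum.equiv_of_chartLatt (xs := xs) ?_)) hxM
      rw [hcf, hN.bc_cellHom]
      exact CurveDatum.Equiv.symm ⟨w, hw, rfl⟩
  refine ⟨algHomOver hN.cellHom, (key _).mpr rfl, fun g hg => ?_⟩
  obtain ⟨f, rfl⟩ := exists_algHomOver_eq g
  rw [(key f).mp hg]

theorem chart_cover {T : Scheme.{u}} {t : T ⟶ Spec (CommRingCat.of k)}
    (x : (F.functor c ε).obj t) (p : T) :
    ∃ xs, p ∈ F.chartLocus xs x := by
  let := baseAlg (T.fromSpecResidueField p ≫ t)
  let s := homOverAlg t (T.fromSpecResidueField p)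
  obtain ⟨M, hM, hxM⟩ := F.lattExists (T.residueField p) _ (rigidified_pull x.1.pull_val s)
  have hchi := (EulerZero.chi_eq x.2 F.lattExists x.1.pull_val s hxM).2
  obtain ⟨n, hn⟩ := hM.exists_surj
  obtain ⟨xs, hlen, hcp⟩ := hM.exists_chart (hn n le_rfl)
  refine ⟨xs, ?_⟩
  show InChartAt c ε xs _
  rw [inChartAt_iff hM hxM, CurveDatum.chartLatt]
  have hj : (1 : ℤ) = n + (curveDatum c ε).chartShift xs := by
    rw [hchi, CurveDatum.chi_one_eq] at hlen
    rw [CurveDatum.chartShift]
    omega
  rw [hj]
  exact (CurveDatum.IsLat.compl_twist _ n).mpr hcp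

/-- The atlas of the functor. -/
def atlas : CellAtlas (F.functor c ε) where
  ι := List ((curveDatum c ε).R →ₐ[k] k)
  Ring := (curveDatum c ε).CellRing
  univ := F.chartUniv
  locus xs {_ _} x := F.chartLocus xs x
  locus_map xs {_ _ _ _} ψ x := F.chartLocus_map xs ψ x
  locus_univ := F.chartLocus_univ
  classify xs {_} _ t x hx := F.chart_classify xs t x hx
  cover x p := F.chart_cover x p

end BridgeFacts

end FermatAgent.Jacobian
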