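import Fermat.Agent.Jacobian.Setup.SecExpansion
import Fermat.Agent.Jacobian.Cocycle.Local
import Fermat.Agent.Jacobian.Bridge.UnitSeries

/-!
# Expansions near the section

For a function `g` on `V_A` expanding to a unit series, the functions on `D(g)` expand in `A[[t]]`
and those on `U_A ⊓ D(g)` in `A((t))`.
-/

set_option autoImplicit false

noncomputable section

open CategoryTheory CategoryTheory.Limits AlgebraicGeometry TopologicalSpace AlgebraicCurve
  NeronModelInfra

namespace FermatAgent.Jacobian

open scoped TensorProduct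

universe u

variable {k : Type u} [Field k] [IsAlgClosed k] {C : Scheme.{u}}
  (c : C ⟶ Spec (CommRingCat.of k)) [SmoothOfRelativeDimension 1 c] [IsIntegral C] [IsProper c]
  (ε : SchemeHomOver (𝟙 (Spec (CommRingCat.of k))) c) (A : Type u) [CommRing A] [Algebra k A]

/-- The affine curve over `A`. -/
abbrev openU : (curveOver c A).Opens := openAbove c A (baseOpen c ε)

/-- The neighbourhood of the section over `A`. -/
abbrev openV : (curveOver c A).Opens := openAbove c A (chartOpen c ε)

theorem isAffineOpen_openU : IsAffineOpen (openU c ε A) :=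
  isAffineOpen_openAbove c A (isAffineOpen_baseOpen c ε)

theorem isAffineOpen_openV : IsAffineOpen (openV c ε A) :=
  isAffineOpen_openAbove c A (isAffineOpen_chartOpen c ε)

/-- The functions on the affine curve over `A`. -/
def ringU : (curveDatum c ε).RA A ≃+* Γ(curveOver c A, openU c ε A) :=
  sectionsEquiv c A (isAffineOpen_baseOpen c ε)

/-- The expansion on the affine curve. -/
def expU : Γ(curveOver c A, openU c ε A) →+* LaurentSeries A :=
  expSec c ε A (baseOpen c ε) (isAffineOpen_baseOpen c ε)

theorem expU_ringU (x : (curveDatum c ε).RA A) :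
    expU c ε A (ringU c ε A x) = (curveDatum c ε).expA A x :=
  expSec_baseOpen c ε A x

/-- The expansion near the section. -/
def expV : Γ(curveOver c A, openV c ε A) →+* LaurentSeries A :=
  expSec c ε A (chartOpen c ε) (isAffineOpen_chartOpen c ε)

theorem expV_mem_fil (x : Γ(curveOver c A, openV c ε A)) : expV c ε A x ∈ fil A 0 :=
  expSec_mem_fil c ε A (isAffineOpen_chartOpen c ε) (basePt_mem_chartOpen c ε) x

/-- The power series expansion near the section. -/
def expVps : Γ(curveOver c A, openV c ε A) →+* PowerSeries A where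
  toFun x := (exists_powerSeries_of_mem_fil_zero (expV_mem_fil c ε A x)).choose
  map_one' := HahnSeries.ofPowerSeries_injective (Γ := ℤ) (by
    rw [(exists_powerSeries_of_mem_fil_zero (expV_mem_fil c ε A 1)).choose_spec, map_one, map_one])
  map_mul' x y := HahnSeries.ofPowerSeries_injective (Γ := ℤ) (by
    rw [map_mul (HahnSeries.ofPowerSeries ℤ A),
      (exists_powerSeries_of_mem_fil_zero (expV_mem_fil c ε A _)).choose_spec,
      (exists_powerSeries_of_mem_fil_zero (expV_mem_fil c ε A _)).choose_spec,
      (exists_powerSeries_of_mem_fil_zero (expV_mem_fil c ε A _)).choose_spec, map_mul])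
  map_zero' := HahnSeries.ofPowerSeries_injective (Γ := ℤ) (by
    rw [(exists_powerSeries_of_mem_fil_zero (expV_mem_fil c ε A 0)).choose_spec, map_zero, map_zero])
  map_add' x y := HahnSeries.ofPowerSeries_injective (Γ := ℤ) (by
    rw [map_add (HahnSeries.ofPowerSeries ℤ A),
      (exists_powerSeries_of_mem_fil_zero (expV_mem_fil c ε A _)).choose_spec,
      (exists_powerSeries_of_mem_fil_zero (expV_mem_fil c ε A _)).choose_spec,
      (exists_powerSeries_of_mem_fil_zero (expV_mem_fil c ε A _)).choose_spec, map_add])

theorem ofPowerSeries_expVps (x : Γ(curveOver c A, openV c ε A)) :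
    HahnSeries.ofPowerSeries ℤ A (expVps c ε A x) = expV c ε A x :=
  (exists_powerSeries_of_mem_fil_zero (expV_mem_fil c ε A x)).choose_spec

/-- `g` is invertible along the section. -/
def IsNear (g : Γ(curveOver c A, openV c ε A)) : Prop :=
  IsUnitSeries A (expV c ε A g)

theorem isNear_one : IsNear c ε A 1 := by
  rw [IsNear, map_one]
  exact isUnitSeries_one

variable {c ε A}

theorem IsNear.mul {g g' : Γ(curveOver c A, openV c ε A)} (hg : IsNear c ε A g)
    (hg' : IsNear c ε A g') : IsNear c ε A (g * g') := by
  rw [IsNear, map_mul]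
  exact IsUnitSeries.mul hg hg'

theorem IsNear.isUnit_expVps {g : Γ(curveOver c A, openV c ε A)} (hg : IsNear c ε A g) :
    IsUnit (expVps c ε A g) := by
  obtain ⟨p, hp, hpe⟩ := isUnitSeries_iff_exists.mp hg
  rw [← ofPowerSeries_expVps] at hpe
  exact HahnSeries.ofPowerSeries_injective (Γ := ℤ) hpe ▸ hp

/-- The power series expansion on `D(g)`. -/
def expD {g : Γ(curveOver c A, openV c ε A)} (hg : IsNear c ε A g) :
    Γ(curveOver c A, (curveOver c A).basicOpen g) →+* PowerSeries A :=
  have := (isAffineOpen_openV c ε A).isLocalization_basicOpen g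
  IsLocalization.Away.lift g hg.isUnit_expVps

theorem expD_ores {g : Γ(curveOver c A, openV c ε A)} (hg : IsNear c ε A g)
    (x : Γ(curveOver c A, openV c ε A)) :
    expD hg (ores ((curveOver c A).basicOpen_le g) x) = expVps c ε A x :=
  have := (isAffineOpen_openV c ε A).isLocalization_basicOpen g
  IsLocalization.Away.lift_eq g hg.isUnit_expVps x

variable (c ε A)

/-- The overlap of the two opens over `A`. -/
abbrev openUV : (curveOver c A).Opens := openU c ε A ⊓ openV c ε A

theorem isAffineOpen_openUV : IsAffineOpen (openUV c ε A) :=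
  isAffineOpen_openAbove_overlap c ε A

/-- The expansion on the overlap. -/
def expUV : Γ(curveOver c A, openUV c ε A) →+* LaurentSeries A :=
  expSec c ε A (baseOpen c ε ⊓ chartOpen c ε) (isAffineOpen_overlap c ε)

theorem expUV_ores_left (x : Γ(curveOver c A, openU c ε A)) :
    expUV c ε A (ores inf_le_left x) = expU c ε A x :=
  expSec_map c ε A (isAffineOpen_baseOpen c ε) (isAffineOpen_overlap c ε) (homOfLE inf_le_left) x

theorem expUV_ores_right (x : Γ(curveOver c A, openV c ε A)) :
    expUV c ε A (ores inf_le_right x) = expV c ε A x :=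
  expSec_map c ε A (isAffineOpen_chartOpen c ε) (isAffineOpen_overlap c ε) (homOfLE inf_le_right) x

variable {c ε A}

/-- `U_A ⊓ D(g)`. -/
abbrev openG (g : Γ(curveOver c A, openV c ε A)) : (curveOver c A).Opens :=
  (curveOver c A).basicOpen (ores (inf_le_right : openUV c ε A ≤ openV c ε A) g)

theorem openG_eq (g : Γ(curveOver c A, openV c ε A)) :
    openG g = openU c ε A ⊓ (curveOver c A).basicOpen g := by
  rw [openG, basicOpen_ores]
  exact le_antisymm (inf_le_inf_right _ inf_le_left)
    (le_inf (le_inf inf_le_left (inf_le_right.trans ((curveOver c A).basicOpen_le g))) inf_le_right)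

theorem openG_le_openU (g : Γ(curveOver c A, openV c ε A)) : openG g ≤ openU c ε A :=
  (openG_eq g).le.trans inf_le_left

theorem openG_le_basicOpen (g : Γ(curveOver c A, openV c ε A)) :
    openG g ≤ (curveOver c A).basicOpen g :=
  (openG_eq g).le.trans inf_le_right

theorem openG_mul_le_left (g g' : Γ(curveOver c A, openV c ε A)) : openG (g * g') ≤ openG g := by
  rw [openG_eq, openG_eq, Scheme.basicOpen_mul]
  exact inf_le_inf_left _ inf_le_left

theorem openG_mul_le_right (g g' : Γ(curveOver c A, openV c ε A)) : openG (g * g') ≤ openG g' := by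
  rw [mul_comm]
  exact openG_mul_le_left g' g

theorem IsNear.isUnit_expUV {g : Γ(curveOver c A, openV c ε A)} (hg : IsNear c ε A g) :
    IsUnit (expUV c ε A (ores inf_le_right g)) := by
  rw [expUV_ores_right]
  exact IsUnitSeries.isUnit hg

/-- The expansion on `U_A ⊓ D(g)`. -/
def expG {g : Γ(curveOver c A, openV c ε A)} (hg : IsNear c ε A g) :
    Γ(curveOver c A, openG g) →+* LaurentSeries A :=
  have := (isAffineOpen_openUV c ε A).isLocalization_basicOpen
    (ores (inf_le_right : openUV c ε A ≤ openV c ε A) g)
  IsLocalization.Away.lift (ores (inf_le_right : openUV c ε A ≤ openV c ε A) g) hg.isUnit_expUV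

theorem expG_ores_UV {g : Γ(curveOver c A, openV c ε A)} (hg : IsNear c ε A g)
    (x : Γ(curveOver c A, openUV c ε A)) (h : openG g ≤ openUV c ε A) :
    expG hg (ores h x) = expUV c ε A x :=
  have := (isAffineOpen_openUV c ε A).isLocalization_basicOpen
    (ores (inf_le_right : openUV c ε A ≤ openV c ε A) g)
  IsLocalization.Away.lift_eq _ hg.isUnit_expUV x

theorem openG_le_openUV (g : Γ(curveOver c A, openV c ε A)) : openG g ≤ openUV c ε A :=
  (curveOver c A).basicOpen_le _

theorem expG_ores_openU {g : Γ(curveOver c A, openV c ε A)} (hg : IsNear c ε A g)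
    (x : Γ(curveOver c A, openU c ε A)) :
    expG hg (ores (openG_le_openU g) x) = expU c ε A x := by
  rw [← expUV_ores_left, ← expG_ores_UV hg _ (openG_le_openUV g), ores_ores]

/-- Restriction does not change expansions. -/
theorem expG_ores {g g' : Γ(curveOver c A, openV c ε A)} (hg : IsNear c ε A g)
    (hg' : IsNear c ε A g') (h : openG g' ≤ openG g) (x : Γ(curveOver c A, openG g)) :
    expG hg' (ores h x) = expG hg x := by
  have key : (expG hg').comp ((curveOver c A).presheaf.map (homOfLE h).op).hom = expG hg := by
    have := (isAffineOpen_openUV c ε A).isLocalization_basicOpen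
      (ores (inf_le_right : openUV c ε A ≤ openV c ε A) g)
    refine IsLocalization.ringHom_ext
      (Submonoid.powers (ores (inf_le_right : openUV c ε A ≤ openV c ε A) g)) (RingHom.ext fun y => ?_)
    show expG hg' (ores h (ores (openG_le_openUV g) y)) = expG hg (ores (openG_le_openUV g) y)
    rw [ores_ores, expG_ores_UV, expG_ores_UV]
  exact RingHom.congr_fun key x

/-- On `U_A ⊓ D(g)` the expansion extends the power series expansion on `D(g)`. -/
theorem expG_ores_basicOpen {g : Γ(curveOver c A, openV c ε A)} (hg : IsNear c ε A g)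
    (x : Γ(curveOver c A, (curveOver c A).basicOpen g)) :
    expG hg (ores (openG_le_basicOpen g) x) =
      HahnSeries.ofPowerSeries ℤ A (expD hg x) := by
  have key : (expG hg).comp ((curveOver c A).presheaf.map (homOfLE (openG_le_basicOpen g)).op).hom =
      (HahnSeries.ofPowerSeries ℤ A).comp (expD hg) := by
    have := (isAffineOpen_openV c ε A).isLocalization_basicOpen g
    refine IsLocalization.ringHom_ext (Submonoid.powers g) (RingHom.ext fun y => ?_)
    show expG hg (ores (openG_le_basicOpen g) (ores ((curveOver c A).basicOpen_le g) y)) =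
      HahnSeries.ofPowerSeries ℤ A (expD hg (ores ((curveOver c A).basicOpen_le g) y))
    rw [ores_ores, expD_ores, ofPowerSeries_expVps, ← expUV_ores_right,
      ← expG_ores_UV hg _ (openG_le_openUV g), ores_ores]
  exact RingHom.congr_fun key x

theorem isUnitSeries_expG {g : Γ(curveOver c A, openV c ε A)} (hg : IsNear c ε A g)
    {w : Γ(curveOver c A, (curveOver c A).basicOpen g)} (hw : IsUnit w) :
    IsUnitSeries A (expG hg (ores (openG_le_basicOpen g) w)) := by
  rw [expG_ores_basicOpen]
  exact isUnitSeries_ofPowerSeries (hw.map _)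

end FermatAgent.Jacobian
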