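import Fermat.Agent.Jacobian.Cocycle.Affine
import Fermat.Agent.Jacobian.Bridge.Exp

/-!
# The lattice of a line bundle trivialised near the section

The sections on `U_A` expand, relative to a frame near the section, to a submodule of `A((t))`.
-/

set_option autoImplicit false

noncomputable section

open CategoryTheory CategoryTheory.Limits AlgebraicGeometry TopologicalSpace AlgebraicCurve
  NeronModelInfra

namespace FermatAgent.Jacobian

open scoped TensorProduct

universe u

variable {k : Type u} [Field k] [IsAlgClosed k] {C : Scheme.{u}}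
  (c : C ⟶ Spec (CommRingCat.of k)) [SmoothOfRelativeDimension 1 c] [IsIntegral C] [IsProper c]
  (ε : SchemeHomOver (𝟙 (Spec (CommRingCat.of k))) c) (A : Type u) [CommRing A] [Algebra k A]

/-- A trivialisation near the section. -/
structure NearTriv (d : Cocycle (curveOver c A)) where
  g : Γ(curveOver c A, openV c ε A)
  near : IsNear c ε A g
  q : Γ(d.toModules, (curveOver c A).basicOpen g)
  isFrame : IsFrame q

variable {c ε A} {d d' : Cocycle (curveOver c A)}

namespace NearTriv

variable (T : NearTriv c ε A d)

/-- The expansion of a section on the affine curve. -/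
def val (s : Γ(d.toModules, openU c ε A)) : LaurentSeries A :=
  expG T.near (T.isFrame.coef (openG_le_basicOpen T.g) (mres d.toModules (openG_le_openU T.g) s))

theorem val_add (s s' : Γ(d.toModules, openU c ε A)) : T.val (s + s') = T.val s + T.val s' := by
  simp [val]

theorem val_smul (r : Γ(curveOver c A, openU c ε A)) (s : Γ(d.toModules, openU c ε A)) :
    T.val (r • s) = expU c ε A r * T.val s := by
  simp [val, expG_ores_openU]

theorem val_zero : T.val 0 = 0 := by
  have h := T.val_add 0 0
  rwa [add_zero, left_eq_add] at h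

/-- The expansion as a linear map. -/
def latt : (curveDatum c ε).Sub A where
  carrier := Set.range T.val
  add_mem' := by
    rintro _ _ ⟨s, rfl⟩ ⟨s', rfl⟩
    exact ⟨s + s', T.val_add s s'⟩
  zero_mem' := ⟨0, T.val_zero⟩
  smul_mem' := by
    rintro r _ ⟨s, rfl⟩
    refine ⟨ringU c ε A r • s, ?_⟩
    rw [T.val_smul, expU_ringU]
    rfl

theorem mem_latt {e : LaurentSeries A} : e ∈ T.latt ↔ ∃ s, T.val s = e := Iff.rfl

theorem val_mem_latt (s : Γ(d.toModules, openU c ε A)) : T.val s ∈ T.latt := ⟨s, rfl⟩

/-- The trivial bundle. -/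
protected def one : NearTriv c ε A (1 : Cocycle (curveOver c A)) where
  g := 1
  near := isNear_one c ε A
  q := Cocycle.secOne 1
  isFrame := (Cocycle.isFrame_iff _).mpr fun x => by
    rw [Cocycle.comp_secOne, ores_one]
    exact isUnit_one

theorem val_one (r : Γ(curveOver c A, openU c ε A)) :
    (NearTriv.one (c := c) (ε := ε) (A := A)).val (Cocycle.secOne r) = expU c ε A r := by
  rw [val, ← expG_ores_openU (isNear_one c ε A) r]
  congr 1
  refine IsFrame.coef_eq _ ?_
  refine Cocycle.sec_ext fun x => ?_
  erw [Cocycle.comp_smul, Cocycle.comp_mres, Cocycle.comp_secOne, Cocycle.comp_mres,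
    Cocycle.comp_secOne]
  erw [ores_one, ores_one, mul_one]
  exact (ores_ores _ _ r).trans (ores_ores _ _ r).symm

theorem latt_one : (NearTriv.one (c := c) (ε := ε) (A := A)).latt = 1 := by
  refine le_antisymm ?_ ?_
  · rintro _ ⟨s, rfl⟩
    obtain ⟨r, rfl⟩ := Cocycle.bijective_secOne.surjective s
    rw [val_one, Submodule.mem_one]
    exact ⟨(ringU c ε A).symm r, by
      rw [← (ringU c ε A).apply_symm_apply r, expU_ringU, RingEquiv.symm_apply_apply]; rfl⟩
  · intro e he
    obtain ⟨y, rfl⟩ := Submodule.mem_one.mp he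
    exact ⟨Cocycle.secOne (ringU c ε A y), by rw [val_one, expU_ringU]; rfl⟩

/-- Shrinking the domain of a trivialisation. -/
def restrict (g' : Γ(curveOver c A, openV c ε A)) (hg' : IsNear c ε A g') :
    NearTriv c ε A d where
  g := T.g * g'
  near := T.near.mul hg'
  q := mres d.toModules ((curveOver c A).basicOpen_mul T.g g' ▸ inf_le_left) T.q
  isFrame := T.isFrame.res _

theorem val_restrict (g' : Γ(curveOver c A, openV c ε A)) (hg' : IsNear c ε A g')
    (s : Γ(d.toModules, openU c ε A)) : (T.restrict g' hg').val s = T.val s := by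
  rw [val, val, ← expG_ores T.near (T.restrict g' hg').near (openG_mul_le_left T.g g')]
  congr 1
  refine IsFrame.coef_eq _ ?_
  have h := congrArg (mres d.toModules (openG_mul_le_left T.g g'))
    (T.isFrame.coef_smul (openG_le_basicOpen T.g) (mres d.toModules (openG_le_openU T.g) s))
  simp only [mres_smul, mres_mres] at h
  simp only [restrict, mres_mres]
  exact h

/-- Transport along an isomorphism. -/
def map (e : d.toModules ≅ d'.toModules) : NearTriv c ε A d' where
  g := T.g
  near := T.near
  q := e.hom.app _ T.q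
  isFrame := T.isFrame.map e

theorem val_map (e : d.toModules ≅ d'.toModules) (s : Γ(d.toModules, openU c ε A)) :
    (T.map e).val (e.hom.app _ s) = T.val s := by
  unfold val
  congr 1
  refine IsFrame.coef_eq _ ?_
  simp only [map, ← app_mres]
  erw [← Scheme.Modules.Hom.app_smul, IsFrame.coef_smul]

theorem latt_map (e : d.toModules ≅ d'.toModules) : (T.map e).latt = T.latt := by
  refine le_antisymm ?_ ?_
  · rintro _ ⟨s, rfl⟩
    refine ⟨e.inv.app _ s, ?_⟩
    rw [← T.val_map e]
    congr 1
    rw [← CategoryTheory.comp_apply, ← Scheme.Modules.Hom.comp_app, e.inv_hom_id]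
    rfl
  · rintro _ ⟨s, rfl⟩
    exact ⟨_, T.val_map e s⟩

/-- Two trivialisations differ by a unit series. -/
theorem exists_val_eq (T' : NearTriv c ε A d) :
    ∃ u, IsUnitSeries A u ∧ ∀ s, T'.val s = T.val s * u := by
  let T₁ := T.restrict T'.g T'.near
  let T₂ := T'.restrict T.g T.near
  have h12 : (curveOver c A).basicOpen T₁.g ≤ (curveOver c A).basicOpen T₂.g :=
    le_of_eq (congrArg _ (mul_comm T.g T'.g))
  set w := (T₂.isFrame.res h12).coef le_rfl T₁.q with hw
  have hwu : IsUnit w := (T₂.isFrame.res h12).isUnit_coef T₁.isFrame le_rfl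
  refine ⟨expG T₁.near (ores (openG_le_basicOpen T₁.g) w), isUnitSeries_expG T₁.near hwu,
    fun s => ?_⟩
  rw [← T'.val_restrict T.g T.near, ← T.val_restrict T'.g T'.near]
  have hG : openG T₁.g ≤ openG T₂.g := le_of_eq (congrArg openG (mul_comm T.g T'.g))
  change expG T₂.near _ = expG T₁.near _ * _
  rw [← expG_ores T₂.near T₁.near hG, ← map_mul]
  congr 1
  have h1 := congrArg (mres d.toModules (openG_le_basicOpen T₁.g))
    ((T₂.isFrame.res h12).coef_smul le_rfl T₁.q)
  rw [← hw] at h1
  simp only [mres_smul, mres_mres, mres_self] at h1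
  refine T₂.isFrame.eq_of_smul_eq (h := hG.trans (openG_le_basicOpen T₂.g)) ?_
  have h2 := congrArg (mres d.toModules hG)
    (T₂.isFrame.coef_smul (openG_le_basicOpen T₂.g) (mres d.toModules (openG_le_openU T₂.g) s))
  simp only [mres_smul, mres_mres] at h2
  rw [h2, mul_smul, h1, IsFrame.coef_smul]

/-- The lattice is well defined up to a unit series. -/
theorem equiv_latt (T' : NearTriv c ε A d) : (curveDatum c ε).Equiv T.latt T'.latt := by
  obtain ⟨u, hu, h⟩ := T.exists_val_eq T'
  refine ⟨u, hu, ?_⟩
  refine le_antisymm ?_ (Submodule.mul_le.mpr ?_)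
  · rintro _ ⟨s, rfl⟩
    rw [h]
    exact Submodule.mul_mem_mul (T.val_mem_latt s) (Submodule.mem_span_singleton_self u)
  · rintro _ ⟨s, rfl⟩ v hv
    obtain ⟨r, rfl⟩ := Submodule.mem_span_singleton.mp hv
    rw [mul_smul_comm, ← h]
    exact Submodule.smul_mem _ r (T'.val_mem_latt s)

/-- The product of trivialisations. -/
protected def mul (T' : NearTriv c ε A d') : NearTriv c ε A (d * d') where
  g := T.g * T'.g
  near := T.near.mul T'.near
  q := Cocycle.secMul
    (mres d.toModules ((curveOver c A).basicOpen_mul T.g T'.g ▸ inf_le_left) T.q)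
    (mres d'.toModules ((curveOver c A).basicOpen_mul T.g T'.g ▸ inf_le_right) T'.q)
  isFrame := Cocycle.isFrame_secMul (T.isFrame.res _) (T'.isFrame.res _)

theorem val_secMul (T' : NearTriv c ε A d') (s : Γ(d.toModules, openU c ε A))
    (s' : Γ(d'.toModules, openU c ε A)) :
    (T.mul T').val (Cocycle.secMul s s') = T.val s * T'.val s' := by
  unfold val
  rw [← expG_ores T.near (T.mul T').near (openG_mul_le_left T.g T'.g),
    ← expG_ores T'.near (T.mul T').near (openG_mul_le_right T.g T'.g), ← map_mul]
  congr 1
  refine IsFrame.coef_eq _ ?_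
  have h := congrArg (mres d.toModules (openG_mul_le_left T.g T'.g))
    (T.isFrame.coef_smul (openG_le_basicOpen T.g) (mres d.toModules (openG_le_openU T.g) s))
  have h' := congrArg (mres d'.toModules (openG_mul_le_right T.g T'.g))
    (T'.isFrame.coef_smul (openG_le_basicOpen T'.g) (mres d'.toModules (openG_le_openU T'.g) s'))
  simp only [mres_smul, mres_mres] at h h'
  simp only [NearTriv.mul, Cocycle.mres_secMul, mres_mres]
  rw [← h, ← h', Cocycle.secMul_smul_left, Cocycle.secMul_smul_right]
  exact (smul_smul _ _ _).symm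

theorem latt_mul (T' : NearTriv c ε A d') : (T.mul T').latt = T.latt * T'.latt := by
  refine le_antisymm ?_ (Submodule.mul_le.mpr ?_)
  · rintro _ ⟨t, rfl⟩
    have ht : t ∈ Submodule.span Γ(curveOver c A, openU c ε A)
        (Set.range fun p : Γ(d.toModules, openU c ε A) × Γ(d'.toModules, openU c ε A) =>
          Cocycle.secMul p.1 p.2) := by
      rw [Cocycle.span_secMul_eq_top (isAffineOpen_openU c ε A)]
      exact Submodule.mem_top
    induction ht using Submodule.span_induction with
    | mem _ hx =>
      obtain ⟨p, rfl⟩ := hx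
      rw [val_secMul]
      exact Submodule.mul_mem_mul (T.val_mem_latt _) (T'.val_mem_latt _)
    | zero => rw [val_zero]; exact zero_mem _
    | add x y _ _ hx hy => rw [val_add]; exact add_mem hx hy
    | smul r x _ hx =>
      rw [val_smul, ← (ringU c ε A).apply_symm_apply r, expU_ringU]
      exact Submodule.smul_mem _ ((ringU c ε A).symm r) hx
  · rintro _ ⟨s, rfl⟩ _ ⟨s', rfl⟩
    exact ⟨_, T.val_secMul T' s s'⟩

end NearTriv

end FermatAgent.Jacobian
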