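import Fermat.Agent.Jacobian.Setup.Natural
import Fermat.Agent.Jacobian.Cocycle.Cover
import Fermat.Agent.Jacobian.Lat.Lattice
import Fermat.Agent.Jacobian.Bridge.Latt

/-!
# The lattice of a bundle commutes with change of coefficients
-/

set_option autoImplicit false

noncomputable section

open CategoryTheory CategoryTheory.Limits AlgebraicGeometry AlgebraicGeometry.RelPicard
  TopologicalSpace AlgebraicCurve NeronModelInfra

namespace FermatAgent.Jacobian

open scoped TensorProduct

open Cocycle (opull)

universe u

variable {k : Type u} [Field k] [IsAlgClosed k] {C : Scheme.{u}}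
  (c : C ⟶ Spec (CommRingCat.of k)) [SmoothOfRelativeDimension 1 c] [IsIntegral C] [IsProper c]
  (ε : SchemeHomOver (𝟙 (Spec (CommRingCat.of k))) c)
  {A B : Type u} [CommRing A] [Algebra k A] [CommRing B] [Algebra k B] (f : A →ₐ[k] B)

/-- The map `C_B → C_A`. -/
abbrev curveMap : curveOver c B ⟶ curveOver c A := baseChangeSnd c (algHomOver f)

theorem openU_le_preimage : openU c ε B ≤ curveMap c f ⁻¹ᵁ openU c ε A :=
  openAbove_le c f _

theorem openV_le_preimage : openV c ε B ≤ curveMap c f ⁻¹ᵁ openV c ε A :=
  openAbove_le c f _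

/-- A function near the section after change of coefficients. -/
def bcNear (g : Γ(curveOver c A, openV c ε A)) : Γ(curveOver c B, openV c ε B) :=
  opull (curveMap c f) (openV_le_preimage c ε f) g

theorem expV_bcNear (g : Γ(curveOver c A, openV c ε A)) :
    expV c ε B (bcNear c ε f g) = lsMap f.toRingHom (expV c ε A g) :=
  expSec_secBC c f ε (isAffineOpen_chartOpen c ε) g

variable {c ε}

theorem IsNear.bc {g : Γ(curveOver c A, openV c ε A)} (hg : IsNear c ε A g) :
    IsNear c ε B (bcNear c ε f g) := by
  rw [IsNear, expV_bcNear]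
  exact IsUnitSeries.lsMap f.toRingHom hg

theorem basicOpen_bcNear_le (g : Γ(curveOver c A, openV c ε A)) :
    (curveOver c B).basicOpen (bcNear c ε f g) ≤ curveMap c f ⁻¹ᵁ (curveOver c A).basicOpen g := by
  rw [bcNear, Cocycle.opull, basicOpen_ores, Scheme.preimage_basicOpen]
  exact inf_le_right

theorem openG_bcNear_le (g : Γ(curveOver c A, openV c ε A)) :
    openG (bcNear c ε f g) ≤ curveMap c f ⁻¹ᵁ openG g := by
  rw [openG_eq g]
  exact le_inf ((openG_le_openU _).trans (openU_le_preimage c ε f))
    ((openG_le_basicOpen _).trans (basicOpen_bcNear_le f g))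

theorem expG_opull {g : Γ(curveOver c A, openV c ε A)} (hg : IsNear c ε A g)
    (x : Γ(curveOver c A, openG g)) :
    expG (hg.bc f) (opull (curveMap c f) (openG_bcNear_le f g) x) =
      lsMap f.toRingHom (expG hg x) := by
  have key : (expG (hg.bc f)).comp
      ((curveMap c f).appLE (openG g) (openG (bcNear c ε f g)) (openG_bcNear_le f g)).hom =
      (lsMap f.toRingHom).comp (expG hg) := by
    have := (isAffineOpen_openUV c ε A).isLocalization_basicOpen
      (ores (inf_le_right : openUV c ε A ≤ openV c ε A) g)
    refine IsLocalization.ringHom_ext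
      (Submonoid.powers (ores (inf_le_right : openUV c ε A ≤ openV c ε A) g)) (RingHom.ext fun y => ?_)
    show expG (hg.bc f) (opull (curveMap c f) (openG_bcNear_le f g) (ores (openG_le_openUV g) y)) =
      lsMap f.toRingHom (expG hg (ores (openG_le_openUV g) y))
    have hle : openUV c ε B ≤ curveMap c f ⁻¹ᵁ openUV c ε A :=
      le_inf (inf_le_left.trans (openU_le_preimage c ε f))
        (inf_le_right.trans (openV_le_preimage c ε f))
    rw [Cocycle.opull_ores, expG_ores_UV, ← Cocycle.ores_opull (curveMap c f) hle
      (openG_le_openUV (bcNear c ε f g)) y, expG_ores_UV]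
    exact expSec_secBC c f ε (isAffineOpen_overlap c ε) y
  exact RingHom.congr_fun key x

namespace NearTriv

variable {d : Cocycle (curveOver c A)} (T : NearTriv c ε A d)

/-- The trivialisation after change of coefficients. -/
def bc : NearTriv c ε B (d.pull (curveMap c f)) where
  g := bcNear c ε f T.g
  near := T.near.bc f
  q := Cocycle.secPull (curveMap c f) (basicOpen_bcNear_le f T.g) T.q
  isFrame := Cocycle.isFrame_secPull (curveMap c f) _ T.isFrame

theorem val_bc (s : Γ(d.toModules, openU c ε A)) :
    (T.bc f).val (Cocycle.secPull (curveMap c f) (openU_le_preimage c ε f) s) =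
      lsMap f.toRingHom (T.val s) := by
  unfold val
  rw [← expG_opull f T.near]
  congr 1
  refine IsFrame.coef_eq _ ?_
  have h := congrArg (Cocycle.secPull (curveMap c f) (openG_bcNear_le f T.g))
    (T.isFrame.coef_smul (openG_le_basicOpen T.g) (mres d.toModules (openG_le_openU T.g) s))
  rw [Cocycle.secPull_smul,
    ← Cocycle.mres_secPull (curveMap c f) (basicOpen_bcNear_le f T.g)
      (openG_le_basicOpen (bcNear c ε f T.g)) (openG_le_basicOpen T.g) (openG_bcNear_le f T.g),
    ← Cocycle.mres_secPull (curveMap c f) (openU_le_preimage c ε f)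
      (openG_le_openU (bcNear c ε f T.g)) (openG_le_openU T.g) (openG_bcNear_le f T.g)] at h
  exact h

theorem latt_bc : (T.bc f).latt = (curveDatum c ε).bc f T.latt := by
  refine le_antisymm ?_ (Submodule.span_le.mpr ?_)
  · rintro _ ⟨t, rfl⟩
    have ht : t ∈ Submodule.span Γ(curveOver c B, openU c ε B)
        (Set.range (Cocycle.secPull (d := d) (curveMap c f) (openU_le_preimage c ε f))) := by
      rw [Cocycle.span_secPull_eq_top (curveMap c f) _ (isAffineOpen_openU c ε B)
        (isAffineOpen_openU c ε A)]
      exact Submodule.mem_top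
    induction ht using Submodule.span_induction with
    | mem _ hx =>
      obtain ⟨s, rfl⟩ := hx
      rw [val_bc]
      exact Submodule.subset_span ⟨T.val s, T.val_mem_latt s, rfl⟩
    | zero => rw [val_zero]; exact zero_mem _
    | add x y _ _ hx hy => rw [val_add]; exact add_mem hx hy
    | smul r x _ hx =>
      rw [val_smul, ← (ringU c ε B).apply_symm_apply r, expU_ringU]
      exact Submodule.smul_mem _ ((ringU c ε B).symm r) hx
  · rintro _ ⟨_, ⟨s, rfl⟩, rfl⟩
    exact ⟨_, T.val_bc f s⟩

end NearTriv

end FermatAgent.Jacobian
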