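import Fermat.Agent.Jacobian.Cocycle.Group
import Fermat.Agent.Jacobian.Bridge.BaseChange

/-!
# The lattice of a class, up to a unit series
-/

set_option autoImplicit false

noncomputable section

open CategoryTheory CategoryTheory.Limits AlgebraicGeometry AlgebraicGeometry.RelPicard
  TopologicalSpace AlgebraicCurve NeronModelInfra

namespace FermatAgent.Jacobian

universe u

section Equiv

variable {k : Type u} [Field k] {D : CurveDatum k} {A : Type u} [CommRing A] [Algebra k A]
  {M M' M'' N N' : D.Sub A}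

theorem CurveDatum.equiv_refl (M : D.Sub A) : D.Equiv M M :=
  ⟨1, isUnitSeries_one, by rw [D.span_singleton_one, mul_one]⟩

theorem CurveDatum.Equiv.symm (h : D.Equiv M M') : D.Equiv M' M := by
  obtain ⟨u, hu, rfl⟩ := h
  obtain ⟨v, hv, huv⟩ := IsUnitSeries.exists_inv hu
  refine ⟨v, hv, ?_⟩
  rw [mul_assoc, Submodule.span_mul_span, Set.singleton_mul_singleton, huv, D.span_singleton_one,
    mul_one]

theorem CurveDatum.Equiv.trans (h : D.Equiv M M') (h' : D.Equiv M' M'') : D.Equiv M M'' := by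
  obtain ⟨u, hu, rfl⟩ := h
  obtain ⟨v, hv, rfl⟩ := h'
  exact ⟨u * v, IsUnitSeries.mul hu hv, by
    rw [mul_assoc, Submodule.span_mul_span, Set.singleton_mul_singleton]⟩

theorem CurveDatum.Equiv.mul (h : D.Equiv M M') (h' : D.Equiv N N') :
    D.Equiv (M * N) (M' * N') := by
  obtain ⟨u, hu, rfl⟩ := h
  obtain ⟨v, hv, rfl⟩ := h'
  exact ⟨u * v, IsUnitSeries.mul hu hv, by
    rw [mul_mul_mul_comm, Submodule.span_mul_span, Set.singleton_mul_singleton]⟩

theorem CurveDatum.Equiv.twist (h : D.Equiv M M') (n : ℤ) :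
    D.Equiv (D.twist n M) (D.twist n M') :=
  h.mul (D.equiv_refl _)

end Equiv

variable {k : Type u} [Field k] [IsAlgClosed k] {C : Scheme.{u}}
  {c : C ⟶ Spec (CommRingCat.of k)} [SmoothOfRelativeDimension 1 c] [IsIntegral C] [IsProper c]
  {ε : SchemeHomOver (𝟙 (Spec (CommRingCat.of k))) c}
  {A : Type u} [CommRing A] [Algebra k A]

/-- Trivialisations of equal classes have equivalent lattices. -/
theorem NearTriv.equiv_of_mk_eq {d d' : Cocycle (curveOver c A)} (N : NearTriv c ε A d)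
    (N' : NearTriv c ε A d') (h : PicC.mk d = PicC.mk d') :
    (curveDatum c ε).Equiv N.latt N'.latt := by
  obtain ⟨e⟩ := PicC.mk_eq_mk.mp h
  rw [← N.latt_map e]
  exact (N.map e).equiv_latt N'

variable (c ε) in
/-- The class has lattice `M`, up to a unit series. -/
def HasLatt (x : PicC (curveOver c A)) (M : (curveDatum c ε).Sub A) : Prop :=
  ∃ (d : Cocycle (curveOver c A)) (N : NearTriv c ε A d),
    PicC.mk d = x ∧ (curveDatum c ε).Equiv N.latt M

namespace HasLatt

variable {x y : PicC (curveOver c A)} {M M' : (curveDatum c ε).Sub A}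

theorem of_triv {d : Cocycle (curveOver c A)} (N : NearTriv c ε A d) :
    HasLatt c ε (PicC.mk d) N.latt :=
  ⟨d, N, rfl, CurveDatum.equiv_refl _⟩

theorem one : HasLatt c ε (1 : PicC (curveOver c A)) 1 := by
  rw [← NearTriv.latt_one, ← PicC.mk_one]
  exact of_triv _

theorem congr (h : HasLatt c ε x M) (e : (curveDatum c ε).Equiv M M') : HasLatt c ε x M' :=
  let ⟨d, N, hd, hN⟩ := h
  ⟨d, N, hd, hN.trans e⟩

theorem mul (h : HasLatt c ε x M) (h' : HasLatt c ε y M') : HasLatt c ε (x * y) (M * M') := by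
  obtain ⟨d, N, rfl, hN⟩ := h
  obtain ⟨d', N', rfl, hN'⟩ := h'
  refine ⟨d * d', N.mul N', PicC.mk_mul d d', ?_⟩
  rw [NearTriv.latt_mul]
  exact hN.mul hN'

theorem equiv (h : HasLatt c ε x M) (h' : HasLatt c ε x M') : (curveDatum c ε).Equiv M M' := by
  obtain ⟨d, N, rfl, hN⟩ := h
  obtain ⟨d', N', hd, hN'⟩ := h'
  exact hN.symm.trans ((N.equiv_of_mk_eq N' hd.symm).trans hN')

theorem bc {B : Type u} [CommRing B] [Algebra k B] (f : A →ₐ[k] B) (h : HasLatt c ε x M) :
    HasLatt c ε (PicC.pull (curveMap c f) x) ((curveDatum c ε).bc f M) := by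
  obtain ⟨d, N, rfl, hN⟩ := h
  refine ⟨d.pull (curveMap c f), N.bc f, (PicC.pull_mk _ d).symm, ?_⟩
  rw [NearTriv.latt_bc]
  exact hN.bc f

end HasLatt

end FermatAgent.Jacobian
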