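import Fermat.Agent.Jacobian.Bridge.Functor
import Fermat.Agent.Jacobian.Cell.Ring
import Fermat.Agent.Jacobian.Lat.Points

/-!
# The properties of the bridge used to build the atlas

The construction of the atlas uses the dictionary between rigidified classes and lattices only
through these properties, which `Bridge/Main` establishes.
-/

set_option autoImplicit false

noncomputable section

open CategoryTheory CategoryTheory.Limits AlgebraicGeometry AlgebraicGeometry.RelPicard
  TopologicalSpace AlgebraicCurve NeronModelInfra

namespace FermatAgent.Jacobian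

universe u

variable {k : Type u} [Field k] [IsAlgClosed k] {C : Scheme.{u}}
  (c : C ⟶ Spec (CommRingCat.of k)) [SmoothOfRelativeDimension 1 c] [IsIntegral C] [IsProper c]
  (ε : SchemeHomOver (𝟙 (Spec (CommRingCat.of k))) c)

/-- The dictionary between rigidified classes and lattices. -/
structure BridgeFacts : Prop where
  lattExists : LattExists c ε
  rigidUnits : RigidUnits c ε
  rigidified_of_hasLatt : ∀ (A : Type u) [CommRing A] [Algebra k A] (x : PicC (curveOver c A))
    (M : (curveDatum c ε).Sub A), HasLatt c ε x M → Rigidified c ε x
  eq_of_hasLatt : ∀ (A : Type u) [CommRing A] [Algebra k A] (x y : PicC (curveOver c A))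
    (M : (curveDatum c ε).Sub A), Rigidified c ε x → Rigidified c ε y →
      HasLatt c ε x M → HasLatt c ε y M → x = y
  exists_inCell : ∀ (A : Type u) [CommRing A] [Algebra k A] (M : (curveDatum c ε).Sub A),
    (curveDatum c ε).InCell M → ∃ x : PicC (curveOver c A), HasLatt c ε x M
  exists_point : ∀ (A : Type u) [CommRing A] [Algebra k A]
    (φ : (curveDatum c ε).R →ₐ[k] k), ∃ (x : PicC (curveOver c A)) (M : (curveDatum c ε).Sub A),
      HasLatt c ε x M ∧ M * (curveDatum c ε).pointIdeal A φ = 1

end FermatAgent.Jacobian
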