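import Fermat.Agent.Jacobian.Bridge.Generate
import Fermat.Agent.Jacobian.Bridge.Facts

/-!
# The family generating the rational points
-/

set_option autoImplicit false

noncomputable section

open CategoryTheory CategoryTheory.Limits AlgebraicGeometry AlgebraicGeometry.RelPicard
  TopologicalSpace AlgebraicCurve NeronModelInfra

namespace FermatAgent.Jacobian

universe u

variable {k : Type u} [Field k] [IsAlgClosed k] {C : Scheme.{u}}
  {c : C ⟶ Spec (CommRingCat.of k)} [SmoothOfRelativeDimension 1 c] [IsIntegral C] [IsProper c]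
  {ε : SchemeHomOver (𝟙 (Spec (CommRingCat.of k))) c}

/-- The family generating the rational points of the functor. -/
theorem BridgeFacts.nonempty_generatingFamily (F : BridgeFacts c ε) (δ : PicC (pullback c c))
    (hrig : Rigidified c ε δ) (heuler : EulerZero c ε δ)
    (hε : PicC.pull (baseChangeSnd c (algPoint ε)) δ = 1)
    (hδ : ∀ φ : (curveDatum c ε).R →ₐ[k] k, ∃ L : (curveDatum c ε).Sub k,
      HasLatt c ε (PicC.pull (baseChangeSnd c (pointOfHom c ε φ)) δ) L ∧
        (curveDatum c ε).Equiv (L * (curveDatum c ε).pointIdeal k φ)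
          ((curveDatum c ε).twist (-1) 1)) :
    Nonempty (GeneratingFamily (picZeroFunctor c ε F.lattExists F.rigidUnits) c) := by
  obtain ⟨n, hn⟩ := exists_prod_map_eq δ F.lattExists hrig hε hδ F.eq_of_hasLatt
  refine ⟨{ elt := ⟨RigClass.mk δ hrig, heuler⟩, n := n, generate := fun a => ?_ }⟩
  obtain ⟨x, hx⟩ := hn a
  refine ⟨x, Subtype.ext (hx.trans ?_)⟩
  exact (map_prod (eulerSubgroup c ε F.lattExists (𝟙 (Spec (CommRingCat.of k)))).subtype
    (fun i => (picZeroFunctor c ε F.lattExists F.rigidUnits).map (x i)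
      ⟨RigClass.mk δ hrig, heuler⟩) Finset.univ).symm

end FermatAgent.Jacobian
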