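import Fermat.Prelude.Def_AlgebraicGeometry_RelativePicardFunctor
import Fermat.Agent.Jacobian.Cocycle.Group
import Fermat.Agent.Jacobian.Lat.Chi
import Fermat.Agent.Jacobian.Bridge.Latt

/-!
# Rigidified classes and their Euler characteristic
-/

set_option autoImplicit false

noncomputable section

open CategoryTheory CategoryTheory.Limits AlgebraicGeometry AlgebraicGeometry.RelPicard
  TopologicalSpace AlgebraicCurve NeronModelInfra

namespace FermatAgent.Jacobian

universe u

variable {k : Type u} [Field k] {C : Scheme.{u}} (c : C ⟶ Spec (CommRingCat.of k))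
  (ε : SchemeHomOver (𝟙 (Spec (CommRingCat.of k))) c) {T : Scheme.{u}}
  {t : T ⟶ Spec (CommRingCat.of k)}

/-- The class is trivial along the section. -/
def Rigidified (x : PicC (pullback c t)) : Prop :=
  PicC.pull (rigSection c t ε) x = 1

variable [IsAlgClosed k] [SmoothOfRelativeDimension 1 c] [IsIntegral C] [IsProper c]

/-- At every point with values in a field the lattice has the Euler characteristic of the trivial
one. -/
def EulerZero (x : PicC (pullback c t)) : Prop :=
  ∀ (K : Type u) [Field K] [Algebra k K] (s : SchemeHomOver (algSpecMap (k := k) K) t)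
    (d : Cocycle (curveOver c K)) (N : NearTriv c ε K d),
    PicC.mk d = PicC.pull (baseChangeSnd c s) x →
      (curveDatum c ε).chi N.latt = (curveDatum c ε).chi (1 : (curveDatum c ε).Sub K)

end FermatAgent.Jacobian
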