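import Fermat.Agent.Jacobian.Bridge.PointLattice
import Fermat.Agent.Jacobian.Bridge.Euler

/-!
# The family of points

`deltaClass` on `C × C` is rigidified; its value at a point `x` is trivial for the base point and
otherwise has a lattice `M` with `M * m_x ~ t⁻¹`.
-/

set_option autoImplicit false

noncomputable section

open CategoryTheory CategoryTheory.Limits AlgebraicGeometry AlgebraicGeometry.RelPicard
  TopologicalSpace AlgebraicCurve NeronModelInfra

namespace FermatAgent.Jacobian

universe u

variable {k : Type u} [Field k] [IsAlgClosed k] {C : Scheme.{u}}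
  (c : C ⟶ Spec (CommRingCat.of k)) [SmoothOfRelativeDimension 1 c] [IsIntegral C] [IsProper c]
  (ε : SchemeHomOver (𝟙 (Spec (CommRingCat.of k))) c)

theorem rigidified_deltaClass : Rigidified c ε (deltaClass c ε) :=
  pull_rigSection_deltaClass c ε

theorem twist_neg_one_twist_one {A : Type u} [CommRing A] [Algebra k A]
    (M : (curveDatum c ε).Sub A) :
    (curveDatum c ε).twist (-1) ((curveDatum c ε).twist 1 1 * M) = M := by
  rw [show (curveDatum c ε).twist 1 1 * M = (curveDatum c ε).twist 1 M by
      rw [CurveDatum.twist, CurveDatum.twist, one_mul, mul_comm],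
    CurveDatum.twist_twist, add_neg_cancel, CurveDatum.twist_zero]

/-- The lattice of the value at a point of the affine curve. -/
theorem hasLatt_deltaClass (x : SchemeHomOver (algSpecMap (k := k) k) c)
    (hx : ptOf c x ∈ baseOpen c ε) :
    ∃ M : (curveDatum c ε).Sub k,
      HasLatt c ε (PicC.pull (sqMap c x) (deltaClass c ε)) M ∧
      (curveDatum c ε).Equiv (M * (curveDatum c ε).pointIdeal k (pointEval c ε x hx))
        ((curveDatum c ε).twist (-1) 1) := by
  obtain ⟨L, hL, hLI⟩ := exists_hasLatt_pointClass c ε x hx
  obtain ⟨M', hM'⟩ :=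
    HasLatt.exists_of_field (c := c) (ε := ε) (pointClass c (algPoint ε))⁻¹
  have h1 := (hasLatt_pointClass_algPoint c ε).mul hM'
  rw [mul_inv_cancel] at h1
  have h2 := (HasLatt.one.equiv h1).twist (-1)
  rw [twist_neg_one_twist_one] at h2
  refine ⟨L * M', ?_, ?_⟩
  · rw [pull_deltaClass]
    exact hL.mul hM'
  · rw [mul_right_comm, hLI, one_mul]
    exact h2.symm

end FermatAgent.Jacobian
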