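import Fermat.Agent.Jacobian.Bridge.Euler
import Fermat.Agent.Jacobian.Bridge.Class
import Fermat.Agent.Jacobian.Cocycle.Functor
import Fermat.Agent.Jacobian.Lat.ChiMul

/-!
# The functor of classes with trivial Euler characteristic

The rigidified classes with Euler characteristic that of the trivial bundle form a sheaf of groups.
-/

set_option autoImplicit false

noncomputable section

open CategoryTheory CategoryTheory.Limits AlgebraicGeometry AlgebraicGeometry.RelPicard
  TopologicalSpace AlgebraicCurve NeronModelInfra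

namespace FermatAgent.Jacobian

universe u

variable {k : Type u} [Field k] [IsAlgClosed k] {C : Scheme.{u}}
  (c : C ⟶ Spec (CommRingCat.of k)) [SmoothOfRelativeDimension 1 c] [IsIntegral C] [IsProper c]
  (ε : SchemeHomOver (𝟙 (Spec (CommRingCat.of k))) c)

/-- Every rigidified class over an algebra has a lattice. -/
def LattExists : Prop :=
  ∀ (A : Type u) [CommRing A] [Algebra k A] (x : PicC (curveOver c A)),
    Rigidified c ε x → ∃ M, (curveDatum c ε).IsLat M ∧ HasLatt c ε x M

variable {c ε} {T T' : Scheme.{u}} {t : T ⟶ Spec (CommRingCat.of k)}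
  {t' : T' ⟶ Spec (CommRingCat.of k)}

omit [IsAlgClosed k] [SmoothOfRelativeDimension 1 c] [IsIntegral C] [IsProper c] in
theorem pull_baseChangeSnd_postComp {T'' : Scheme.{u}} {t'' : T'' ⟶ Spec (CommRingCat.of k)}
    (φ : SchemeHomOver t' t) (ψ : SchemeHomOver t'' t') (x : PicC (pullback c t)) :
    PicC.pull (baseChangeSnd c ψ) (PicC.pull (baseChangeSnd c φ) x) =
      PicC.pull (baseChangeSnd c (postComp φ ψ)) x := by
  rw [← baseChangeSnd_comp c φ ψ, PicC.pull_comp]

theorem EulerZero.pull {x : PicC (pullback c t)} (h : EulerZero c ε x) (ψ : SchemeHomOver t' t) :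
    EulerZero c ε (PicC.pull (baseChangeSnd c ψ) x) := by
  intro K _ _ s d N hd
  exact h K (postComp ψ s) d N (hd.trans (pull_baseChangeSnd_postComp ψ s x))

theorem EulerZero.chi_eq {x : PicC (pullback c t)} (h : EulerZero c ε x) (hlat : LattExists c ε)
    (hx : Rigidified c ε x) {K : Type u} [Field K] [Algebra k K]
    (s : SchemeHomOver (algSpecMap (k := k) K) t) {M : (curveDatum c ε).Sub K}
    (hM : HasLatt c ε (PicC.pull (baseChangeSnd c s) x) M) :
    (curveDatum c ε).IsLat M ∧
      (curveDatum c ε).chi M = (curveDatum c ε).chi (1 : (curveDatum c ε).Sub K) := by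
  obtain ⟨M₀, hM₀, hx₀⟩ := hlat K _ (RigClass.map s (RigClass.mk x hx)).pull_val
  obtain ⟨d, N, hd, hN⟩ := hx₀
  have e : (curveDatum c ε).Equiv M₀ M :=
    HasLatt.equiv (c := c) (ε := ε) ⟨d, N, hd, hN⟩ hM
  refine ⟨hM₀.equiv e, ?_⟩
  have h1 := h K s d N hd
  rw [← (hM₀.equiv hN.symm).chi_equiv (hN.trans e)] at h1
  exact h1

theorem eulerZero_of_exists {x : PicC (pullback c t)}
    (h : ∀ (K : Type u) [Field K] [Algebra k K] (s : SchemeHomOver (algSpecMap (k := k) K) t),
      ∃ M, (curveDatum c ε).IsLat M ∧ HasLatt c ε (PicC.pull (baseChangeSnd c s) x) M ∧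
        (curveDatum c ε).chi M = (curveDatum c ε).chi (1 : (curveDatum c ε).Sub K)) :
    EulerZero c ε x := by
  intro K _ _ s d N hd
  obtain ⟨M, hM, hxM, hchi⟩ := h K s
  have e : (curveDatum c ε).Equiv M N.latt := by
    have hN := HasLatt.of_triv N
    rw [hd] at hN
    exact hxM.equiv hN
  rw [hM.chi_equiv e]
  exact hchi

theorem eulerZero_one : EulerZero c ε (1 : PicC (pullback c t)) := by
  refine eulerZero_of_exists fun K _ _ s => ⟨1, CurveDatum.isLat_one _, ?_, rfl⟩
  rw [map_one]
  exact HasLatt.one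

theorem EulerZero.mul (hlat : LattExists c ε) {x y : PicC (pullback c t)}
    (hx : Rigidified c ε x) (hy : Rigidified c ε y) (h : EulerZero c ε x) (h' : EulerZero c ε y) :
    EulerZero c ε (x * y) := by
  refine eulerZero_of_exists fun K _ _ s => ?_
  obtain ⟨M, hM, hxM⟩ := hlat K _ (RigClass.map s (RigClass.mk x hx)).pull_val
  obtain ⟨N, hN, hyN⟩ := hlat K _ (RigClass.map s (RigClass.mk y hy)).pull_val
  refine ⟨M * N, hM.mul hN, ?_, ?_⟩
  · rw [map_mul]
    exact hxM.mul hyN
  · have h1 := (h.chi_eq hlat hx s hxM).2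
    have h2 := (h'.chi_eq hlat hy s hyN).2
    have h3 := hM.chi_mul hN
    omega

theorem EulerZero.inv (hlat : LattExists c ε) {x : PicC (pullback c t)}
    (hx : Rigidified c ε x) (h : EulerZero c ε x) : EulerZero c ε x⁻¹ := by
  have hx' : Rigidified c ε x⁻¹ := ((RigClass.mk x hx : RigClass c ε t)⁻¹).pull_val
  refine eulerZero_of_exists fun K _ _ s => ?_
  obtain ⟨M, hM, hxM⟩ := hlat K _ (RigClass.map s (RigClass.mk x hx)).pull_val
  obtain ⟨N, hN, hyN⟩ := hlat K _ (RigClass.map s (RigClass.mk x⁻¹ hx')).pull_val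
  refine ⟨N, hN, hyN, ?_⟩
  have e : (curveDatum c ε).Equiv (M * N) 1 := by
    have h1 := hxM.mul hyN
    rw [show (RigClass.map s (RigClass.mk x hx)).val * (RigClass.map s (RigClass.mk x⁻¹ hx')).val
        = 1 from (map_mul (PicC.pull (baseChangeSnd c s)) x x⁻¹).symm.trans
          (by rw [mul_inv_cancel, map_one])] at h1
    exact h1.equiv HasLatt.one
  have h1 := (h.chi_eq hlat hx s hxM).2
  have h2 := (hM.mul hN).chi_equiv e
  have h3 := hM.chi_mul hN
  omega

variable (c ε)

/-- The rigidified classes with trivial Euler characteristic. -/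
def eulerSubgroup (hlat : LattExists c ε) {T : Scheme.{u}} (t : T ⟶ Spec (CommRingCat.of k)) :
    Subgroup (RigClass c ε t) where
  carrier := {x | EulerZero c ε x.val}
  one_mem' := eulerZero_one
  mul_mem' {x y} hx hy := EulerZero.mul hlat x.pull_val y.pull_val hx hy
  inv_mem' {x} hx := EulerZero.inv hlat x.pull_val hx

/-- A morphism from a field factors through an open containing the image. -/
theorem exists_factor_open {K : Type u} [Field K] (s : Spec (CommRingCat.of K) ⟶ T) (U : T.Opens)
    (h : s (IsLocalRing.closedPoint K) ∈ U) :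
    ∃ s' : Spec (CommRingCat.of K) ⟶ U.toScheme, s' ≫ U.ι = s := by
  have hr : Set.range s ⊆ Set.range U.ι := by
    rintro _ ⟨p, rfl⟩
    rw [Scheme.Opens.range_ι, Subsingleton.elim (α := PrimeSpectrum K) p (IsLocalRing.closedPoint K)]
    exact h
  exact ⟨IsOpenImmersion.lift U.ι s hr, IsOpenImmersion.lift_fac _ _ _⟩

/-- The group functor of classes with trivial Euler characteristic. -/
def picZeroFunctor (hlat : LattExists c ε) (hrig : RigidUnits c ε) : GroupFunctor k where
  obj t := eulerSubgroup c ε hlat t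
  map {_ _ _ _} ψ x := ⟨RigClass.map ψ x.1, EulerZero.pull x.2 ψ⟩
  map_mul ψ _ _ := Subtype.ext (map_mul (RigClass.map ψ) _ _)
  map_id _ x := Subtype.ext (RigClass.map_id x.1)
  map_comp φ ψ x := Subtype.ext (RigClass.map_map φ ψ x.1)
  ext_open _ _ U hU x y he := Subtype.ext
    (RigClass.ext_open hrig U hU x.1 y.1 fun i => congrArg Subtype.val (he i))
  glue_open {T} t _ U hU x hx := by
    obtain ⟨z, hz⟩ := RigClass.glue_open hrig U hU (fun i => (x i).1)
      fun i j V hi hj => congrArg Subtype.val (hx i j V hi hj)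
    refine ⟨⟨z, ?_⟩, fun i => Subtype.ext (hz i)⟩
    intro K _ _ s d N hd
    obtain ⟨i, hi⟩ := hU (s.1 (IsLocalRing.closedPoint K))
    obtain ⟨s', hs'⟩ := exists_factor_open s.1 (U i) hi
    let s₁ : SchemeHomOver (algSpecMap (k := k) K) ((U i).ι ≫ t) :=
      ⟨s', by rw [← Category.assoc, hs', s.2]⟩
    refine (x i).2 K s₁ d N ?_
    rw [← hz i, RigClass.val_map, pull_baseChangeSnd_postComp, hd]
    congr 3
    exact Subtype.ext hs'.symm

end FermatAgent.Jacobian
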