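import Fermat.Agent.Jacobian.Bridge.Functor
import Fermat.Agent.Jacobian.Bridge.Twist
import Fermat.Agent.Jacobian.Lat.Field

/-!
# The Abel–Jacobi family generates the rational points

A lattice with the characteristic of the trivial one is, after enough twists by the section, cut
out by a product of points.
-/

set_option autoImplicit false
set_option backward.isDefEq.respectTransparency false

noncomputable section

open CategoryTheory CategoryTheory.Limits AlgebraicGeometry AlgebraicGeometry.RelPicard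
  TopologicalSpace AlgebraicCurve NeronModelInfra Module

namespace FermatAgent.Jacobian

universe u

variable {k : Type u} [Field k]

section Lattice

variable {D : CurveDatum k} {K : Type u} [Field K] [Algebra k K]

/-- A lattice of positive characteristic has a section without polar part. -/
theorem CurveDatum.IsLat.exists_mem_fil_zero {M : D.Sub K} (hM : D.IsLat M) (h : 0 < D.chi M) :
    ∃ v ∈ M, v ∈ fil K 0 ∧ v ≠ 0 := by
  obtain ⟨n₀, hn₀⟩ := hM.exists_surj
  have hs := hn₀ (min n₀ 0) (min_le_left _ _)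
  have := hM.finite_kerMod hs
  have hchi := hM.chi_eq hs
  have h1 := (D.winMap M (min n₀ 0) 0).finrank_range_add_finrank_ker
  have h2 := Submodule.finrank_le (LinearMap.range (D.winMap M (min n₀ 0) 0))
  rw [finrank_fintype_fun_eq_card, Fintype.card_coe, Int.card_Ico] at h2
  have h3 : LinearMap.ker (D.winMap M (min n₀ 0) 0) ≠ ⊥ := fun h0 => by
    rw [h0, finrank_bot] at h1
    omega
  obtain ⟨x, hx, hx0⟩ := Submodule.exists_mem_ne_zero_of_ne_bot h3
  exact ⟨x, x.2.1, (CurveDatum.winMap_eq_zero_iff x).1 hx, fun h0 => hx0 (Subtype.ext h0)⟩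

theorem CurveDatum.equiv_twist_span {v : LaurentSeries K} {j : ℤ} (hv : IsMonicAt v j) :
    D.Equiv (D.twist j 1) (Submodule.span (D.RA K) {v}) := by
  refine ⟨v * HahnSeries.single (-j) 1, isUnitSeries_iff.2 ?_, ?_⟩
  · have h := hv.mul (isMonicAt_single (A := K) (-j))
    rwa [add_neg_cancel] at h
  · rw [CurveDatum.twist, one_mul, Submodule.span_mul_span, Set.singleton_mul_singleton,
      mul_left_comm, HahnSeries.single_mul_single, add_neg_cancel, one_mul,
      show HahnSeries.single (0 : ℤ) (1 : K) = 1 from rfl, mul_one]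

/-- A lattice of the characteristic of the trivial one is, times at most `(1 - χ(1))⁺` points, a
multiple of the section. -/
theorem CurveDatum.IsLat.exists_points [IsAlgClosed k] {M : D.Sub k} (hM : D.IsLat M)
    (hchi : D.chi M = D.chi (1 : D.Sub k)) :
    ∃ xs : List (D.R →ₐ[k] k), xs.length ≤ (1 - D.chi (1 : D.Sub k)).toNat ∧
      D.Equiv (M * (xs.map (D.pointIdeal k)).prod) (D.twist (-(xs.length : ℤ)) 1) := by
  set n := (1 - D.chi (1 : D.Sub k)).toNat
  have htw := hM.twist (n : ℤ)
  have hchi' : D.chi (D.twist (n : ℤ) M) = D.chi (1 : D.Sub k) + n := by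
    rw [hM.chi_twist, hchi]
  obtain ⟨v, hv, hv0, hvne⟩ := htw.exists_mem_fil_zero (by omega)
  have hvm : IsMonicAt v v.order :=
    ⟨fun _ hi => HahnSeries.coeff_eq_zero_of_lt_order hi,
      Ne.isUnit (mt HahnSeries.coeff_order_eq_zero.1 hvne)⟩
  have hord : 0 ≤ v.order := by
    by_contra hneg
    exact hvne (HahnSeries.coeff_order_eq_zero.1 (hv0 _ (not_le.1 hneg)))
  obtain ⟨N, hN⟩ := htw.isUnit.exists_right_inv
  have hle : Submodule.span (D.RA k) {v} * N ≤ 1 :=
    (mul_le_mul' ((Submodule.span_singleton_le_iff_mem _ _).2 hv) le_rfl).trans hN.le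
  obtain ⟨J, hJ0, hJ⟩ := D.exists_ideal_of_le_one
    ((D.isUnit_span_singleton hvm.isUnit).mul
      (IsUnit.of_mul_eq_one (D.twist (n : ℤ) M) (by rw [mul_comm]; exact hN))) hle
  obtain ⟨xs, hxs⟩ := D.exists_points_of_ideal k hJ0
  have hv1 : D.twist (n : ℤ) M * (xs.map (D.pointIdeal k)).prod =
      Submodule.span (D.RA k) {v} := by
    rw [← hxs, hJ, mul_left_comm, hN, mul_one]
  have hlen : (xs.length : ℤ) = n - v.order := by
    have h1 := htw.chi_mul_prod xs
    have hvL : D.IsLat (1 * Submodule.span (D.RA k) {v}) := by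
      rw [one_mul, ← hv1]; exact htw.mul_prod_pointIdeal xs
    have h2 := D.isLat_one.chi_mul_span hvm hvL
    rw [one_mul] at h2
    rw [hv1, hchi', h2] at h1
    omega
  refine ⟨xs, by omega, ?_⟩
  have e : D.Equiv (D.twist (-(n : ℤ)) (D.twist (n : ℤ) (M * (xs.map (D.pointIdeal k)).prod)))
      (D.twist (-(n : ℤ)) (D.twist v.order 1)) := by
    refine CurveDatum.Equiv.twist ?_ _
    rw [show D.twist (n : ℤ) (M * (xs.map (D.pointIdeal k)).prod) =
      D.twist (n : ℤ) M * (xs.map (D.pointIdeal k)).prod from mul_right_comm _ _ _, hv1]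
    exact (CurveDatum.equiv_twist_span hvm).symm
  rw [CurveDatum.twist_twist, CurveDatum.twist_twist, add_neg_cancel, CurveDatum.twist_zero] at e
  rwa [show -(xs.length : ℤ) = v.order + -(n : ℤ) by omega]

end Lattice

variable {C : Scheme.{u}} {c : C ⟶ Spec (CommRingCat.of k)}

variable [IsAlgClosed k] (c) [SmoothOfRelativeDimension 1 c] [IsIntegral C] [IsProper c]
  (ε : SchemeHomOver (𝟙 (Spec (CommRingCat.of k))) c)

omit [IsAlgClosed k] [SmoothOfRelativeDimension 1 c] [IsIntegral C] [IsProper c] in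
theorem fromSpec_comp {U : C.Opens} (hU : IsAffineOpen U) :
    hU.fromSpec ≫ c = Spec.map (CommRingCat.ofHom (sectionsHom c U)) := by
  rw [← IsAffineOpen.SpecMap_appLE_fromSpec c (isAffineOpen_top _) hU le_top,
    IsAffineOpen.fromSpec_top, Scheme.isoSpec_Spec_inv, ← Spec.map_comp]
  rfl

/-- The point of the affine curve with a given evaluation. -/
def pointOfHom (φ : (curveDatum c ε).R →ₐ[k] k) : SchemeHomOver (algSpecMap (k := k) k) c :=
  ⟨Spec.map (CommRingCat.ofHom φ.toRingHom) ≫ (isAffineOpen_baseOpen c ε).fromSpec, by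
    rw [Category.assoc, fromSpec_comp]
    refine (Spec.map_comp _ _).symm.trans (congrArg Spec.map ?_)
    ext a
    exact φ.commutes a⟩

variable {c ε} (δ : PicC (pullback c c))

/-- Products of the family have the expected lattices. -/
theorem exists_hasLatt_prod (hδ : ∀ φ : (curveDatum c ε).R →ₐ[k] k, ∃ L : (curveDatum c ε).Sub k,
      HasLatt c ε (PicC.pull (baseChangeSnd c (pointOfHom c ε φ)) δ) L ∧
        (curveDatum c ε).Equiv (L * (curveDatum c ε).pointIdeal k φ)
          ((curveDatum c ε).twist (-1) 1))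
    (xs : List ((curveDatum c ε).R →ₐ[k] k)) :
    ∃ L : (curveDatum c ε).Sub k,
      HasLatt c ε (xs.map fun φ => PicC.pull (baseChangeSnd c (pointOfHom c ε φ)) δ).prod L ∧
        (curveDatum c ε).Equiv (L * (xs.map ((curveDatum c ε).pointIdeal k)).prod)
          ((curveDatum c ε).twist (-(xs.length : ℤ)) 1) := by
  induction xs with
  | nil =>
    refine ⟨1, HasLatt.one, ?_⟩
    simp only [List.map_nil, List.prod_nil, mul_one, List.length_nil, Nat.cast_zero, neg_zero,
      CurveDatum.twist_zero]
    exact CurveDatum.equiv_refl _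
  | cons φ xs ih =>
    obtain ⟨L₁, h₁, e₁⟩ := hδ φ
    obtain ⟨L₂, h₂, e₂⟩ := ih
    refine ⟨L₁ * L₂, h₁.mul h₂, ?_⟩
    rw [List.map_cons, List.prod_cons, mul_mul_mul_comm]
    refine (e₁.mul e₂).trans ?_
    rw [CurveDatum.twist, CurveDatum.twist, one_mul, one_mul, Submodule.span_mul_span,
      Set.singleton_mul_singleton, HahnSeries.single_mul_single, one_mul, CurveDatum.twist,
      one_mul, List.length_cons,
      show (-1 + -(xs.length : ℤ)) = -((xs.length + 1 : ℕ) : ℤ) by omega]
    exact CurveDatum.equiv_refl _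

/-- The family generates the classes with trivial characteristic over `k`. -/
theorem exists_prod_pull_eq (hrigδ : Rigidified c ε δ)
    (hε : PicC.pull (baseChangeSnd c (algPoint ε)) δ = 1)
    (hδ : ∀ φ : (curveDatum c ε).R →ₐ[k] k, ∃ L : (curveDatum c ε).Sub k,
      HasLatt c ε (PicC.pull (baseChangeSnd c (pointOfHom c ε φ)) δ) L ∧
        (curveDatum c ε).Equiv (L * (curveDatum c ε).pointIdeal k φ)
          ((curveDatum c ε).twist (-1) 1))
    (heq : ∀ (A : Type u) [CommRing A] [Algebra k A] (x y : PicC (curveOver c A))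
      (M : (curveDatum c ε).Sub A), Rigidified c ε x → Rigidified c ε y →
        HasLatt c ε x M → HasLatt c ε y M → x = y) :
    ∃ n : ℕ, ∀ (y : PicC (curveOver c k)) (M : (curveDatum c ε).Sub k), Rigidified c ε y →
      (curveDatum c ε).IsLat M → HasLatt c ε y M →
      (curveDatum c ε).chi M = (curveDatum c ε).chi (1 : (curveDatum c ε).Sub k) →
      ∃ x : Fin n → SchemeHomOver (algSpecMap (k := k) k) c,
        y = ∏ i, PicC.pull (baseChangeSnd c (x i)) δ := by
  refine ⟨(1 - (curveDatum c ε).chi (1 : (curveDatum c ε).Sub k)).toNat,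
    fun y M hy hM hyM hchi => ?_⟩
  obtain ⟨xs, hlen, exs⟩ := hM.exists_points hchi
  obtain ⟨L, hL, eL⟩ := exists_hasLatt_prod δ hδ xs
  have eML : (curveDatum c ε).Equiv L M := by
    obtain ⟨P, hP⟩ := ((CurveDatum.isLat_one (curveDatum c ε) (A := k)).mul_prod_pointIdeal xs).isUnit.exists_right_inv
    rw [one_mul] at hP
    have h := (eL.trans exs.symm).mul (CurveDatum.equiv_refl P)
    rwa [mul_assoc, mul_assoc, hP, mul_one, mul_one] at h
  let g : SchemeHomOver (algSpecMap (k := k) k) c → PicC (curveOver c k) :=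
    fun x => PicC.pull (baseChangeSnd c x) δ
  have hrig : ∀ l : List (SchemeHomOver (algSpecMap (k := k) k) c),
      Rigidified c ε (l.map g).prod := by
    intro l
    induction l with
    | nil => exact map_one (PicC.pull (rigSection c (algSpecMap (k := k) k) ε))
    | cons x l ih =>
      rw [List.map_cons, List.prod_cons]
      exact ((RigClass.map x (RigClass.mk δ hrigδ)) * RigClass.mk _ ih).pull_val
  suffices h : ∀ l : List (SchemeHomOver (algSpecMap (k := k) k) c), y = (l.map g).prod →
      ∀ n, l.length = n → ∃ x : Fin n → _, y = ∏ i, g (x i) by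
    refine h (xs.map (pointOfHom c ε) ++ List.replicate
      ((1 - (curveDatum c ε).chi (1 : (curveDatum c ε).Sub k)).toNat - xs.length) (algPoint ε))
      ?_ _ (by simp; omega)
    rw [List.map_append, List.prod_append, List.map_replicate, show g (algPoint ε) = 1 from hε,
      List.prod_replicate, one_pow, mul_one]
    refine heq k _ _ M hy (hrig _) hyM ?_
    rw [List.map_map]
    exact hL.congr eML
  rintro l hl n rfl
  exact ⟨fun i => l.get i, hl.trans (by simp [← List.prod_ofFn])⟩

/-- The same for rational points of the group functor. -/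
theorem exists_prod_map_eq (hlat : LattExists c ε) (hrigδ : Rigidified c ε δ)
    (hε : PicC.pull (baseChangeSnd c (algPoint ε)) δ = 1)
    (hδ : ∀ φ : (curveDatum c ε).R →ₐ[k] k, ∃ L : (curveDatum c ε).Sub k,
      HasLatt c ε (PicC.pull (baseChangeSnd c (pointOfHom c ε φ)) δ) L ∧
        (curveDatum c ε).Equiv (L * (curveDatum c ε).pointIdeal k φ)
          ((curveDatum c ε).twist (-1) 1))
    (heq : ∀ (A : Type u) [CommRing A] [Algebra k A] (x y : PicC (curveOver c A))
      (M : (curveDatum c ε).Sub A), Rigidified c ε x → Rigidified c ε y →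
        HasLatt c ε x M → HasLatt c ε y M → x = y) :
    ∃ n : ℕ, ∀ a : eulerSubgroup c ε hlat (𝟙 (Spec (CommRingCat.of k))),
      ∃ x : Fin n → SchemeHomOver (𝟙 (Spec (CommRingCat.of k))) c,
        a.1 = ∏ i, RigClass.map (x i) (RigClass.mk δ hrigδ) := by
  obtain ⟨n, hn⟩ := exists_prod_pull_eq δ hrigδ hε hδ heq
  refine ⟨n, fun a => ?_⟩
  let e : SchemeHomOver (algSpecMap (k := k) k) (𝟙 (Spec (CommRingCat.of k))) :=
    ⟨𝟙 _, (Category.id_comp _).trans algSpecMap_self.symm⟩
  let e' : SchemeHomOver (𝟙 (Spec (CommRingCat.of k))) (algSpecMap (k := k) k) :=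
    ⟨𝟙 _, (Category.id_comp _).trans algSpecMap_self⟩
  obtain ⟨M, hM, hy⟩ := hlat k _ (RigClass.map e a.1).pull_val
  have hchi := (EulerZero.chi_eq a.2 hlat a.1.pull_val e hy).2
  obtain ⟨x, hx⟩ := hn _ M (RigClass.map e a.1).pull_val hM hy hchi
  refine ⟨fun i => ratPoint (x i), ?_⟩
  have hback : RigClass.map e' (RigClass.map e a.1) = a.1 := by
    rw [RigClass.map_map]
    rw [show postComp e e' = ⟨𝟙 _, Category.id_comp _⟩ from Subtype.ext (Category.id_comp _)]
    exact RigClass.map_id a.1
  have hx' : RigClass.map e a.1 = ∏ i, RigClass.map (x i) (RigClass.mk δ hrigδ) := by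
    refine RigClass.ext' (hx.trans ?_)
    exact (map_prod ({ toFun := RigClass.val, map_one' := rfl, map_mul' := fun _ _ => rfl } :
      RigClass c ε (algSpecMap (k := k) k) →* PicC (curveOver c k))
      (fun i => RigClass.map (x i) (RigClass.mk δ hrigδ)) Finset.univ).symm
  rw [← hback, hx', map_prod]
  refine Finset.prod_congr rfl fun i _ => ?_
  rw [RigClass.map_map]
  congr 2

end FermatAgent.Jacobian
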