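import Fermat.Agent.Jacobian.Bridge.GlueCocycle
import Fermat.Agent.Jacobian.Lat.Finite
import Mathlib.LinearAlgebra.Charpoly.Basic
import Mathlib.RingTheory.IntegralClosure.IsIntegralClosure.Basic

/-!
# Lattices come from bundles

An invertible submodule containing the functions, finite over them, is the lattice of a bundle
trivialised near the section.
-/

set_option autoImplicit false

noncomputable section

open CategoryTheory CategoryTheory.Limits AlgebraicGeometry TopologicalSpace AlgebraicCurve
  NeronModelInfra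

namespace FermatAgent.Jacobian

open scoped TensorProduct

universe u

/-- An element killed by functions generating the unit ideal after taking powers is zero. -/
theorem mem_of_pow_smul_mem {R L : Type*} [CommRing R] [AddCommGroup L] [Module R L]
    (N : Submodule R L) {J : Type*} [Fintype J] (h : J → R) (hsum : ∑ j, h j = 1) {z : L}
    (hz : ∀ j, ∃ n : ℕ, h j ^ n • z ∈ N) : z ∈ N := by
  let Ann : Ideal R := N.comap (LinearMap.toSpanSingleton R L z)
  have h1 : (1 : R) ∈ Ann.radical := by
    rw [← hsum]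
    exact Ideal.sum_mem _ fun j _ => hz j
  obtain ⟨n, hn⟩ := h1
  have hn' : (1 : R) ^ n • z ∈ N := hn
  rwa [one_pow, one_smul] at hn'

variable {k : Type u} [Field k] [IsAlgClosed k] {C : Scheme.{u}}
  {c : C ⟶ Spec (CommRingCat.of k)} [SmoothOfRelativeDimension 1 c] [IsIntegral C] [IsProper c]
  {ε : SchemeHomOver (𝟙 (Spec (CommRingCat.of k))) c} {A : Type u} [CommRing A] [Algebra k A]
  {M : (curveDatum c ε).Sub A}

theorem expG_funU {g : Γ(curveOver c A, openV c ε A)} (hg : IsNear c ε A g)
    (p : (curveDatum c ε).RA A) :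
    expG hg (funU c ε A (openG g) (openG_le_openU g) p) = (curveDatum c ε).expA A p :=
  (expG_ores_openU hg _).trans (expU_ringU c ε A p)

namespace GlueData

variable (P : GlueData c ε A M)

/-- The trivialisation outside the ideal. -/
def nearTriv : NearTriv c ε A P.bundle where
  g := P.exists_near.choose
  near := P.exists_near.choose_spec.1
  q := mres P.bundle.toModules P.exists_near.choose_spec.2 (P.frameAt none)
  isFrame := (P.isFrame_frameAt none).res _

theorem exists_val_relation (s : Γ(P.bundle.toModules, openU c ε A)) (j : P.J)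
    {G : Γ(curveOver c A, P.openJ j)}
    (hG : G • mres P.bundle.toModules le_rfl (P.frameAt (some j)) =
      mres P.bundle.toModules (P.openJ_le j) s)
    {r : (curveDatum c ε).RA A} {n : ℕ}
    (hr : G * funU c ε A (P.openJ j) (P.openJ_le j) (P.h j) ^ n =
      funU c ε A (P.openJ j) (P.openJ_le j) r) :
    ∃ p : ℕ, (curveDatum c ε).expA A (P.h j) ^ (p + n + 1) * P.nearTriv.val s =
      (curveDatum c ε).expA A (P.h j) ^ (p + 1) * ((curveDatum c ε).expA A r * P.m j) := by
  set T := P.nearTriv
  have hgW : (curveOver c A).basicOpen T.g ≤ P.openW := P.exists_near.choose_spec.2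
  set G₀ := T.isFrame.coef (openG_le_basicOpen T.g)
    (mres P.bundle.toModules (openG_le_openU T.g) s) with hG₀def
  have hG₀ : G₀ • mres P.bundle.toModules ((openG_le_basicOpen T.g).trans hgW) (P.frameAt none) =
      mres P.bundle.toModules (openG_le_openU T.g) s := by
    have h := T.isFrame.coef_smul (openG_le_basicOpen T.g)
      (mres P.bundle.toModules (openG_le_openU T.g) s)
    erw [mres_mres] at h
    exact h
  set t := funU c ε A (openG T.g) (openG_le_openU T.g) (P.h j) with ht
  set B := (curveOver c A).basicOpen t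
  have hBG : B ≤ openG T.g := (curveOver c A).basicOpen_le _
  have hBJ : B ≤ P.openJ j := by
    show (curveOver c A).basicOpen t ≤ _
    rw [ht, funU_apply, basicOpen_ores]
    exact inf_le_right
  have hBW : B ≤ P.openW := hBG.trans ((openG_le_basicOpen T.g).trans hgW)
  have hBU : B ≤ openU c ε A := hBG.trans (openG_le_openU T.g)
  have h1 : ores hBG G₀ * P.coord P.e j hBJ = ores hBJ G := by
    refine (P.isFrame_frameAt (some j)).eq_of_smul_eq (h := hBJ) ?_
    have e1 := congrArg (mres P.bundle.toModules hBG) hG₀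
    have e2 := congrArg (mres P.bundle.toModules hBJ) hG
    erw [mres_smul, mres_mres, mres_mres] at e1
    erw [mres_smul, mres_mres, mres_mres] at e2
    rw [mul_smul, ← P.mres_frameAt none j hBW hBJ]
    exact e1.trans e2.symm
  have h2 : ores hBG (G₀ * funU c ε A (openG T.g) (openG_le_openU T.g) (P.co j P.e * P.h j ^ n)) =
      ores hBG (funU c ε A (openG T.g) (openG_le_openU T.g) (r * P.h j)) := by
    have e := congrArg (ores hBJ) hr
    rw [ores_mul, ← map_pow, ores_funU, ores_funU] at e
    rw [ores_mul, ores_funU, ores_funU, map_mul, map_mul, ← e, map_pow]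
    calc ores hBG G₀ * (funU c ε A B hBU (P.co j P.e) * funU c ε A B hBU (P.h j) ^ n)
        = ores hBG G₀ * (P.coord P.e j hBJ * funU c ε A B hBU (P.h j) *
          funU c ε A B hBU (P.h j) ^ n) := by rw [P.coord_mul_h]
      _ = ores hBJ G * funU c ε A B hBU (P.h j) ^ n * funU c ε A B hBU (P.h j) := by
          rw [← h1]; ring
  have := ((isAffineOpen_openUV c ε A).basicOpen
    (ores (inf_le_right : openUV c ε A ≤ openV c ε A) T.g)).isLocalization_basicOpen t
  obtain ⟨p, hp⟩ := IsLocalization.Away.exists_of_eq (x := t)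
    (S := Γ(curveOver c A, B)) h2
  have hp' := congrArg (expG T.near) hp
  simp only [ht, map_mul, map_pow, expG_funU] at hp'
  refine ⟨p, ?_⟩
  change _ * expG T.near G₀ = _
  have hm : (curveDatum c ε).expA A (P.co j P.e) * P.m j = (curveDatum c ε).expA A (P.h j) := by
    rw [P.expA_co, P.expA_h]
    show (1 : LaurentSeries A) * _ * _ = _
    ring
  generalize expG T.near G₀ = y at hp' ⊢
  generalize (curveDatum c ε).expA A (P.h j) = H at hp' hm ⊢
  generalize (curveDatum c ε).expA A r = R at hp' ⊢
  generalize (curveDatum c ε).expA A (P.co j P.e) = E at hp' hm ⊢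
  linear_combination (P.m j) * hp' - H ^ (p + n) * y * hm

theorem val_mem (s : Γ(P.bundle.toModules, openU c ε A)) : P.nearTriv.val s ∈ M := by
  refine mem_of_pow_smul_mem M P.h P.sum_h fun j => ?_
  have := (isAffineOpen_openU c ε A).isLocalization_basicOpen (ringU c ε A (P.h j))
  obtain ⟨n, a, ha⟩ := IsLocalization.Away.surj (ringU c ε A (P.h j))
    (S := Γ(curveOver c A, (curveOver c A).basicOpen (ringU c ε A (P.h j))))
    ((P.isFrame_frameAt (some j)).coef le_rfl (mres P.bundle.toModules (P.openJ_le j) s))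
  obtain ⟨p, hp⟩ := P.exists_val_relation s j ((P.isFrame_frameAt (some j)).coef_smul _ _)
    (r := (ringU c ε A).symm a) (n := n) (by
      rw [funU_apply, funU_apply, RingEquiv.apply_symm_apply]
      exact ha)
  refine ⟨p + n + 1, ?_⟩
  rw [CurveDatum.smul_def, map_pow, hp, ← mul_assoc, ← map_pow, ← map_mul,
    ← CurveDatum.smul_def]
  exact M.smul_mem _ (P.mem j)

theorem exists_val_eq (x : M) :
    ∃ s : Γ(P.bundle.toModules, openU c ε A), P.nearTriv.val s = x := by
  obtain ⟨s, hs⟩ := P.exists_section x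
  refine ⟨s, sub_eq_zero.1 ((Submodule.mem_bot ((curveDatum c ε).RA A)).1
    (mem_of_pow_smul_mem ⊥ P.h P.sum_h fun j => ?_))⟩
  obtain ⟨p, hp⟩ := P.exists_val_relation s j
    (by rw [mres_self]; exact (hs j).symm) (r := P.co j x) (n := 1)
    (by rw [pow_one]; exact P.coord_mul_h x j le_rfl)
  refine ⟨p + 2, (Submodule.mem_bot _).2 ?_⟩
  rw [CurveDatum.smul_def, map_pow, mul_sub, sub_eq_zero, show p + 2 = p + 1 + 1 from rfl, hp,
    ← P.expA_h_mul, ← mul_assoc, ← pow_succ]

theorem latt_nearTriv : P.nearTriv.latt = M := by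
  refine le_antisymm ?_ fun x hx => ?_
  · rintro _ ⟨s, rfl⟩
    exact P.val_mem s
  · exact P.exists_val_eq ⟨x, hx⟩

end GlueData

/-- An invertible submodule containing the functions and carried into them by an ideal of finite
colength is the lattice of a bundle. -/
theorem exists_nearTriv_latt_eq (hM : IsUnit M) (h1 : (1 : LaurentSeries A) ∈ M)
    (I : Ideal ((curveDatum c ε).RA A)) [Module.Finite A ((curveDatum c ε).RA A ⧸ I)]
    (hI : ∀ r ∈ I, ∀ m ∈ M,
      ∃ r', (curveDatum c ε).expA A r' = (curveDatum c ε).expA A r * m) :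
    ∃ (d : Cocycle (curveOver c A)) (N : NearTriv c ε A d), N.latt = M := by
  obtain ⟨J, _, m, w, co, hm, hw, hc⟩ := (curveDatum c ε).exists_frame hM
  let P : GlueData c ε A M := ⟨J, m, w, co, hm, hw, hc, h1, I, inferInstance, hI⟩
  exact ⟨_, P.nearTriv, P.latt_nearTriv⟩

omit [IsAlgClosed k] in
/-- An invertible submodule containing the functions is carried into them by an ideal of finite
colength. -/
theorem exists_ideal_absorb (D : CurveDatum.{u} k) {A : Type u} [CommRing A] [Algebra k A]
    {M : D.Sub A} (hM : IsUnit M) (h1 : (1 : LaurentSeries A) ∈ M) :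
    ∃ I : Ideal (D.RA A), Module.Finite A (D.RA A ⧸ I) ∧
      ∀ r ∈ I, ∀ m ∈ M, ∃ r', D.expA A r' = D.expA A r * m := by
  classical
  let ι : D.RA A →ₗ[D.RA A] M := LinearMap.toSpanSingleton (D.RA A) M ⟨1, h1⟩
  have hlat : D.IsLat M := ⟨hM, 1, 1, one_ne_zero, isUnitSeries_one, by
    rwa [D.expR_one, mul_one]⟩
  obtain ⟨N, hN⟩ := (D.isLat_one (A := A)).exists_surj
  have hone := hN N le_rfl
  have hle : (1 : D.Sub A) ≤ M := Submodule.one_le.2 h1
  have hSurj : D.Surj M N := fun x => by
    obtain ⟨m, hm, hmx⟩ := hone x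
    exact ⟨m, hle hm, hmx⟩
  have := hlat.finite_kerMod hSurj
  let Q := M ⧸ LinearMap.range ι
  let φ : D.kerMod M N →ₗ[A] Q :=
    { toFun := fun x => Submodule.Quotient.mk ⟨x, x.2.1⟩
      map_add' := fun _ _ => rfl
      map_smul' := fun _ _ => rfl }
  have : Module.Finite A Q := by
    refine Module.Finite.of_surjective φ fun q => ?_
    obtain ⟨⟨x, hx⟩, rfl⟩ := Submodule.Quotient.mk_surjective _ q
    obtain ⟨m, hm, hmx⟩ := hone x
    obtain ⟨p, rfl⟩ := Submodule.mem_one.1 hm
    refine ⟨⟨x - algebraMap _ _ p, sub_mem hx (hle hm), hmx⟩, (Submodule.Quotient.eq _).2 ?_⟩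
    refine ⟨-p, Subtype.ext ?_⟩
    show (-p) • (1 : LaurentSeries A) = x - algebraMap _ _ p - x
    rw [neg_smul, sub_sub_cancel_left, Algebra.algebraMap_eq_smul_one]
  let ψ : D.RA A →ₐ[A] Module.End A Q := Algebra.lsmul A A Q
  refine ⟨RingHom.ker ψ, ?_, fun r hr m hm => ?_⟩
  · have hint : Algebra.IsIntegral A (D.RA A ⧸ RingHom.ker ψ) := ⟨fun y => by
      refine (isIntegral_algHom_iff (Ideal.kerLiftAlg ψ) (Ideal.kerLiftAlg_injective ψ)).1 ?_
      exact Algebra.IsIntegral.isIntegral _⟩
    exact Algebra.IsIntegral.finite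
  · have h0 : r • (Submodule.Quotient.mk ⟨m, hm⟩ : Q) = 0 :=
      LinearMap.congr_fun ((RingHom.mem_ker).1 hr) _
    rw [← Submodule.Quotient.mk_smul, Submodule.Quotient.mk_eq_zero] at h0
    obtain ⟨r', hr'⟩ := h0
    refine ⟨r', ?_⟩
    have h := congrArg Subtype.val hr'
    rw [← D.smul_def, ← mul_one (D.expA A r'), ← D.smul_def]
    exact h

/-- Lattices containing the functions come from bundles. -/
theorem exists_nearTriv_of_one_mem (hM : IsUnit M) (h1 : (1 : LaurentSeries A) ∈ M) :
    ∃ (d : Cocycle (curveOver c A)) (N : NearTriv c ε A d), N.latt = M := by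
  obtain ⟨I, hfin, hI⟩ := exists_ideal_absorb (curveDatum c ε) hM h1
  exact exists_nearTriv_latt_eq hM h1 I hI

end FermatAgent.Jacobian
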