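import Fermat.Agent.Jacobian.Bridge.Glue
import Fermat.Agent.Jacobian.Bridge.Class
import Fermat.Agent.Jacobian.Cell.Invertible
import Fermat.Agent.Jacobian.Lat.Points

/-!
# Classes with given lattices
-/

set_option autoImplicit false

noncomputable section

open CategoryTheory CategoryTheory.Limits AlgebraicGeometry TopologicalSpace AlgebraicCurve
  NeronModelInfra

namespace FermatAgent.Jacobian

universe u

variable {k : Type u} [Field k] [IsAlgClosed k] {C : Scheme.{u}}
  (c : C ⟶ Spec (CommRingCat.of k)) [SmoothOfRelativeDimension 1 c] [IsIntegral C] [IsProper c]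
  (ε : SchemeHomOver (𝟙 (Spec (CommRingCat.of k))) c)

/-- An invertible submodule containing the functions is the lattice of a class. -/
theorem exists_hasLatt_of_one_mem {A : Type u} [CommRing A] [Algebra k A]
    {M : (curveDatum c ε).Sub A} (hM : IsUnit M) (h1 : (1 : LaurentSeries A) ∈ M) :
    ∃ x : PicC (curveOver c A), HasLatt c ε x M := by
  obtain ⟨d, N, hN⟩ := exists_nearTriv_of_one_mem hM h1
  exact ⟨PicC.mk d, hN ▸ HasLatt.of_triv N⟩

/-- A point of the cell is the lattice of a class. -/
theorem exists_inCell_class (A : Type u) [CommRing A] [Algebra k A]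
    (M : (curveDatum c ε).Sub A) (hM : (curveDatum c ε).InCell M) :
    ∃ x : PicC (curveOver c A), HasLatt c ε x M :=
  exists_hasLatt_of_one_mem c ε (CurveDatum.InCell.isLat hM).isUnit hM.1

/-- The inverse of the ideal of a point is the lattice of a class. -/
theorem exists_point_class (A : Type u) [CommRing A] [Algebra k A]
    (φ : (curveDatum c ε).R →ₐ[k] k) :
    ∃ (x : PicC (curveOver c A)) (M : (curveDatum c ε).Sub A),
      HasLatt c ε x M ∧ M * (curveDatum c ε).pointIdeal A φ = 1 := by
  obtain ⟨W, hW⟩ := ((curveDatum c ε).isLat_pointIdeal A φ).isUnit.exists_left_inv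
  have hle : (1 : (curveDatum c ε).Sub A) ≤ W :=
    hW.ge.trans (mul_le_of_le_one_right' ((curveDatum c ε).pointIdeal_le_one A φ))
  obtain ⟨x, hx⟩ := exists_hasLatt_of_one_mem c ε (IsUnit.of_mul_eq_one _ hW)
    (Submodule.one_le.1 hle)
  exact ⟨x, W, hx, hW⟩

end FermatAgent.Jacobian
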