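import Fermat.Agent.Jacobian.Bridge.GlueCover
import Fermat.Agent.Jacobian.Cocycle.Cover

/-!
# The bundle of a lattice containing the functions

The coordinates with respect to the frame elements give the transition functions; the unit is a
frame outside the ideal.
-/

set_option autoImplicit false

noncomputable section

open CategoryTheory CategoryTheory.Limits AlgebraicGeometry TopologicalSpace AlgebraicCurve
  NeronModelInfra

namespace FermatAgent.Jacobian

open scoped TensorProduct

universe u

variable {k : Type u} [Field k] [IsAlgClosed k] {C : Scheme.{u}}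
  {c : C ⟶ Spec (CommRingCat.of k)} [SmoothOfRelativeDimension 1 c] [IsIntegral C] [IsProper c]
  {ε : SchemeHomOver (𝟙 (Spec (CommRingCat.of k))) c} {A : Type u} [CommRing A] [Algebra k A]
  {M : (curveDatum c ε).Sub A} (P : GlueData c ε A M) {V V' : (curveOver c A).Opens}

namespace GlueData

/-- The frame element of an index. -/
@[reducible] def Fo : Option P.J → M
  | none => P.e
  | some i => P.F i

/-- The open of an index. -/
@[reducible] def openI : Option P.J → (curveOver c A).Opens
  | none => P.openW
  | some i => P.openJ i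

theorem isUnit_funU_h {j : P.J} (hj : V ≤ P.openJ j) :
    IsUnit (funU c ε A V (hj.trans (P.openJ_le j)) (P.h j)) :=
  isUnit_funU c ε A _ hj

/-- The coordinate of an element with respect to a frame element. -/
def coord (x : M) (j : P.J) (hj : V ≤ P.openJ j) : Γ(curveOver c A, V) :=
  funU c ε A V (hj.trans (P.openJ_le j)) (P.co j x) *
    Ring.inverse (funU c ε A V (hj.trans (P.openJ_le j)) (P.h j))

theorem coord_mul_h (x : M) (j : P.J) (hj : V ≤ P.openJ j) :
    P.coord x j hj * funU c ε A V (hj.trans (P.openJ_le j)) (P.h j) =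
      funU c ε A V (hj.trans (P.openJ_le j)) (P.co j x) := by
  rw [coord, mul_assoc, Ring.inverse_mul_cancel _ (P.isUnit_funU_h hj), mul_one]

theorem coord_self (j : P.J) (hj : V ≤ P.openJ j) : P.coord (P.F j) j hj = 1 :=
  Ring.mul_inverse_cancel _ (P.isUnit_funU_h hj)

theorem coord_mul_coord (x : M) (j l : P.J) (hj : V ≤ P.openJ j) (hl : V ≤ P.openJ l) :
    P.coord x j hj * P.coord (P.F j) l hl = P.coord x l hl := by
  apply (P.isUnit_funU_h hl).mul_right_cancel
  apply (P.isUnit_funU_h hj).mul_right_cancel
  calc P.coord x j hj * P.coord (P.F j) l hl * funU c ε A V (hl.trans (P.openJ_le l)) (P.h l) *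
        funU c ε A V (hj.trans (P.openJ_le j)) (P.h j)
      = P.coord x j hj * funU c ε A V (hj.trans (P.openJ_le j)) (P.h j) *
        (P.coord (P.F j) l hl * funU c ε A V (hl.trans (P.openJ_le l)) (P.h l)) := by ring
    _ = funU c ε A V (hl.trans (P.openJ_le l)) (P.co j x * P.co l (P.F j)) := by
      rw [P.coord_mul_h, P.coord_mul_h, map_mul]
    _ = P.coord x l hl * funU c ε A V (hl.trans (P.openJ_le l)) (P.h l) *
        funU c ε A V (hj.trans (P.openJ_le j)) (P.h j) := by
      rw [P.co_mul, map_mul, P.coord_mul_h, mul_comm]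

@[simp] theorem ores_coord (x : M) (j : P.J) (hj : V ≤ P.openJ j) (h : V' ≤ V) :
    ores h (P.coord x j hj) = P.coord x j (h.trans hj) := by
  rw [coord, coord, ores_mul, ores_ringInverse _ (P.isUnit_funU_h hj), ores_funU, ores_funU]

theorem isUnit_coord (a : Option P.J) (j : P.J) (ha : V ≤ P.openI a) (hj : V ≤ P.openJ j) :
    IsUnit (P.coord (P.Fo a) j hj) := by
  match a, ha with
  | none, ha =>
    exact ((isUnit_funU c ε A _ (P.le_basicOpen_co_e ha hj))).mul
      (IsUnit.ringInverse (P.isUnit_funU_h hj))
  | some i, ha =>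
    refine IsUnit.of_mul_eq_one (P.coord (P.F j) i ha) ?_
    show P.coord (P.F i) j hj * _ = 1
    rw [P.coord_mul_coord, P.coord_self]

/-- The transition functions. -/
def trans : ∀ a b : Option P.J, Γ(curveOver c A, P.openI a ⊓ P.openI b)
  | a, some j => P.coord (P.Fo a) j inf_le_right
  | some i, none => Ring.inverse (P.coord P.e i inf_le_left)
  | none, none => 1

theorem ores_trans_some (a : Option P.J) (j : P.J) (ha : V ≤ P.openI a) (hj : V ≤ P.openJ j) :
    ores (le_inf ha hj) (P.trans a (some j)) = P.coord (P.Fo a) j hj := by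
  cases a <;> exact P.ores_coord (hj := inf_le_right) ..

theorem ores_trans_none (i : P.J) (hi : V ≤ P.openJ i) (hW : V ≤ P.openW) :
    ores (le_inf hi hW) (P.trans (some i) none) = Ring.inverse (P.coord P.e i hi) := by
  show ores _ (Ring.inverse _) = _
  rw [ores_ringInverse _ (P.isUnit_coord none i inf_le_right inf_le_left)]
  exact congrArg Ring.inverse (P.ores_coord _ _ _ _)

theorem isUnit_trans : ∀ a b : Option P.J, IsUnit (P.trans a b)
  | none, some j => P.isUnit_coord none j inf_le_left inf_le_right
  | some i, some j => P.isUnit_coord (some i) j inf_le_left inf_le_right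
  | some i, none => IsUnit.ringInverse (P.isUnit_coord none i inf_le_right inf_le_left)
  | none, none => isUnit_one

theorem coord_e_ne (i : P.J) (hi : V ≤ P.openJ i) (hW : V ≤ P.openW) :
    IsUnit (P.coord P.e i hi) :=
  P.isUnit_coord none i hW hi

theorem cocycle (a b d : Option P.J) (W : (curveOver c A).Opens) (ha : W ≤ P.openI a)
    (hb : W ≤ P.openI b) (hd : W ≤ P.openI d) :
    ores (le_inf ha hb) (P.trans a b) * ores (le_inf hb hd) (P.trans b d) =
      ores (le_inf ha hd) (P.trans a d) := by
  cases b with
  | some j =>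
    cases d with
    | some l =>
      rw [P.ores_trans_some a j ha hb, P.ores_trans_some (some j) l hb hd,
        P.ores_trans_some a l ha hd]
      exact P.coord_mul_coord _ j l hb hd
    | none =>
      have hu := P.coord_e_ne j hb hd
      rw [P.ores_trans_some a j ha hb, P.ores_trans_none j hb hd]
      cases a with
      | none =>
        rw [show ores (le_inf ha hd) (P.trans none none) = 1 from ores_one _]
        exact Ring.mul_inverse_cancel _ hu
      | some i =>
        have hu' := P.coord_e_ne i ha hd
        rw [P.ores_trans_none i ha hd]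
        apply hu'.mul_left_cancel
        rw [← mul_assoc, Ring.mul_inverse_cancel _ hu']
        show P.coord P.e i ha * P.coord (P.F i) j hb * _ = 1
        rw [P.coord_mul_coord, Ring.mul_inverse_cancel _ hu]
  | none =>
    cases a with
    | none =>
      rw [show ores (le_inf ha hb) (P.trans none none) = 1 from ores_one _, one_mul]
    | some i =>
      cases d with
      | some l =>
        have hu := P.coord_e_ne i ha hb
        rw [P.ores_trans_none i ha hb, P.ores_trans_some none l hb hd,
          P.ores_trans_some (some i) l ha hd]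
        apply hu.mul_left_cancel
        rw [← mul_assoc, Ring.mul_inverse_cancel _ hu, one_mul]
        exact (P.coord_mul_coord P.e i l ha hd).symm
      | none =>
        rw [show ores (le_inf hb hd) (P.trans none none) = 1 from ores_one _, mul_one]

theorem cover' (x : curveOver c A) : ∃ a : Option P.J, x ∈ P.openI a := by
  rcases P.cover x with h | ⟨j, hj⟩
  · exact ⟨none, h⟩
  · exact ⟨some j, hj⟩

/-- A chosen index at each point. -/
def idxAt (x : curveOver c A) : Option P.J := (P.cover' x).choose

theorem mem_idxAt (x : curveOver c A) : x ∈ P.openI (P.idxAt x) := (P.cover' x).choose_spec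

/-- The cocycle of the submodule. -/
def bundle : Cocycle (curveOver c A) :=
  Cocycle.ofCover P.openI P.idxAt P.mem_idxAt P.trans P.isUnit_trans P.cocycle

/-- The frames. -/
def frameAt (a : Option P.J) : Γ(P.bundle.toModules, P.openI a) :=
  Cocycle.coverFrame (hσ := P.mem_idxAt) (hu := P.isUnit_trans) (hg := P.cocycle) a

theorem isFrame_frameAt (a : Option P.J) : IsFrame (P.frameAt a) :=
  Cocycle.isFrame_coverFrame a

theorem mres_frameAt (a : Option P.J) (j : P.J) (ha : V ≤ P.openI a) (hj : V ≤ P.openJ j) :
    mres P.bundle.toModules ha (P.frameAt a) =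
      P.coord (P.Fo a) j hj • mres P.bundle.toModules hj (P.frameAt (some j)) := by
  have h := congrArg (mres P.bundle.toModules (le_inf ha hj))
    (Cocycle.coverFrame_eq_smul (hσ := P.mem_idxAt) (hu := P.isUnit_trans) (hg := P.cocycle)
      a (some j))
  erw [mres_mres, mres_smul, mres_mres] at h
  rw [← P.ores_trans_some a j ha hj]
  exact h

/-- An element as a section on the affine curve. -/
theorem exists_section (x : M) : ∃ s : Γ(P.bundle.toModules, openU c ε A), ∀ j,
    mres P.bundle.toModules (P.openJ_le j) s = P.coord x j le_rfl • P.frameAt (some j) := by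
  refine exists_glue P.bundle.toModules P.openJ P.openJ_le P.openU_le_iSup _ fun i j => ?_
  rw [mres_smul, mres_smul, P.ores_coord, P.ores_coord,
    P.mres_frameAt (some i) j inf_le_left inf_le_right, smul_smul]
  exact congrArg (· • _) (P.coord_mul_coord x i j _ _)

/-- A function near the section cutting out the ideal. -/
theorem exists_near : ∃ g : Γ(curveOver c A, openV c ε A), IsNear c ε A g ∧
    (curveOver c A).basicOpen g ≤ P.openW := by
  have hV := isAffineOpen_openV c ε A
  let e : Γ(curveOver c A, openV c ε A) →+* A :=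
    (PowerSeries.constantCoeff).comp (expVps c ε A)
  have hcoeff : ∀ x, e x = (expV c ε A x).coeff 0 := fun x => by
    rw [← ofPowerSeries_expVps, coeff_zero_ofPowerSeries]
    rfl
  have he : Function.Surjective e := fun a => ⟨baseSec c A (chartOpen c ε) a, by
    rw [hcoeff, expV, expSec_baseSec]
    exact HahnSeries.coeff_single_same _ _⟩
  have hcl : IsClosed (hV.fromSpec ⁻¹' P.zset) :=
    (haveI := P.finite; isClosed_range_of_finite c ε A P.I).preimage hV.fromSpec.continuous
  obtain ⟨S, hS⟩ := (PrimeSpectrum.isClosed_iff_zeroLocus_ideal _).1 hcl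
  obtain ⟨g, hgS, hg⟩ : ∃ g ∈ S, e g = 1 := by
    have htop : Ideal.map e S = ⊤ := by
      by_contra hne
      obtain ⟨p, hp, hSp⟩ := Ideal.exists_le_maximal _ hne
      have := hp.isPrime
      let y : Spec Γ(curveOver c A, openV c ε A) := PrimeSpectrum.comap e ⟨p, this⟩
      have hy : y ∈ hV.fromSpec ⁻¹' P.zset := by
        rw [hS]
        exact fun s hs => hSp (Ideal.mem_map_of_mem e hs)
      have hyV : hV.fromSpec y ∈ openV c ε A := by
        show hV.fromSpec y ∈ (openV c ε A : Set _)
        rw [← hV.range_fromSpec]
        exact ⟨y, rfl⟩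
      have hyUV : y ∈ hV.fromSpec ⁻¹ᵁ (curveOver c A).basicOpen (chartVarA c ε A) := by
        show hV.fromSpec y ∈ (curveOver c A).basicOpen (chartVarA c ε A)
        rw [← openAbove_overlap]
        exact ⟨P.zset_subset hy, hyV⟩
      rw [hV.fromSpec_preimage_basicOpen] at hyUV
      refine hyUV ?_
      show e (chartVarA c ε A) ∈ p
      rw [hcoeff, expV, expSec_chartVarA, HahnSeries.coeff_single_of_ne zero_ne_one]
      exact zero_mem p
    exact (Ideal.mem_map_iff_of_surjective e he).1 (htop ▸ Submodule.mem_top)
  refine ⟨g, ⟨by rw [← hcoeff, hg]; exact isUnit_one, expV_mem_fil c ε A g⟩, fun x hx hxZ => ?_⟩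
  obtain ⟨y, rfl⟩ : x ∈ Set.range hV.fromSpec := by
    rw [hV.range_fromSpec]; exact (curveOver c A).basicOpen_le g hx
  have h1 : y ∈ hV.fromSpec ⁻¹ᵁ (curveOver c A).basicOpen g := hx
  rw [hV.fromSpec_preimage_basicOpen] at h1
  have h2 : y ∈ hV.fromSpec ⁻¹' P.zset := hxZ
  rw [hS] at h2
  exact h1 (h2 hgS)

end GlueData

end FermatAgent.Jacobian
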