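import Fermat.Agent.Jacobian.Bridge.Latt
import Fermat.Agent.Jacobian.Lat.Lattice
import Mathlib.AlgebraicGeometry.Morphisms.Finite

/-!
# The cover of a lattice containing the functions

For an invertible submodule `M` containing the functions and an ideal `I` with finite quotient
over `A` carrying `M` into the functions, the open sets where the elements of a finite frame
generate `M` cover the affine curve, and the complement of `V(I)` is open in the whole curve.
-/

set_option autoImplicit false

noncomputable section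

open CategoryTheory CategoryTheory.Limits AlgebraicGeometry TopologicalSpace AlgebraicCurve
  NeronModelInfra

namespace FermatAgent.Jacobian

open scoped TensorProduct

universe u

theorem ores_ringInverse {X : Scheme.{u}} {U V : X.Opens} (h : V ≤ U) {r : Γ(X, U)}
    (hr : IsUnit r) : ores h (Ring.inverse r) = Ring.inverse (ores h r) := by
  apply (hr.ores h).mul_left_cancel
  rw [Ring.mul_inverse_cancel _ (hr.ores h), ← ores_mul, Ring.mul_inverse_cancel _ hr, ores_one]

variable {k : Type u} [Field k] [IsAlgClosed k] {C : Scheme.{u}}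
  (c : C ⟶ Spec (CommRingCat.of k)) [SmoothOfRelativeDimension 1 c] [IsIntegral C] [IsProper c]
  (ε : SchemeHomOver (𝟙 (Spec (CommRingCat.of k))) c) (A : Type u) [CommRing A] [Algebra k A]

/-- The functions on an open of the affine curve. -/
def funU (V : (curveOver c A).Opens) (hV : V ≤ openU c ε A) :
    (curveDatum c ε).RA A →+* Γ(curveOver c A, V) :=
  ((curveOver c A).presheaf.map (homOfLE hV).op).hom.comp (ringU c ε A).toRingHom

theorem funU_apply {V : (curveOver c A).Opens} (hV : V ≤ openU c ε A)
    (p : (curveDatum c ε).RA A) : funU c ε A V hV p = ores hV (ringU c ε A p) := rfl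

@[simp] theorem ores_funU {V V' : (curveOver c A).Opens} (hV : V ≤ openU c ε A) (h : V' ≤ V)
    (p : (curveDatum c ε).RA A) : ores h (funU c ε A V hV p) = funU c ε A V' (h.trans hV) p :=
  ores_ores _ _ _

theorem isUnit_funU {V : (curveOver c A).Opens} (hV : V ≤ openU c ε A)
    {p : (curveDatum c ε).RA A} (h : V ≤ (curveOver c A).basicOpen (ringU c ε A p)) :
    IsUnit (funU c ε A V hV p) := by
  have h1 : IsUnit (ores ((curveOver c A).basicOpen_le (ringU c ε A p)) (ringU c ε A p)) :=
    (curveOver c A).toRingedSpace.isUnit_res_basicOpen _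
  have h2 := h1.ores h
  rwa [ores_ores] at h2

theorem isClosed_range_of_finite (I : Ideal ((curveDatum c ε).RA A))
    [Module.Finite A ((curveDatum c ε).RA A ⧸ I)] :
    IsClosed (Set.range (Spec.map (CommRingCat.ofHom
      ((Ideal.Quotient.mk I).comp (ringU c ε A).symm.toRingHom)) ≫
        (isAffineOpen_openU c ε A).fromSpec)) := by
  set q := Spec.map (CommRingCat.ofHom ((Ideal.Quotient.mk I).comp (ringU c ε A).symm.toRingHom)) ≫
    (isAffineOpen_openU c ε A).fromSpec
  have hfrom : (isAffineOpen_openU c ε A).fromSpec ≫ pullback.snd c (algSpecMap (k := k) A) =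
      Spec.map (CommRingCat.ofHom (baseSec c A (baseOpen c ε))) := by
    rw [← IsAffineOpen.SpecMap_appLE_fromSpec (pullback.snd c (algSpecMap (k := k) A))
      (isAffineOpen_top (Spec (CommRingCat.of A))) (isAffineOpen_openU c ε A) le_top,
      IsAffineOpen.fromSpec_top, Scheme.isoSpec_Spec_inv, ← Spec.map_comp]
    rfl
  have hring : ((Ideal.Quotient.mk I).comp (ringU c ε A).symm.toRingHom).comp
      (baseSec c A (baseOpen c ε)) = algebraMap A ((curveDatum c ε).RA A ⧸ I) := by
    refine RingHom.ext fun a => congrArg (Ideal.Quotient.mk I)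
      ((ringU c ε A).symm_apply_eq.2 ?_)
    show baseSec c A (baseOpen c ε) a =
      sectionsEquiv c A (isAffineOpen_baseOpen c ε) (a ⊗ₜ (1 : SecRing c (baseOpen c ε)))
    rw [sectionsEquiv_tmul]
    show _ = _ * curveSec c A (baseOpen c ε) (1 : Γ(C, baseOpen c ε))
    rw [map_one, mul_one]
  have : IsFinite (q ≫ pullback.snd c (algSpecMap (k := k) A)) := by
    rw [Category.assoc, hfrom, ← Spec.map_comp, ← CommRingCat.ofHom_comp, hring,
      IsFinite.SpecMap_iff]
    exact RingHom.finite_algebraMap.2 inferInstance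
  have : IsSeparated c := IsProper.toIsSeparated
  have : IsSeparated (pullback.snd c (algSpecMap (k := k) A)) := inferInstance
  have : UniversallyClosed q :=
    UniversallyClosed.of_comp_of_isSeparated _ (pullback.snd c (algSpecMap (k := k) A))
  exact q.isClosedMap.isClosed_range

/-- A finite frame of an invertible submodule containing the functions, with an ideal of finite
colength carrying it into the functions. -/
structure GlueData (M : (curveDatum c ε).Sub A) where
  J : Type u
  [fintype : Fintype J]
  m : J → LaurentSeries A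
  w : J → LaurentSeries A
  co : J → M →ₗ[(curveDatum c ε).RA A] (curveDatum c ε).RA A
  mem : ∀ j, m j ∈ M
  expA_co : ∀ j (x : M), (curveDatum c ε).expA A (co j x) = (x : LaurentSeries A) * w j
  sum_co : ∀ x : M, ∑ j, co j x • m j = (x : LaurentSeries A)
  one_mem : (1 : LaurentSeries A) ∈ M
  I : Ideal ((curveDatum c ε).RA A)
  finite : Module.Finite A ((curveDatum c ε).RA A ⧸ I)
  absorb : ∀ r ∈ I, ∀ x ∈ M,
    ∃ r', (curveDatum c ε).expA A r' = (curveDatum c ε).expA A r * x

attribute [instance] GlueData.fintype

variable {c ε A} {M : (curveDatum c ε).Sub A} (P : GlueData c ε A M)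

namespace GlueData

/-- An element of the frame. -/
def F (j : P.J) : M := ⟨P.m j, P.mem j⟩

/-- The unit, as an element of the submodule. -/
def e : M := ⟨1, P.one_mem⟩

/-- The function inverting which `F j` generates. -/
def h (j : P.J) : (curveDatum c ε).RA A := P.co j (P.F j)

theorem co_mul (j l : P.J) (x : M) :
    P.co j x * P.co l (P.F j) = P.h j * P.co l x :=
  (curveDatum c ε).expA_injective A (by
    rw [map_mul, map_mul, h, P.expA_co, P.expA_co, P.expA_co, P.expA_co]
    ring)

theorem expA_h (j : P.J) : (curveDatum c ε).expA A (P.h j) = P.m j * P.w j :=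
  P.expA_co j (P.F j)

theorem expA_h_mul (j : P.J) (x : M) :
    (curveDatum c ε).expA A (P.h j) * x = (curveDatum c ε).expA A (P.co j x) * P.m j := by
  rw [P.expA_h, P.expA_co]
  ring

theorem sum_h : ∑ j, P.h j = 1 :=
  (curveDatum c ε).expA_injective A (by
    rw [map_sum, map_one]
    refine Eq.trans ?_ (P.sum_co P.e)
    refine Finset.sum_congr rfl fun j _ => ?_
    rw [CurveDatum.smul_def, P.expA_co, P.expA_h]
    show _ = (1 : LaurentSeries A) * _ * _
    ring)

/-- The open where the frame element generates. -/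
def openJ (j : P.J) : (curveOver c A).Opens :=
  (curveOver c A).basicOpen (ringU c ε A (P.h j))

theorem openJ_le (j : P.J) : P.openJ j ≤ openU c ε A := (curveOver c A).basicOpen_le _

theorem openU_le_iSup : openU c ε A ≤ ⨆ j, P.openJ j := by
  have hspan : Ideal.span (Set.range fun j => ringU c ε A (P.h j)) = ⊤ := by
    rw [Ideal.eq_top_iff_one, ← map_one (ringU c ε A), ← P.sum_h, map_sum]
    exact Ideal.sum_mem _ fun j _ => Ideal.subset_span ⟨j, rfl⟩
  refine ((isAffineOpen_openU c ε A).self_le_iSup_basicOpen_iff.2 hspan).trans (iSup_le ?_)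
  rintro ⟨_, j, rfl⟩
  exact le_iSup P.openJ j

/-- The closed set outside which the unit generates. -/
def zset : Set (curveOver c A) :=
  Set.range (Spec.map (CommRingCat.ofHom
    ((Ideal.Quotient.mk P.I).comp (ringU c ε A).symm.toRingHom)) ≫
      (isAffineOpen_openU c ε A).fromSpec)

/-- The open outside the ideal. -/
def openW : (curveOver c A).Opens :=
  ⟨(P.zset)ᶜ, (haveI := P.finite; isClosed_range_of_finite c ε A P.I).isOpen_compl⟩

theorem zset_subset : P.zset ⊆ openU c ε A := by
  rintro _ ⟨y, rfl⟩
  rw [← (isAffineOpen_openU c ε A).range_fromSpec]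
  exact ⟨_, rfl⟩

theorem exists_mem_basicOpen {x : curveOver c A} (hxU : x ∈ openU c ε A) (hxW : x ∈ P.openW) :
    ∃ r ∈ P.I, x ∈ (curveOver c A).basicOpen (ringU c ε A r) := by
  have hU := isAffineOpen_openU c ε A
  obtain ⟨y, rfl⟩ : x ∈ Set.range hU.fromSpec := by rw [hU.range_fromSpec]; exact hxU
  by_contra hne
  push Not at hne
  apply hxW
  let φ : Γ(curveOver c A, openU c ε A) →+* (curveDatum c ε).RA A ⧸ P.I :=
    (Ideal.Quotient.mk P.I).comp (ringU c ε A).symm.toRingHom
  have hy : y ∈ Set.range (PrimeSpectrum.comap φ) := by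
    refine (range_comap_of_surjective _ φ
      (Ideal.Quotient.mk_surjective.comp (ringU c ε A).symm.surjective)).ge ?_
    intro s hs
    have hsI : (ringU c ε A).symm s ∈ P.I := Ideal.Quotient.eq_zero_iff_mem.1 hs
    by_contra hsy
    refine hne _ hsI ?_
    rw [RingEquiv.apply_symm_apply]
    show y ∈ hU.fromSpec ⁻¹ᵁ (curveOver c A).basicOpen s
    rw [hU.fromSpec_preimage_basicOpen]
    exact hsy
  obtain ⟨z, rfl⟩ := hy
  exact ⟨z, rfl⟩

theorem cover (x : curveOver c A) : x ∈ P.openW ∨ ∃ j, x ∈ P.openJ j := by
  by_cases hx : x ∈ P.zset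
  · exact Or.inr (Opens.mem_iSup.1 (P.openU_le_iSup (P.zset_subset hx)))
  · exact Or.inl hx

/-- The unit generates outside the ideal. -/
theorem le_basicOpen_co_e {j : P.J} {V : (curveOver c A).Opens} (hW : V ≤ P.openW)
    (hj : V ≤ P.openJ j) : V ≤ (curveOver c A).basicOpen (ringU c ε A (P.co j P.e)) := by
  intro x hx
  obtain ⟨r, hr, hxr⟩ := P.exists_mem_basicOpen (P.openJ_le j (hj hx)) (hW hx)
  obtain ⟨r', hr'⟩ := P.absorb r hr (P.m j) (P.mem j)
  have heq : P.co j P.e * r' = r * P.h j :=
    (curveDatum c ε).expA_injective A (by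
      rw [map_mul, map_mul, P.expA_co, hr', P.expA_h]
      show (1 : LaurentSeries A) * _ * _ = _
      ring)
  have hmem : x ∈ (curveOver c A).basicOpen (ringU c ε A (r * P.h j)) := by
    rw [map_mul, Scheme.basicOpen_mul]
    exact ⟨hxr, hj hx⟩
  rw [← heq, map_mul, Scheme.basicOpen_mul] at hmem
  exact hmem.1

end GlueData

end FermatAgent.Jacobian
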