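import Fermat.Agent.Jacobian.Cocycle.Cover
import Fermat.Agent.Jacobian.Bridge.Class
import Fermat.Agent.Jacobian.Lat.Ring

/-!
# A class with trivial lattice is trivial

A section with unit series expansion and one of the inverse bundle multiply to a unit of `U_A`, so
the section is a frame; near the section its coefficient is a power series with invertible
constant term, hence a unit. So a class is determined by its lattice.
-/

set_option autoImplicit false

noncomputable section

open CategoryTheory CategoryTheory.Limits AlgebraicGeometry TopologicalSpace AlgebraicCurve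
  NeronModelInfra

namespace FermatAgent.Jacobian

open scoped TensorProduct

universe u

namespace Cocycle

variable {X : Scheme.{u}} {d : Cocycle X} {W : X.Opens}

/-- The frame of the inverse. -/
def invFrame {q : Γ(d.toModules, W)} (hq : IsFrame q) : Γ(d⁻¹.toModules, W) :=
  mkSec (fun x => Ring.inverse (d.comp q x)) fun x y V hV hx hy => by
    have hu : ∀ z, IsUnit (d.comp q z) := (isFrame_iff q).mp hq
    have hinv : ∀ z (hz : V ≤ d.U z), ores (le_inf hV hz) (d.comp q z) *
        ores (le_inf hV hz) (Ring.inverse (d.comp q z)) = 1 := fun z hz =>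
      (ores_mul _ _ _).symm.trans
        ((congrArg (ores _) (Ring.mul_inverse_cancel _ (hu z))).trans (ores_one _))
    have hc := d.comp_comp q x y V hV hx hy
    rw [inv_val]
    apply ((hu y).ores (le_inf hV hy)).mul_left_cancel
    change ores (le_inf hV hy : V ≤ W ⊓ d.U y) (d.comp q y) *
      ores (le_inf hV hy : V ≤ W ⊓ d.U y) (Ring.inverse (d.comp q y)) = _
    rw [hinv y hy, hc]
    symm
    calc ores (le_inf hV hx) (d.comp q x) * d.val x y hx hy *
          (ores (le_inf hV hx) (Ring.inverse (d.comp q x)) * d.val y x hy hx)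
        = (ores (le_inf hV hx) (d.comp q x) * ores (le_inf hV hx) (Ring.inverse (d.comp q x))) *
          (d.val x y hx hy * d.val y x hy hx) := by ring
      _ = 1 := by rw [hinv x hx, d.val_mul_symm, one_mul]

theorem isFrame_invFrame {q : Γ(d.toModules, W)} (hq : IsFrame q) : IsFrame (invFrame hq) :=
  (isFrame_iff _).mpr fun x => IsUnit.ringInverse ((isFrame_iff q).mp hq x)

end Cocycle

variable {k : Type u} [Field k] [IsAlgClosed k] {C : Scheme.{u}}
  {c : C ⟶ Spec (CommRingCat.of k)} [SmoothOfRelativeDimension 1 c] [IsIntegral C] [IsProper c]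
  {ε : SchemeHomOver (𝟙 (Spec (CommRingCat.of k))) c} {A : Type u} [CommRing A] [Algebra k A]
  {d : Cocycle (curveOver c A)}

/-- The inverse of a trivialisation. -/
protected def NearTriv.inv (T : NearTriv c ε A d) : NearTriv c ε A d⁻¹ where
  g := T.g
  near := T.near
  q := Cocycle.invFrame T.isFrame
  isFrame := Cocycle.isFrame_invFrame T.isFrame

theorem NearTriv.latt_mul_inv (T : NearTriv c ε A d) :
    (curveDatum c ε).Equiv (T.latt * T.inv.latt) 1 := by
  rw [← NearTriv.latt_mul, ← NearTriv.latt_one]
  exact (T.mul T.inv).equiv_of_mk_eq _ (by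
    rw [PicC.mk_mul, PicC.mk_inv, mul_inv_cancel, PicC.mk_one])

/-- A series of the ring of the affine curve without polar part is constant. -/
theorem isUnit_of_expA_isUnitSeries {p : (curveDatum c ε).RA A}
    (h : IsUnitSeries A ((curveDatum c ε).expA A p)) : IsUnit p := by
  set a := ((curveDatum c ε).expA A p).coeff 0
  have hC : (curveDatum c ε).expA A (a ⊗ₜ 1) = HahnSeries.C a := by
    rw [CurveDatum.expA_tmul, map_one, map_one, mul_one]
  have hp : p = a ⊗ₜ 1 := by
    refine sub_eq_zero.1 ((curveDatum c ε).eq_zero_of_expA_mem_fil A fun i hi => ?_)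
    rw [map_sub, hC, HahnSeries.coeff_sub, sub_eq_zero]
    rcases eq_or_ne i 0 with rfl | hne
    · exact (HahnSeries.coeff_single_same _ _).symm
    · rw [h.2 i (by omega), HahnSeries.C_apply, HahnSeries.coeff_single_of_ne hne]
  rw [hp]
  exact h.1.map (Algebra.TensorProduct.includeLeftRingHom (R := k) (B := (curveDatum c ε).R))

/-- Every point is on the affine curve or in any neighbourhood of the section. -/
theorem openU_sup_basicOpen {g : Γ(curveOver c A, openV c ε A)} (hg : IsNear c ε A g) :
    openU c ε A ⊔ (curveOver c A).basicOpen g = ⊤ := by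
  refine top_le_iff.1 fun x _ => ?_
  by_cases hxU : x ∈ openU c ε A
  · exact Or.inl hxU
  refine Or.inr ?_
  have hxV : x ∈ openV c ε A :=
    ((openAbove_base_sup_chart c ε A).ge trivial).resolve_left hxU
  have hV := isAffineOpen_openV c ε A
  obtain ⟨y, rfl⟩ : x ∈ Set.range hV.fromSpec := by rw [hV.range_fromSpec]; exact hxV
  have hτ : chartVarA c ε A ∈ y.asIdeal := by
    by_contra hτ
    refine hxU ?_
    have h1 : y ∈ hV.fromSpec ⁻¹ᵁ (curveOver c A).basicOpen (chartVarA c ε A) := by
      rw [hV.fromSpec_preimage_basicOpen]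
      exact hτ
    exact ((openAbove_overlap c ε A).ge h1).1
  obtain ⟨z, hz⟩ := (expSec_chart_mem_fil_iff c ε A 1
    (g - baseSec c A (chartOpen c ε) ((expV c ε A g).coeff 0))).1 (by
      intro i hi
      rw [map_sub, expSec_baseSec, HahnSeries.coeff_sub]
      rcases eq_or_ne i 0 with rfl | hne
      · rw [HahnSeries.C_apply, HahnSeries.coeff_single_same]
        exact sub_self _
      · rw [HahnSeries.C_apply, HahnSeries.coeff_single_of_ne hne, sub_zero]
        exact hg.2 i (by omega))
  show y ∈ hV.fromSpec ⁻¹ᵁ (curveOver c A).basicOpen g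
  rw [hV.fromSpec_preimage_basicOpen]
  intro hgy
  refine y.isPrime.ne_top (Ideal.eq_top_of_isUnit_mem _ ?_
    (hg.1.map (baseSec c A (chartOpen c ε))))
  rw [pow_one, sub_eq_iff_eq_add] at hz
  have h2 : baseSec c A (chartOpen c ε) ((expV c ε A g).coeff 0) = g - chartVarA c ε A * z :=
    eq_sub_of_add_eq' hz.symm
  rw [h2]
  exact sub_mem hgy (Ideal.mul_mem_right _ _ hτ)

theorem expUV_injective : Function.Injective (expUV c ε A) :=
  expSec_injective c ε A _ _

/-- A section with unit series expansion near the section extends to a unit. -/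
theorem exists_extension {g : Γ(curveOver c A, openV c ε A)} (hg : IsNear c ε A g)
    (G : Γ(curveOver c A, openG g)) (hG : IsUnitSeries A (expG hg G)) :
    ∃ (y : Γ(curveOver c A, openV c ε A)) (_ : IsNear c ε A y)
      (G' : Γ(curveOver c A, (curveOver c A).basicOpen (g * y))),
      IsUnit G' ∧ ores (openG_le_basicOpen (g * y)) G' = ores (openG_mul_le_left g y) G := by
  set gUV := ores (inf_le_right : openUV c ε A ≤ openV c ε A) g with hgUV
  have := (isAffineOpen_openUV c ε A).isLocalization_basicOpen gUV
  obtain ⟨n, x, hx⟩ : ∃ (n : ℕ) (x : Γ(curveOver c A, openUV c ε A)),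
      G * ores (openG_le_openUV g) gUV ^ n = ores (openG_le_openUV g) x :=
    IsLocalization.Away.surj (S := Γ(curveOver c A, (curveOver c A).basicOpen gUV)) gUV G
  have hexp : expG hg G * expV c ε A g ^ n = expUV c ε A x := by
    rw [← expG_ores_UV hg x (openG_le_openUV g), ← hx, map_mul, map_pow, expG_ores_UV, hgUV,
      expUV_ores_right]
  have hus : IsUnitSeries A (expUV c ε A x) := by
    rw [← hexp]
    clear hexp hx
    induction n with
    | zero => rwa [pow_zero, mul_one]
    | succ n ih => rw [pow_succ, ← mul_assoc]; exact IsUnitSeries.mul ih hg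
  have := (isAffineOpen_openV c ε A).isLocalization_basicOpen (chartVarA c ε A)
  obtain ⟨m, y, hy⟩ := IsLocalization.Away.surj (chartVarA c ε A)
    (S := Γ(curveOver c A, (curveOver c A).basicOpen (chartVarA c ε A)))
    (ores (openAbove_overlap c ε A).ge x)
  have hy' : x * ores inf_le_right (chartVarA c ε A) ^ m =
      ores (inf_le_right : openUV c ε A ≤ openV c ε A) y := by
    have h1 := congrArg (ores (openAbove_overlap c ε A).le) hy
    change ores _ (ores (openAbove_overlap c ε A).ge x *
      ores ((curveOver c A).basicOpen_le _) (chartVarA c ε A) ^ m) =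
        ores _ (ores ((curveOver c A).basicOpen_le _) y) at h1
    simp only [ores, map_mul, map_pow] at h1 ⊢
    simp only [← ores.eq_def, ores_ores, ores_self] at h1
    exact h1
  have hexpy : expUV c ε A x * HahnSeries.single (m : ℤ) (1 : A) = expV c ε A y := by
    rw [← expUV_ores_right, ← hy', map_mul, map_pow, expUV_ores_right, expV, expSec_chartVarA,
      HahnSeries.single_pow, one_pow, nsmul_eq_mul, mul_one]
  obtain ⟨y', rfl⟩ := (expSec_chart_mem_fil_iff c ε A m y).1 (by
    intro i hi
    rw [← expV, ← hexpy, mul_comm, HahnSeries.coeff_single_mul, one_mul]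
    exact hus.2 _ (by omega))
  have hxy : ores inf_le_right y' = x := by
    apply expUV_injective (c := c) (ε := ε) (A := A)
    rw [expUV_ores_right]
    have h2 : expV c ε A (chartVarA c ε A ^ m * y') =
        HahnSeries.single (m : ℤ) (1 : A) * expV c ε A y' := by
      rw [map_mul, map_pow, expV, expSec_chartVarA, HahnSeries.single_pow, one_pow, nsmul_eq_mul,
        mul_one]
    rw [h2, mul_comm (expUV c ε A x)] at hexpy
    exact ((isMonicAt_single (m : ℤ)).isUnit.mul_left_cancel hexpy).symm
  have hnear : IsNear c ε A y' := by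
    rw [IsNear, ← expUV_ores_right, hxy]
    exact hus
  have hle : (curveOver c A).basicOpen (g * y') ≤ openV c ε A := (curveOver c A).basicOpen_le _
  have hu : IsUnit (ores hle (g * y')) :=
    (curveOver c A).toRingedSpace.isUnit_res_basicOpen (g * y')
  rw [ores_mul, IsUnit.mul_iff] at hu
  refine ⟨y', hnear, ores hle y' * Ring.inverse (ores hle g ^ n),
    hu.2.mul (IsUnit.ringInverse (hu.1.pow n)), ?_⟩
  have hgu := (hu.1.ores (openG_le_basicOpen (g * y'))).pow n
  apply hgu.mul_right_cancel
  rw [ores_mul, mul_assoc, ores_ores, ores_ores]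
  have hinv : ores (openG_le_basicOpen (g * y')) (Ring.inverse (ores hle g ^ n)) *
      ores ((openG_le_basicOpen (g * y')).trans hle) g ^ n = 1 := by
    have h3 := congrArg (ores (openG_le_basicOpen (g * y')))
      (Ring.inverse_mul_cancel _ (hu.1.pow n))
    simp only [ores, map_mul, map_pow, map_one] at h3 ⊢
    simp only [← ores.eq_def, ores_ores] at h3
    exact h3
  rw [hinv, mul_one]
  have h4 := congrArg (ores (openG_mul_le_left g y')) hx
  rw [← hxy, hgUV] at h4
  simp only [ores, map_mul, map_pow] at h4 ⊢
  simp only [← ores.eq_def, ores_ores] at h4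
  exact h4.symm

/-- A bundle whose lattice is that of the trivial one is trivial. -/
theorem NearTriv.mk_eq_one (T : NearTriv c ε A d) (h : (curveDatum c ε).Equiv T.latt 1) :
    PicC.mk d = 1 := by
  obtain ⟨u, hu, hu'⟩ := h.symm
  obtain ⟨w, hw, hw'⟩ := T.latt_mul_inv.symm
  rw [one_mul] at hu' hw'
  obtain ⟨s, hs⟩ : ∃ s, T.val s = u := by
    rw [← T.mem_latt, hu']
    exact Submodule.mem_span_singleton_self u
  obtain ⟨v, hv, huv⟩ := IsUnitSeries.exists_inv hu
  obtain ⟨s', hs'⟩ : ∃ s', T.inv.val s' = v * w := by
    rw [← T.inv.mem_latt]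
    have h1 : T.inv.latt = Submodule.span ((curveDatum c ε).RA A) {v * w} := by
      calc T.inv.latt = Submodule.span ((curveDatum c ε).RA A) {v} * (T.latt * T.inv.latt) := by
            rw [← mul_assoc, hu', Submodule.span_mul_span, Set.singleton_mul_singleton,
              mul_comm v u, huv, CurveDatum.span_singleton_one, one_mul]
        _ = _ := by rw [hw', Submodule.span_mul_span, Set.singleton_mul_singleton]
    rw [h1]
    exact Submodule.mem_span_singleton_self _
  -- the section is a frame on the affine curve
  obtain ⟨e⟩ : Nonempty ((d * d⁻¹).toModules ≅ (1 : Cocycle (curveOver c A)).toModules) :=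
    PicC.mk_eq_mk.mp (by rw [PicC.mk_mul, PicC.mk_inv, mul_inv_cancel, PicC.mk_one])
  obtain ⟨r, hr⟩ := Cocycle.bijective_secOne.surjective
    (e.hom.app (openU c ε A) (Cocycle.secMul s s'))
  obtain ⟨u₀, hu₀, hu₀'⟩ := ((T.mul T.inv).map e).exists_val_eq (NearTriv.one)
  have hrU : IsUnit r := by
    have h1 : expU c ε A r = T.val s * T.inv.val s' * u₀ := by
      rw [← NearTriv.val_one, hu₀', hr, NearTriv.val_map, NearTriv.val_secMul]
    rw [hs, hs', ← mul_assoc u v w, huv, one_mul, ← (ringU c ε A).apply_symm_apply r,
      expU_ringU] at h1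
    have h2 := (isUnit_of_expA_isUnitSeries (h1 ▸ IsUnitSeries.mul hw hu₀)).map (ringU c ε A)
    rwa [RingEquiv.apply_symm_apply] at h2
  have hσ : IsFrame (Cocycle.secMul s s') := by
    have h1 : IsFrame (Cocycle.secOne r : Γ((1 : Cocycle (curveOver c A)).toModules, _)) :=
      (Cocycle.isFrame_iff _).mpr fun x => by
        rw [Cocycle.comp_secOne]
        exact hrU.ores _
    have h2 := h1.map e.symm
    rw [hr] at h2
    convert h2 using 1
    show _ = e.inv.app _ (e.hom.app _ _)
    rw [← CategoryTheory.comp_apply, ← Scheme.Modules.Hom.comp_app, e.hom_inv_id]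
    rfl
  have hsF : IsFrame s := (Cocycle.isFrame_iff s).mpr fun x => by
    have h1 := (Cocycle.isFrame_iff _).mp hσ x
    rw [Cocycle.comp_secMul, IsUnit.mul_iff] at h1
    have h2 := h1.1.ores (inf_le_inf_left _ (le_inf le_rfl le_rfl) :
      openU c ε A ⊓ d.U x ≤ openU c ε A ⊓ (d.U x ⊓ d⁻¹.U x))
    rwa [ores_ores, ores_self] at h2
  -- near the section
  set G := T.isFrame.coef (openG_le_basicOpen T.g) (mres d.toModules (openG_le_openU T.g) s)
  have hGu : expG T.near G = u := hs
  obtain ⟨y, hy, G', hG', hGG'⟩ := exists_extension T.near G (hGu ▸ hu)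
  let D : (curveOver c A).Opens := (curveOver c A).basicOpen (T.g * y)
  have hDg : (curveOver c A).basicOpen (T.g * y) ≤ (curveOver c A).basicOpen T.g := by
    rw [Scheme.basicOpen_mul]
    exact inf_le_left
  set t := G' • mres d.toModules hDg T.q
  have ht : IsFrame t := (T.isFrame.res hDg).smul hG'
  have hagree : mres d.toModules (openG_le_openU (T.g * y)) s =
      mres d.toModules (openG_le_basicOpen (T.g * y)) t := by
    have h1 := congrArg (mres d.toModules (openG_mul_le_left T.g y))
      (T.isFrame.coef_smul (openG_le_basicOpen T.g) (mres d.toModules (openG_le_openU T.g) s))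
    simp only [mres_smul, mres_mres] at h1
    simp only [t, mres_smul, mres_mres, hGG']
    exact h1.symm
  let V : Bool → (curveOver c A).Opens := fun b => bif b then openU c ε A else D
  have hcov : (⊤ : (curveOver c A).Opens) ≤ iSup V := by
    rw [iSup_bool_eq]
    exact (openU_sup_basicOpen (T.near.mul hy)).ge
  let σ : ∀ b, Γ(d.toModules, V b) := fun b =>
    match b with
    | true => s
    | false => t
  obtain ⟨f, hf⟩ := exists_glue d.toModules V (fun _ => le_top) hcov σ fun i j => by
    cases i <;> cases j
    · rfl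
    · have h1 := congrArg (mres d.toModules (show D ⊓ openU c ε A ≤ openG (T.g * y) by
        rw [openG_eq]; exact le_inf inf_le_right inf_le_left)) hagree
      simp only [mres_mres] at h1
      exact h1.symm
    · have h1 := congrArg (mres d.toModules (show openU c ε A ⊓ D ≤ openG (T.g * y) by
        rw [openG_eq])) hagree
      simp only [mres_mres] at h1
      exact h1
    · rfl
  refine PicC.mk_eq_one_of_isFrame (s := f) (isFrame_of_local V (fun _ => le_top) hcov fun b => ?_)
  rw [hf b]
  cases b
  · exact ht
  · exact hsF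

/-- Classes with the same lattice are equal. -/
theorem HasLatt.eq {x y : PicC (curveOver c A)} {M : (curveDatum c ε).Sub A}
    (hx : HasLatt c ε x M) (hy : HasLatt c ε y M) : x = y := by
  obtain ⟨a, Na, rfl, hNa⟩ := hx
  obtain ⟨b, Nb, rfl, hNb⟩ := hy
  have h : (curveDatum c ε).Equiv (Na.mul Nb.inv).latt 1 := by
    rw [NearTriv.latt_mul]
    exact ((hNa.trans hNb.symm).mul (CurveDatum.equiv_refl _)).trans Nb.latt_mul_inv
  have h1 := (Na.mul Nb.inv).mk_eq_one h
  rwa [PicC.mk_mul, PicC.mk_inv, mul_inv_eq_one] at h1

variable (c ε) in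
/-- Rigidified classes are determined by their lattices. -/
theorem eq_of_hasLatt_class (A : Type u) [CommRing A] [Algebra k A]
    (x y : PicC (curveOver c A)) (M : (curveDatum c ε).Sub A) (hx : HasLatt c ε x M)
    (hy : HasLatt c ε y M) : x = y :=
  hx.eq hy

end FermatAgent.Jacobian
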