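import Fermat.Agent.Jacobian.Cocycle.Cover
import Fermat.Agent.Jacobian.Bridge.Functor

/-!
# Rigidified classes are trivial near the section

A class on `C_A` trivial along the section has a section over `V_A` which is a frame where some
function equal to one along the section is invertible, and its lattice contains a function: a power
of a function on the affine curve times that section extends to the affine curve. Conversely a
class with a lattice is trivial along the section.
-/

set_option autoImplicit false

noncomputable section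

open CategoryTheory CategoryTheory.Limits AlgebraicGeometry AlgebraicGeometry.RelPicard
  TopologicalSpace AlgebraicCurve NeronModelInfra

namespace FermatAgent.Jacobian

open Cocycle (opull)

universe u

section Frames

variable {X : Scheme.{u}} {d : Cocycle X}

/-- A section is a frame where its components are invertible. -/
theorem isFrame_mres_iSup_basicOpen {W : X.Opens} (m : Γ(d.toModules, W)) {Ω : X.Opens}
    (hΩ : Ω ≤ W) (h : Ω ≤ ⨆ x, X.basicOpen (d.comp m x)) :
    IsFrame (mres d.toModules hΩ m) := by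
  refine isFrame_of_local (fun x => Ω ⊓ X.basicOpen (d.comp m x)) (fun _ => inf_le_left) ?_
    fun x => ?_
  · rw [← inf_iSup_eq]
    exact le_inf le_rfl h
  rw [mres_mres, Cocycle.isFrame_iff]
  intro y
  have hx : (Ω ⊓ X.basicOpen (d.comp m x)) ⊓ d.U y ≤ d.U x :=
    (inf_le_left.trans inf_le_right).trans ((X.basicOpen_le _).trans inf_le_right)
  rw [Cocycle.comp_mres]
  refine (d.comp_comp m x y _ ((inf_le_left.trans inf_le_left).trans hΩ) hx inf_le_right).symm ▸ ?_
  refine IsUnit.mul ?_ (d.isUnit_val x y _ _)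
  rw [← ores_ores (inf_le_left.trans inf_le_right :
    (Ω ⊓ X.basicOpen (d.comp m x)) ⊓ d.U y ≤ X.basicOpen (d.comp m x)) (X.basicOpen_le _)]
  exact IsUnit.ores (RingedSpace.isUnit_res_basicOpen X.toRingedSpace (d.comp m x)) _

end Frames

variable {k : Type u} [Field k] [IsAlgClosed k] {C : Scheme.{u}}
  (c : C ⟶ Spec (CommRingCat.of k)) [SmoothOfRelativeDimension 1 c] [IsIntegral C] [IsProper c]
  (ε : SchemeHomOver (𝟙 (Spec (CommRingCat.of k))) c) (A : Type u) [CommRing A] [Algebra k A]

/-- The section over `A`. -/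
abbrev secA : Spec (CommRingCat.of A) ⟶ curveOver c A := rigSection c (algSpecMap (k := k) A) ε

theorem secA_le : (⊤ : (Spec (CommRingCat.of A)).Opens) ≤ secA c ε A ⁻¹ᵁ openV c ε A :=
  rigSection_le c ε (basePt_mem_chartOpen c ε)

theorem rigValue_eq_opull (g : Γ(curveOver c A, openV c ε A)) :
    rigValue c ε (A := A) (basePt_mem_chartOpen c ε) g =
      (Scheme.ΓSpecIso (CommRingCat.of A)).hom (opull (secA c ε A) (secA_le c ε A) g) := rfl

theorem preimage_basicOpen_secA (g : Γ(curveOver c A, openV c ε A)) :
    (Spec (CommRingCat.of A)).basicOpen (opull (secA c ε A) (secA_le c ε A) g) =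
      secA c ε A ⁻¹ᵁ (curveOver c A).basicOpen g := by
  rw [Cocycle.opull, basicOpen_ores, ← Scheme.preimage_basicOpen, top_inf_eq]

/-- A function invertible near the section is a unit along it. -/
theorem IsNear.le_preimage {g : Γ(curveOver c A, openV c ε A)} (hg : IsNear c ε A g) :
    (⊤ : (Spec (CommRingCat.of A)).Opens) ≤ secA c ε A ⁻¹ᵁ (curveOver c A).basicOpen g := by
  have h := rigValue_eq_coeff_expSec c ε (A := A) (basePt_mem_chartOpen c ε)
    (isAffineOpen_chartOpen c ε) g
  have hu : IsUnit (rigValue c ε (A := A) (basePt_mem_chartOpen c ε) g) := h ▸ hg.1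
  rw [← preimage_basicOpen_secA, rigValue_eq_opull] at *
  rw [Scheme.basicOpen_of_isUnit]
  exact (isUnit_map_iff (Scheme.ΓSpecIso (CommRingCat.of A)).commRingCatIsoToRingEquiv _).mp hu

variable {c ε A}

/-- A class with a trivialisation near the section is trivial along it. -/
theorem NearTriv.pull_secA_eq_one {d : Cocycle (curveOver c A)} (T : NearTriv c ε A d) :
    PicC.pull (secA c ε A) (PicC.mk d) = 1 := by
  rw [PicC.pull_mk]
  exact PicC.mk_eq_one_of_isFrame (Cocycle.isFrame_secPull (secA c ε A) T.near.le_preimage T.isFrame)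

/-- A class with a lattice is trivial along the section. -/
theorem rigidified_of_hasLatt {x : PicC (curveOver c A)} {M : (curveDatum c ε).Sub A}
    (h : HasLatt c ε x M) : Rigidified c ε x := by
  obtain ⟨d, N, rfl, -⟩ := h
  exact N.pull_secA_eq_one

theorem secPull_secA_surjective (d : Cocycle (curveOver c A)) :
    Function.Surjective (Cocycle.secPull (d := d) (secA c ε A) (secA_le c ε A)) := by
  intro e
  have he : e ∈ Submodule.span Γ(Spec (CommRingCat.of A), ⊤)
      (Set.range (Cocycle.secPull (d := d) (secA c ε A) (secA_le c ε A))) := by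
    rw [Cocycle.span_secPull_eq_top _ _ (isAffineOpen_top _) (isAffineOpen_openV c ε A)]
    exact Submodule.mem_top
  induction he using Submodule.span_induction with
  | mem _ h => exact h
  | zero =>
    refine ⟨0, ?_⟩
    have h := Cocycle.secPull_add (d := d) (secA c ε A) (secA_le c ε A) 0 0
    rwa [add_zero, left_eq_add] at h
  | add x y _ _ hx hy =>
    obtain ⟨s, rfl⟩ := hx
    obtain ⟨t, rfl⟩ := hy
    exact ⟨s + t, Cocycle.secPull_add _ _ s t⟩
  | smul r x _ hx =>
    obtain ⟨s, rfl⟩ := hx
    refine ⟨baseSec c A (chartOpen c ε) ((Scheme.ΓSpecIso (CommRingCat.of A)).hom r) • s, ?_⟩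
    rw [Cocycle.secPull_smul]
    refine congrArg (· • _) ?_
    apply (Scheme.ΓSpecIso (CommRingCat.of A)).commRingCatIsoToRingEquiv.injective
    exact (rigValue_eq_opull c ε A _).symm.trans (rigValue_baseSec c ε _ _)

/-- A section over `V_A` which is a frame where some function near the section is invertible. -/
theorem exists_frame_openV {d : Cocycle (curveOver c A)}
    (h : PicC.pull (secA c ε A) (PicC.mk d) = 1) :
    ∃ (g : Γ(curveOver c A, openV c ε A)) (m : Γ(d.toModules, openV c ε A)), IsNear c ε A g ∧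
      IsFrame (mres d.toModules ((curveOver c A).basicOpen_le g) m) := by
  rw [PicC.pull_mk, ← PicC.mk_one, PicC.mk_eq_mk] at h
  obtain ⟨e⟩ := h
  have hone : IsFrame (Cocycle.secOne (X := Spec (CommRingCat.of A)) (W := ⊤) 1) :=
    (Cocycle.isFrame_iff _).mpr fun x => by
      rw [Cocycle.comp_secOne, ores_one]
      exact isUnit_one
  obtain ⟨m, hm⟩ := secPull_secA_surjective d (e.inv.app ⊤ (Cocycle.secOne 1))
  have hmf : IsFrame (Cocycle.secPull (secA c ε A) (secA_le c ε A) m) := hm ▸ hone.map e.symm
  set Ω : (curveOver c A).Opens := ⨆ x, (curveOver c A).basicOpen (d.comp m x)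
  have hΩ : ∀ p : Spec (CommRingCat.of A), secA c ε A p ∈ Ω := fun p => by
    have hu := (Cocycle.isFrame_iff _).mp hmf p
    rw [Cocycle.comp_secPull] at hu
    have hp : p ∈ (⊤ : (Spec (CommRingCat.of A)).Opens) ⊓ (d.pull (secA c ε A)).U p :=
      ⟨trivial, (d.pull (secA c ε A)).mem p⟩
    rw [← Scheme.basicOpen_of_isUnit _ hu, Cocycle.opull, basicOpen_ores,
      ← Scheme.preimage_basicOpen] at hp
    exact Opens.mem_iSup.mpr ⟨_, hp.2⟩
  let S : Ideal Γ(curveOver c A, openV c ε A) :=
    { carrier := {g | (curveOver c A).basicOpen g ≤ Ω}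
      add_mem' := fun ha hb => ((curveOver c A).basicOpen_add_le _ _).trans (sup_le ha hb)
      zero_mem' := by
        show (curveOver c A).basicOpen 0 ≤ Ω
        rw [Scheme.basicOpen_zero]
        exact bot_le
      smul_mem' := fun a b hb => by
        show (curveOver c A).basicOpen (a * b) ≤ Ω
        rw [Scheme.basicOpen_mul]
        exact inf_le_right.trans hb }
  have hrv : Function.Surjective (rigValue c ε (A := A) (basePt_mem_chartOpen c ε)) :=
    fun a => ⟨_, rigValue_baseSec c ε _ a⟩
  have htop : S.map (rigValue c ε (A := A) (basePt_mem_chartOpen c ε)) = ⊤ := by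
    by_contra hne
    obtain ⟨P, hP, hle⟩ := Ideal.exists_le_maximal _ hne
    let p : Spec (CommRingCat.of A) := (⟨P, hP.isPrime⟩ : PrimeSpectrum A)
    obtain ⟨g, hg, hpg⟩ := (isAffineOpen_openV c ε A).exists_basicOpen_le
      ⟨secA c ε A p, hΩ p⟩ (secA_le c ε A (Opens.mem_top p))
    have hp : p ∈ (Spec (CommRingCat.of A)).basicOpen (opull (secA c ε A) (secA_le c ε A) g) := by
      rw [preimage_basicOpen_secA]
      exact hpg
    rw [basicOpen_eq_of_affine'] at hp
    exact hp (hle (Ideal.mem_map_of_mem _ hg))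
  obtain ⟨g, hgS, hg⟩ := (Ideal.mem_map_iff_of_surjective _ hrv).mp
    (htop ▸ Submodule.mem_top (x := (1 : A)))
  refine ⟨g, m, ⟨?_, expV_mem_fil c ε A g⟩, isFrame_mres_iSup_basicOpen m _ hgS⟩
  have h := rigValue_eq_coeff_expSec c ε (A := A) (basePt_mem_chartOpen c ε)
    (isAffineOpen_chartOpen c ε) g
  rw [hg] at h
  exact h ▸ isUnit_one

variable (c ε) in
/-- A function on the affine curve invertible only in the neighbourhood of the point. -/
theorem exists_basicOpen_le_chartOpen :
    ∃ r : Γ(C, baseOpen c ε), r ≠ 0 ∧ C.basicOpen r ≤ chartOpen c ε := by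
  have hg : ∀ W : C.Opens, Nonempty W → genericPoint C ∈ W := fun W hW =>
    ((genericPoint_spec C).mem_open_set_iff W.isOpen).mpr (by simpa using hW)
  obtain ⟨r, hr, hpr⟩ := (isAffineOpen_baseOpen c ε).exists_basicOpen_le
    ⟨genericPoint C, hg (chartOpen c ε) inferInstance⟩ (hg (baseOpen c ε) inferInstance)
  refine ⟨r, fun h => ?_, hr⟩
  rw [h, Scheme.basicOpen_zero] at hpr
  exact hpr

variable (c ε A) in
theorem expU_curveSec (r : Γ(C, baseOpen c ε)) :
    expU c ε A (curveSec c A (baseOpen c ε) r) = (curveDatum c ε).expR A r := by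
  have h : curveSec c A (baseOpen c ε) r = ringU c ε A ((1 : A) ⊗ₜ r) := by
    erw [ringU, sectionsEquiv_tmul]
    rw [map_one, one_mul]
  rw [h, expU_ringU, CurveDatum.expR_eq]

/-- The lattice of a trivialisation by a section over `V_A` contains a function. -/
theorem exists_expR_mem_latt {d : Cocycle (curveOver c A)} {g : Γ(curveOver c A, openV c ε A)}
    (hg : IsNear c ε A g) (m : Γ(d.toModules, openV c ε A))
    (hm : IsFrame (mres d.toModules ((curveOver c A).basicOpen_le g) m)) :
    ∃ r : (curveDatum c ε).R, r ≠ 0 ∧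
      (curveDatum c ε).expR A r ∈ (NearTriv.mk g hg _ hm).latt := by
  obtain ⟨r, hr, hrV⟩ := exists_basicOpen_le_chartOpen c ε
  set f : Γ(curveOver c A, openU c ε A) := curveSec c A (baseOpen c ε) r with hf
  have hfV : (curveOver c A).basicOpen f ≤ openV c ε A := by
    rw [hf, curveSec, ← Scheme.preimage_basicOpen]
    exact (pullback.fst c (algSpecMap (k := k) A)).preimage_mono hrV
  obtain ⟨n, s, hs⟩ := d.framing.exists_pow_smul_extend (isAffineOpen_openU c ε A) f
    (mres d.toModules hfV m)
  refine ⟨(show (curveDatum c ε).R from r) ^ n, pow_ne_zero n hr, s, ?_⟩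
  set f' : Γ(curveOver c A, openG g) := ores (openG_le_openU g) f with hf'
  set a : Γ(curveOver c A, openG g) :=
    hm.coef (openG_le_basicOpen g) (mres d.toModules (openG_le_openU g) s) with ha
  have hb : (curveOver c A).basicOpen f' ≤ (curveOver c A).basicOpen f := by
    rw [hf', basicOpen_ores]
    exact inf_le_right
  have h0 : ores ((curveOver c A).basicOpen_le f') (a - f' ^ n) = 0 := by
    have h1 := congrArg (mres d.toModules hb) hs
    simp only [mres_smul, mres_mres, ores_pow, ores_ores] at h1
    have h2 : hm.coef (((curveOver c A).basicOpen_le f').trans (openG_le_basicOpen g))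
        (mres d.toModules ((curveOver c A).basicOpen_le f') (mres d.toModules (openG_le_openU g) s))
        = ores (hb.trans ((curveOver c A).basicOpen_le f)) f ^ n := by
      refine hm.coef_eq ?_
      rw [mres_mres, mres_mres]
      exact h1.symm
    rw [IsFrame.coef_mres hm (openG_le_basicOpen g), ← ha] at h2
    rw [ores, map_sub, sub_eq_zero]
    show ores _ a = ores _ (f' ^ n)
    rw [h2, ores_pow]
    exact (congrArg (· ^ n) (ores_ores _ _ f)).symm
  obtain ⟨N, hN⟩ := exists_pow_mul_eq_zero
    (((isAffineOpen_openUV c ε A).basicOpen _).isCompact) f' (a - f' ^ n) h0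
  have hN' := congrArg (expG hg) hN
  rw [map_mul, map_pow, map_zero, map_sub, map_pow, hf', expG_ores_openU, hf, expU_curveSec]
    at hN'
  obtain ⟨i, hi⟩ := (curveDatum c ε).exists_isMonicAt_expR A (r := r) hr
  rw [(hi.isUnit.pow N).mul_right_eq_zero, sub_eq_zero] at hN'
  show expG hg a = _
  rw [hN']
  exact (map_pow ((lsMap (algebraMap k A)).comp (curveDatum c ε).exp) _ n).symm

/-- A class trivial along the section has a trivialisation near it whose lattice contains a
function times a unit series. -/
theorem exists_nearTriv {d : Cocycle (curveOver c A)}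
    (h : PicC.pull (secA c ε A) (PicC.mk d) = 1) :
    ∃ T : NearTriv c ε A d, ∃ (r : (curveDatum c ε).R) (u : LaurentSeries A),
      r ≠ 0 ∧ IsUnitSeries A u ∧ (curveDatum c ε).expR A r * u ∈ T.latt := by
  obtain ⟨g, m, hg, hm⟩ := exists_frame_openV h
  obtain ⟨r, hr, hmem⟩ := exists_expR_mem_latt hg m hm
  exact ⟨⟨g, hg, _, hm⟩, r, 1, hr, isUnitSeries_one, by rwa [mul_one]⟩

/-- The lattice of a trivialisation is invertible. -/
theorem NearTriv.isUnit_latt {d : Cocycle (curveOver c A)} (T : NearTriv c ε A d) :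
    IsUnit T.latt := by
  obtain ⟨T', -⟩ := exists_nearTriv (d := d⁻¹) (c := c) (ε := ε) (A := A)
    (by rw [PicC.mk_inv, map_inv, T.pull_secA_eq_one, inv_one])
  obtain ⟨u, -, hu⟩ := (T.mul T').equiv_of_mk_eq (NearTriv.one (c := c) (ε := ε) (A := A))
    (by rw [PicC.mk_mul, PicC.mk_inv, mul_inv_cancel, PicC.mk_one])
  rw [NearTriv.latt_one, NearTriv.latt_mul, mul_assoc] at hu
  exact IsUnit.of_mul_eq_one _ hu.symm

/-- **The lattice of a trivialisation is a lattice.** -/
theorem NearTriv.isLat_latt {d : Cocycle (curveOver c A)} (T : NearTriv c ε A d) :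
    (curveDatum c ε).IsLat T.latt := by
  obtain ⟨T', h⟩ := exists_nearTriv T.pull_secA_eq_one
  exact CurveDatum.IsLat.equiv ⟨T'.isUnit_latt, h⟩ (T'.equiv_latt T)

variable (c ε) in
/-- **Every rigidified class has a lattice.** -/
theorem lattExists : LattExists c ε := by
  intro A _ _ x hx
  obtain ⟨d, rfl⟩ := PicC.mk_surjective x
  obtain ⟨T, -⟩ := exists_nearTriv hx
  exact ⟨T.latt, T.isLat_latt, HasLatt.of_triv T⟩

end FermatAgent.Jacobian
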