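import Fermat.Agent.Jacobian.Cocycle.Functor
import Fermat.Agent.Jacobian.Setup.Natural
import Fermat.Agent.Jacobian.Lat.Ring

/-!
# Functions on the curve over an affine base are determined along the section

A function on `C_A` expands without polar part, so it is constant, equal to its value along the
section. In particular `RigidUnits` holds.
-/

set_option autoImplicit false
set_option backward.isDefEq.respectTransparency false

noncomputable section

open CategoryTheory CategoryTheory.Limits AlgebraicGeometry AlgebraicGeometry.RelPicard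
  TopologicalSpace NeronModelInfra Opposite

open scoped AlgebraicGeometry TensorProduct

namespace FermatAgent.Jacobian

open Cocycle (opull)

universe u

variable {k : Type u} [Field k] [IsAlgClosed k] {C : Scheme.{u}}
  (c : C ⟶ Spec (CommRingCat.of k)) [SmoothOfRelativeDimension 1 c] [IsIntegral C] [IsProper c]
  (ε : SchemeHomOver (𝟙 (Spec (CommRingCat.of k))) c) (A : Type u) [CommRing A] [Algebra k A]

/-- A function on `C_A` equal to one along the section is one. -/
theorem eq_one_of_opull_rigSection (r : Γ(curveOver c A, ⊤))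
    (hr : opull (rigSection c (algSpecMap (k := k) A) ε) (U := ⊤) (W := ⊤) le_top r = 1) :
    r = 1 := by
  set U := baseOpen c ε with hUdef
  set V := chartOpen c ε with hVdef
  have : Nonempty (U ⊓ V : C.Opens) := nonempty_overlap c ε
  let rU : Γ(curveOver c A, openAbove c A U) := ores le_top r
  let rV : Γ(curveOver c A, openAbove c A V) := ores le_top r
  have hUV : expSec c ε A U (isAffineOpen_baseOpen c ε) rU =
      expSec c ε A V (isAffineOpen_chartOpen c ε) rV := by
    rw [← expSec_map c ε A (isAffineOpen_baseOpen c ε) (isAffineOpen_overlap c ε)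
        (homOfLE (inf_le_left : U ⊓ V ≤ U)) rU,
      ← expSec_map c ε A (isAffineOpen_chartOpen c ε) (isAffineOpen_overlap c ε)
        (homOfLE (inf_le_right : U ⊓ V ≤ V)) rV]
    congr 1
    exact (ores_ores (X := curveOver c A) _ _ _).trans
      (ores_ores (X := curveOver c A) _ _ _).symm
  have h0 : (expSec c ε A V (isAffineOpen_chartOpen c ε) rV).coeff 0 = 1 := by
    rw [← rigValue_eq_coeff_expSec c ε (basePt_mem_chartOpen c ε) (isAffineOpen_chartOpen c ε) rV]
    change (Scheme.ΓSpecIso (CommRingCat.of A)).hom
      (opull (rigSection c (algSpecMap (k := k) A) ε)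
        (rigSection_le c ε (basePt_mem_chartOpen c ε)) (ores le_top r)) = 1
    rw [Cocycle.opull_ores, hr, map_one]
  have hfil : expSec c ε A U (isAffineOpen_baseOpen c ε) (rU - 1) ∈ fil A 1 := by
    intro i hi
    rw [map_sub, map_one, hUV, HahnSeries.coeff_sub]
    rcases lt_or_eq_of_le (show i ≤ 0 by omega) with hneg | rfl
    · rw [expSec_mem_fil c ε A _ (basePt_mem_chartOpen c ε) rV i hneg,
        HahnSeries.coeff_one, if_neg (by omega), sub_zero]
    · rw [h0, HahnSeries.coeff_one, if_pos rfl, sub_self]
  obtain ⟨x, hx⟩ := (sectionsEquiv c A (isAffineOpen_baseOpen c ε)).surjective (rU - 1)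
  have hU : rU = 1 := by
    rw [← sub_eq_zero, ← hx]
    have hx0 : x = 0 := by
      refine (curveDatum c ε).eq_zero_of_expA_mem_fil A ?_
      rw [← expSec_baseOpen, hx]
      exact hfil
    rw [hx0]
    exact map_zero _
  have hV : rV = 1 := by
    refine expSec_injective c ε A V (isAffineOpen_chartOpen c ε) ?_
    rw [← hUV, hU, map_one, map_one]
  refine ores_ext (fun b : Bool => bif b then openAbove c A U else openAbove c A V)
    (fun _ => le_top) ?_ fun b => ?_
  · rw [iSup_bool_eq]
    exact (openAbove_base_sup_chart c ε A).ge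
  · rw [ores_one]
    cases b
    · exact hV
    · exact hU

/-- Units along the section determine units. -/
theorem rigidUnits : RigidUnits c ε := by
  intro T _ t r _ hr
  let φ : CommRingCat.of k ⟶ Γ(T, ⊤) := Spec.preimage (T.isoSpec.inv ≫ t)
  let : Algebra k Γ(T, ⊤) := φ.hom.toAlgebra
  have he : T.isoSpec.inv ≫ t = algSpecMap (k := k) Γ(T, ⊤) := (Spec.map_preimage _).symm
  let ψ : SchemeHomOver (algSpecMap (k := k) Γ(T, ⊤)) t := ⟨T.isoSpec.inv, he⟩
  have : IsIso (baseChangeSnd c ψ) := by
    unfold baseChangeSnd
    infer_instance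
  have h1 : opull (baseChangeSnd c ψ) (U := ⊤) (W := ⊤) le_top r = 1 := by
    refine eq_one_of_opull_rigSection c ε Γ(T, ⊤) _ ?_
    rw [Cocycle.opull_opull, opull_congr (rigSection_baseChangeSnd c ε ψ)]
    have h2 := congrArg (opull ψ.1 (U := ⊤) (W := ⊤) le_top) hr
    rw [Cocycle.opull_opull, Cocycle.opull_one] at h2
    exact h2
  refine opull_inj (baseChangeSnd c ψ) (W := ⊤) (fun x _ => ?_) ?_
  · exact (baseChangeSnd c ψ).surjective x
  · rw [Cocycle.opull_one]
    exact h1

end FermatAgent.Jacobian
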