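import Fermat.Agent.Jacobian.Bridge.Assembly
import Fermat.Agent.Jacobian.Bridge.Diagonal
import Fermat.Agent.Jacobian.Bridge.Near
import Fermat.Agent.Jacobian.Bridge.Injective
import Fermat.Agent.Jacobian.Bridge.GlueClass
import Fermat.Agent.Jacobian.Bridge.RigidUnits

/-!
# The Jacobian of a curve over an algebraically closed field
-/

set_option autoImplicit false

noncomputable section

open CategoryTheory CategoryTheory.Limits AlgebraicGeometry AlgebraicGeometry.RelPicard
  TopologicalSpace AlgebraicCurve NeronModelInfra GoodReductionJacobian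

namespace FermatAgent.Jacobian

universe u

variable {k : Type u} [Field k] [IsAlgClosed k] {C : Scheme.{u}}
  (c : C ⟶ Spec (CommRingCat.of k)) [SmoothOfRelativeDimension 1 c] [IsIntegral C] [IsProper c]
  (ε : SchemeHomOver (𝟙 (Spec (CommRingCat.of k))) c)

/-- The dictionary between rigidified classes and lattices holds. -/
theorem bridgeFacts : BridgeFacts c ε where
  lattExists := lattExists c ε
  rigidUnits := rigidUnits c ε
  rigidified_of_hasLatt _ _ _ _ _ h := rigidified_of_hasLatt h
  eq_of_hasLatt A _ _ x y M _ _ hx hy := eq_of_hasLatt_class c ε A x y M hx hy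
  exists_inCell A _ _ M hM := exists_inCell_class c ε A M hM
  exists_point A _ _ φ := exists_point_class c ε A φ

theorem ptOf_pointOfHom_mem (φ : (curveDatum c ε).R →ₐ[k] k) :
    ptOf c (pointOfHom c ε φ) ∈ baseOpen c ε := by
  show (Spec.map (CommRingCat.ofHom φ.toRingHom) ≫ (isAffineOpen_baseOpen c ε).fromSpec)
    (IsLocalRing.closedPoint k) ∈ _
  rw [Scheme.Hom.comp_apply]
  exact (isAffineOpen_baseOpen c ε).range_fromSpec.le ⟨_, rfl⟩

theorem pointEval_pointOfHom (φ : (curveDatum c ε).R →ₐ[k] k) :
    pointEval c ε (pointOfHom c ε φ) (ptOf_pointOfHom_mem c ε φ) = φ := by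
  refine AlgHom.ext fun r => ?_
  rw [pointEval_apply, evalHom_eq_of_eq_fromSpec c _ (isAffineOpen_baseOpen c ε) _
    (CommRingCat.ofHom φ.toRingHom) rfl]
  rfl

/-- The Jacobian exists, with its properties. -/
theorem exists_jacobian :
    ∃ D : RelativePic0Designation k c,
      Nonempty (RepresentsRelSubPic c ε (algEquivZeroCut c ε) D) ∧
        Smooth D.toBase ∧ IsProper D.toBase ∧ GeometricallyConnected D.toBase := by
  refine (bridgeFacts c ε).exists_designation_of_family (deltaClass c ε)
    (rigidified_deltaClass c ε) (pull_deltaClass_self c ε) fun φ => ?_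
  obtain ⟨M, hM, hMI⟩ := hasLatt_deltaClass c ε (pointOfHom c ε φ) (ptOf_pointOfHom_mem c ε φ)
  rw [pointEval_pointOfHom] at hMI
  exact ⟨M, hM, hMI⟩

end FermatAgent.Jacobian
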