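import Fermat.Agent.Jacobian.Bridge.Atlas
import Fermat.Agent.Jacobian.Cell.Smooth
import Fermat.Agent.Jacobian.Rep.Designation
import Fermat.Agent.Jacobian.Rep.Properties

/-!
# The representing object with its properties
-/

set_option autoImplicit false

noncomputable section

open CategoryTheory CategoryTheory.Limits AlgebraicGeometry AlgebraicGeometry.RelPicard
  TopologicalSpace AlgebraicCurve NeronModelInfra GoodReductionJacobian

namespace FermatAgent.Jacobian

universe u

variable {k : Type u} [Field k] [IsAlgClosed k] {C : Scheme.{u}}
  {c : C ⟶ Spec (CommRingCat.of k)} [SmoothOfRelativeDimension 1 c] [IsIntegral C] [IsProper c]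
  {ε : SchemeHomOver (𝟙 (Spec (CommRingCat.of k))) c}

namespace BridgeFacts

variable (F : BridgeFacts c ε)
include F

/-- The bundle of an element of the functor. -/
def toBundle {T : Scheme.{u}} {t : T ⟶ Spec (CommRingCat.of k)} (x : (F.functor c ε).obj t) :
    RigidifiedLineBundle c ε t :=
  (RigClass.ofBundle_surjective x.1).choose

theorem ofBundle_toBundle {T : Scheme.{u}} {t : T ⟶ Spec (CommRingCat.of k)}
    (x : (F.functor c ε).obj t) : RigClass.ofBundle (F.toBundle x) = x.1 :=
  (RigClass.ofBundle_surjective x.1).choose_spec

theorem ofModule_toBundle {T : Scheme.{u}} {t : T ⟶ Spec (CommRingCat.of k)}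
    (x : (F.functor c ε).obj t) :
    PicC.ofModule (F.toBundle x).L (F.toBundle x).isInvertible = x.1.val :=
  congrArg RigClass.val (F.ofBundle_toBundle x)

/-- The functor as a model of the classes algebraically equivalent to zero on the fibres. -/
def picModel
    (hmem : ∀ {T : Scheme.{u}} (t : T ⟶ Spec (CommRingCat.of k)) (x : (F.functor c ε).obj t),
      FibrewiseAlgEquivZero (F.toBundle x))
    (hsurj : ∀ {T : Scheme.{u}} (t : T ⟶ Spec (CommRingCat.of k))
      (L : RigidifiedLineBundle c ε t), FibrewiseAlgEquivZero L →
        EulerZero c ε (RigClass.ofBundle L).val) :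
    PicModel (algEquivZeroCut c ε) where
  G := F.functor c ε
  toBundle _ x := F.toBundle x
  mem t x := hmem t x
  surj t L hL := ⟨⟨RigClass.ofBundle L, hsurj t L hL⟩,
    RigClass.ofBundle_eq_iff.mp (F.ofBundle_toBundle _)⟩
  inj _ x y h := Subtype.ext (by
    rw [← F.ofBundle_toBundle x, ← F.ofBundle_toBundle y]
    exact RigClass.ofBundle_eq_iff.mpr h)
  natural ψ x := RigClass.ofBundle_eq_iff.mp (by
    rw [← RigClass.map_ofBundle, F.ofBundle_toBundle, F.ofBundle_toBundle]
    rfl)
  one _ := RigClass.ofBundle_eq_iff.mp (by
    rw [F.ofBundle_toBundle, RigClass.ofBundle_unit]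
    rfl)

/-- The functor is represented by a smooth proper geometrically connected scheme, covered on
points with values in algebraically closed fields by a geometrically integral one. -/
theorem exists_represents (gen : GeneratingFamily (F.functor c ε) c) :
    ∃ R : Represents (F.functor c ε), Smooth R.toBase ∧ IsProper R.toBase ∧
      GeometricallyConnected R.toBase ∧
        ∃ (X : Scheme.{u}) (x : X ⟶ Spec (CommRingCat.of k)) (a : SchemeHomOver x R.toBase),
          IsProper x ∧ GeometricallyIntegral x ∧
            ∀ (K : Type u) [Field K] [IsAlgClosed K] (s : Spec (CommRingCat.of K) ⟶ R.J),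
              ∃ s', s' ≫ a.1 = s := by
  have : Smooth c := SmoothOfRelativeDimension.smooth 1 c
  have := (curveDatum c ε).smooth_cellRing
  have : Algebra.FiniteType k F.atlas.Ring := (curveDatum c ε).finiteType_cellRing
  have : Algebra.FormallySmooth k F.atlas.Ring :=
    show Algebra.FormallySmooth k (curveDatum c ε).CellRing from inferInstance
  exact CellAtlas.exists_represents_properties F.atlas gen

end BridgeFacts

end FermatAgent.Jacobian
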