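import Fermat.Agent.Jacobian.Bridge.Class

/-!
# Trivialisations near the section exist over the base field

Also: expansions of sections determine them on an integral curve, and a section generating on the
affine curve gives the lattice.
-/

set_option autoImplicit false

noncomputable section

open CategoryTheory CategoryTheory.Limits AlgebraicGeometry AlgebraicGeometry.RelPicard
  TopologicalSpace AlgebraicCurve NeronModelInfra

namespace FermatAgent.Jacobian

open scoped TensorProduct

open Cocycle (opull)

universe u

variable {k : Type u} [Field k] [IsAlgClosed k] {C : Scheme.{u}}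
  {c : C ⟶ Spec (CommRingCat.of k)} [SmoothOfRelativeDimension 1 c] [IsIntegral C] [IsProper c]
  {ε : SchemeHomOver (𝟙 (Spec (CommRingCat.of k))) c} {A : Type u} [CommRing A] [Algebra k A]

/-- Sections agreeing in the component of a frame are equal. -/
theorem Cocycle.sec_ext_of_le {X : Scheme.{u}} {d : Cocycle X} {W : X.Opens} (p : X)
    (hp : W ≤ d.U p) {m m' : Γ(d.toModules, W)}
    (h : ores (le_inf le_rfl hp : W ≤ W ⊓ d.U p) (d.comp m p) =
      ores (le_inf le_rfl hp : W ≤ W ⊓ d.U p) (d.comp m' p)) : m = m' := by
  refine Cocycle.sec_ext fun z => ?_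
  have e : ∀ n : Γ(d.toModules, W), d.comp n z =
      ores (inf_le_left : W ⊓ d.U z ≤ W) (ores (le_inf le_rfl hp : W ≤ W ⊓ d.U p) (d.comp n p)) *
        d.val p z (inf_le_left.trans hp) inf_le_right := by
    intro n
    rw [ores_ores, ← d.comp_comp n p z (W ⊓ d.U z) inf_le_left (inf_le_left.trans hp) inf_le_right,
      ores_self]
  rw [e m, e m', h]

/-- On an integral scheme restriction to a nonempty open is injective. -/
theorem Cocycle.mres_injective {X : Scheme.{u}} [IsIntegral X] {d : Cocycle X} {V W : X.Opens}
    (h : V ≤ W) (hV : genericPoint X ∈ V) : Function.Injective (mres d.toModules h) := by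
  intro m m' hm
  refine Cocycle.sec_ext fun z => ?_
  have hz : genericPoint X ∈ V ⊓ d.U z := ⟨hV,
    ((genericPoint_spec X).mem_open_set_iff (d.U z).isOpen).mpr ⟨z, Set.mem_univ z, d.mem z⟩⟩
  have hW : genericPoint X ∈ W ⊓ d.U z := ⟨h hV, hz.2⟩
  have : Nonempty (W ⊓ d.U z : X.Opens) := ⟨⟨_, hW⟩⟩
  have h1 := congrArg (fun n : Γ(d.toModules, V) =>
    X.presheaf.germ (V ⊓ d.U z) _ hz (d.comp n z)) hm
  simp only [Cocycle.comp_mres] at h1
  refine germ_injective_of_isIntegral X _ hW ?_
  exact ((X.presheaf.germ_res_apply _ _ _ _).symm.trans h1).trans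
    (X.presheaf.germ_res_apply _ _ _ _)

theorem expG_injective {g : Γ(curveOver c A, openV c ε A)} (hg : IsNear c ε A g) :
    Function.Injective (expG hg) := by
  have := (isAffineOpen_openUV c ε A).isLocalization_basicOpen
    (ores (inf_le_right : openUV c ε A ≤ openV c ε A) g)
  refine (IsLocalization.lift_injective_iff _).mpr fun y z => ⟨fun h => ?_, fun h =>
    congrArg _ (expSec_injective c ε A _ (isAffineOpen_overlap c ε) h)⟩
  have h' := congrArg (expG hg) h
  exact (expG_ores_UV hg y (openG_le_openUV g)).symm.trans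
    (h'.trans (expG_ores_UV hg z (openG_le_openUV g)))

namespace NearTriv

variable {d : Cocycle (curveOver c A)} (T : NearTriv c ε A d)

/-- The expansion from a coefficient. -/
theorem val_eq_of_smul {s : Γ(d.toModules, openU c ε A)} {r : Γ(curveOver c A, openG T.g)}
    (h : r • mres d.toModules (openG_le_basicOpen T.g) T.q =
      mres d.toModules (openG_le_openU T.g) s) : T.val s = expG T.near r :=
  congrArg (expG T.near) (T.isFrame.coef_eq h)

/-- A generating section on the affine curve generates the lattice. -/
theorem latt_eq_span {s : Γ(d.toModules, openU c ε A)} (hs : IsFrame s) :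
    T.latt = Submodule.span ((curveDatum c ε).RA A) {T.val s} := by
  refine le_antisymm ?_ (Submodule.span_le.mpr (Set.singleton_subset_iff.mpr (T.val_mem_latt s)))
  rintro _ ⟨m, rfl⟩
  obtain ⟨r, hr⟩ := (hs _ le_rfl).surjective m
  simp only [mres_self] at hr
  rw [← hr, val_smul, ← (ringU c ε A).apply_symm_apply r, expU_ringU]
  exact Submodule.smul_mem _ _ (Submodule.mem_span_singleton_self _)

/-- On an integral curve the expansion determines the section. -/
theorem val_injective [IsIntegral (curveOver c A)] (hη : genericPoint (curveOver c A) ∈ openG T.g) :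
    Function.Injective T.val := by
  intro s s' h
  refine Cocycle.mres_injective (openG_le_openU T.g) hη ?_
  rw [← T.isFrame.coef_smul (openG_le_basicOpen T.g) (mres d.toModules (openG_le_openU T.g) s),
    ← T.isFrame.coef_smul (openG_le_basicOpen T.g) (mres d.toModules (openG_le_openU T.g) s'),
    expG_injective T.near h]

end NearTriv

variable (c ε)

/-- The point of `C_k` on the section. -/
def rigPt : curveOver c k := rigSection c (algSpecMap (k := k) k) ε (IsLocalRing.closedPoint k)

theorem rigPt_mem_openV : rigPt c ε ∈ openV c ε k :=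
  rigSection_le c ε (basePt_mem_chartOpen c ε) (Set.mem_univ _)

variable {c ε}

/-- A function near the section inside a given neighbourhood. -/
theorem exists_isNear_le {W : (curveOver c k).Opens} (hW : rigPt c ε ∈ W) :
    ∃ g : Γ(curveOver c k, openV c ε k), IsNear c ε k g ∧
      rigPt c ε ∈ (curveOver c k).basicOpen g ∧ (curveOver c k).basicOpen g ≤ W := by
  obtain ⟨g, hgW, hg⟩ := (isAffineOpen_openV c ε k).exists_basicOpen_le
    ⟨rigPt c ε, hW⟩ (rigPt_mem_openV c ε)
  refine ⟨g, ⟨?_, expV_mem_fil c ε k g⟩, hg, hgW⟩
  rw [isUnit_iff_ne_zero, expV,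
    ← rigValue_eq_coeff_expSec c ε (basePt_mem_chartOpen c ε) (isAffineOpen_chartOpen c ε) g]
  intro h0
  have h1 : ores (rigSection_le c ε (basePt_mem_chartOpen c ε))
      ((rigSection c (algSpecMap (k := k) k) ε).app _ g) = 0 :=
    (ConcreteCategory.bijective_of_isIso (Scheme.ΓSpecIso (CommRingCat.of k)).hom).1
      (h0.trans (map_zero _).symm)
  have h2 := congrArg (Spec (CommRingCat.of k)).basicOpen h1
  rw [basicOpen_ores, ← Scheme.preimage_basicOpen, Scheme.basicOpen_zero] at h2
  exact h2.le (show IsLocalRing.closedPoint k ∈ (⊤ : (Spec (CommRingCat.of k)).Opens) ⊓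
    rigSection c (algSpecMap (k := k) k) ε ⁻¹ᵁ (curveOver c k).basicOpen g from ⟨trivial, hg⟩)

/-- Every cocycle over the base field is trivial near the section. -/
theorem nonempty_nearTriv (d : Cocycle (curveOver c k)) : Nonempty (NearTriv c ε k d) := by
  obtain ⟨g, hg, -, hle⟩ := exists_isNear_le (c := c) (ε := ε) (d.mem (rigPt c ε))
  exact ⟨⟨g, hg, mres d.toModules hle (d.frame _), (d.isFrame_frame _).res hle⟩⟩

/-- Every class over the base field has a lattice. -/
theorem HasLatt.exists_of_field (x : PicC (curveOver c k)) : ∃ M, HasLatt c ε x M := by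
  obtain ⟨d, rfl⟩ := PicC.mk_surjective x
  obtain ⟨N⟩ := nonempty_nearTriv (c := c) (ε := ε) d
  exact ⟨_, HasLatt.of_triv N⟩

end FermatAgent.Jacobian
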