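import Fermat.Agent.Jacobian.Bridge.NearPoint
import Fermat.Agent.Jacobian.Setup.PointEval
import Fermat.Agent.Jacobian.Lat.Points

/-!
# The lattice of a point

`O(x)` on `C_k` has lattice `L` with `L * m_x = 1` for a point `x` of the affine curve, and `t`
for the base point.
-/

set_option autoImplicit false

noncomputable section

open CategoryTheory CategoryTheory.Limits AlgebraicGeometry AlgebraicGeometry.RelPicard
  TopologicalSpace AlgebraicCurve NeronModelInfra

namespace FermatAgent.Jacobian

open scoped TensorProduct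

open Cocycle (opull)

universe u

variable {k : Type u} [Field k] [IsAlgClosed k] {C : Scheme.{u}}
  (c : C ⟶ Spec (CommRingCat.of k)) [SmoothOfRelativeDimension 1 c] [IsIntegral C] [IsProper c]
  (ε : SchemeHomOver (𝟙 (Spec (CommRingCat.of k))) c)
  (x : SchemeHomOver (algSpecMap (k := k) k) c)

/-- The cocycle of `O(x)`. -/
abbrev pointGl : Gl (curveOver c k) := (diagGl c).pull (sqMap c x)

/-- The cocycle of `O(x)` indexed by points. -/
abbrev pointCocycle : Cocycle (curveOver c k) := (pointGl c x).toCocycle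

theorem mk_pointCocycle : PicC.mk (pointCocycle c x) = pointClass c x :=
  (diagGl c).cls_pull (sqMap c x)

/-- The chosen equation at a point. -/
abbrev eqAt (z : curveOver c k) : Γ(curveOver c k, (pointCocycle c x).U z) :=
  pullEq c x ((pointGl c x).idx z)

theorem pullEq_mul_trans (i j : curveSq c) {V : (curveOver c k).Opens}
    (hi : V ≤ sqMap c x ⁻¹ᵁ diagOpen c i) (hj : V ≤ sqMap c x ⁻¹ᵁ diagOpen c j) :
    ores hi (pullEq c x i) * ores (le_inf hi hj : V ≤ (pointGl c x).U i ⊓ (pointGl c x).U j)
      ((pointGl c x).g i j) = ores hj (pullEq c x j) := by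
  have h := congrArg (opull (sqMap c x) (le_inf hi hj : V ≤ sqMap c x ⁻¹ᵁ
    (diagOpen c i ⊓ diagOpen c j))) (diagEq_mul_trans c i j inf_le_left inf_le_right)
  rw [Cocycle.opull_mul, Cocycle.opull_ores, Cocycle.opull_ores, Cocycle.opull_ores] at h
  refine Eq.trans ?_ (h.trans (Cocycle.ores_opull _ _ _ _).symm)
  exact congrArg₂ (· * ·) (Cocycle.ores_opull _ _ _ _)
    (Cocycle.ores_opull (sqMap c x) (U := diagOpen c i ⊓ diagOpen c j)
      (W := sqMap c x ⁻¹ᵁ diagOpen c i ⊓ sqMap c x ⁻¹ᵁ diagOpen c j) le_rfl (le_inf hi hj)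
      (diagTrans c i j))

/-- The section `1` of `O(x)`. -/
def canSec (W : (curveOver c k).Opens) : Γ((pointCocycle c x).toModules, W) :=
  Cocycle.mkSec (fun z => ores inf_le_right (eqAt c x z)) fun y z V hV hy hz => by
    rw [ores_ores, ores_ores]
    exact (pullEq_mul_trans c x _ _ hy hz).symm

theorem comp_canSec (W : (curveOver c k).Opens) (z : curveOver c k) :
    (pointCocycle c x).comp (canSec c x W) z = ores inf_le_right (eqAt c x z) := rfl

theorem mres_canSec {W W' : (curveOver c k).Opens} (h : W' ≤ W) :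
    mres (pointCocycle c x).toModules h (canSec c x W) = canSec c x W' :=
  Cocycle.sec_ext fun z => by
    rw [Cocycle.comp_mres, comp_canSec, comp_canSec, ores_ores]

/-- The frame on a member of the cover. -/
def pointFrame (i : curveSq c) :
    Γ((pointCocycle c x).toModules, sqMap c x ⁻¹ᵁ diagOpen c i) :=
  Cocycle.coverFrame (hσ := (pointGl c x).mem_idx) (hu := (pointGl c x).isUnit)
    (hg := (pointGl c x).cocycle) i

theorem isFrame_pointFrame (i : curveSq c) : IsFrame (pointFrame c x i) :=
  Cocycle.isFrame_coverFrame (hσ := (pointGl c x).mem_idx) (hu := (pointGl c x).isUnit)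
    (hg := (pointGl c x).cocycle) i

theorem canSec_eq_smul (i : curveSq c) {W : (curveOver c k).Opens}
    (h : W ≤ sqMap c x ⁻¹ᵁ diagOpen c i) :
    canSec c x W = ores h (pullEq c x i) •
      mres (pointCocycle c x).toModules h (pointFrame c x i) := by
  refine Cocycle.sec_ext fun z => ?_
  rw [Cocycle.comp_smul, Cocycle.comp_mres, comp_canSec, ores_ores]
  exact (pullEq_mul_trans c x i _ (inf_le_left.trans h)
    (inf_le_right : W ⊓ (pointCocycle c x).U z ≤ _)).symm

/-- The section `1` generates away from the point. -/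
theorem isFrame_canSec {W : (curveOver c k).Opens}
    (hW : ∀ p ∈ W, pullback.fst c (algSpecMap (k := k) k) p ≠ ptOf c x) :
    IsFrame (canSec c x W) :=
  (Cocycle.isFrame_iff _).mpr fun z => by
    rw [comp_canSec]
    refine RingedSpace.isUnit_of_isUnit_germ (curveOver c k).toRingedSpace _ _ fun p hp => ?_
    erw [TopCat.Presheaf.germ_res_apply]
    exact isUnit_germ_pullEq c x _ hp.2 (hW p hp.1)

theorem ptOf_ne_genericPoint : ptOf c x ≠ genericPoint C :=
  basePt_ne c ⟨x.1, x.2.trans (algSpecMap_self (k := k))⟩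

theorem canSec_cancel {W : (curveOver c k).Opens} {b b' : Γ(curveOver c k, W)}
    (h : b • canSec c x W = b' • canSec c x W) : b = b' := by
  refine ores_ext (fun z => W ⊓ (pointCocycle c x).U z) (fun _ => inf_le_left)
    (fun p hp => Opens.mem_iSup.mpr ⟨p, hp, (pointCocycle c x).mem p⟩) fun z => ?_
  have h' := congrArg (fun m => (pointCocycle c x).comp m z) h
  simp only [Cocycle.comp_smul, comp_canSec] at h'
  rcases isEmpty_or_nonempty (W ⊓ (pointCocycle c x).U z : (curveOver c k).Opens) with hV | hV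
  · have : Subsingleton Γ(curveOver c k, W ⊓ (pointCocycle c x).U z) := by
      rw [show W ⊓ (pointCocycle c x).U z = ⊥ from
        Opens.ext (Set.eq_empty_of_forall_notMem fun y hy => hV.false ⟨y, hy⟩)]
      exact CommRingCat.subsingleton_of_isTerminal (curveOver c k).sheaf.isTerminalOfEmpty
    exact Subsingleton.elim _ _
  · obtain ⟨⟨p, hp⟩⟩ := hV
    have : Nonempty (W ⊓ (pointCocycle c x).U z : (curveOver c k).Opens) := ⟨⟨p, hp⟩⟩
    refine mul_right_cancel₀ (fun h0 => germ_pullEq_ne_zero c x _ hp.2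
      (ptOf_ne_genericPoint c x) ?_) h'
    have h1 := congrArg ((curveOver c k).presheaf.germ _ p hp) h0
    rw [map_zero] at h1
    exact ((curveOver c k).presheaf.germ_res_apply _ _ _ _).symm.trans h1

/-- A function vanishing at `x` carries sections of `O(x)` to multiples of `1`. -/
theorem exists_smul_canSec {W : C.Opens} (hx : ptOf c x ∈ W) (r : Γ(C, W))
    (hr : evalHom c x hx r = 0) (m : Γ((pointCocycle c x).toModules, openAbove c k W)) :
    ∃ b : Γ(curveOver c k, openAbove c k W),
      curveSec c k W r • m = b • canSec c x (openAbove c k W) := by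
  rw [evalHom_eq_zero_iff] at hr
  have key : ∀ p : openAbove c k W, ∃ (V : (curveOver c k).Opens) (hV : V ≤ openAbove c k W)
      (b : Γ(curveOver c k, V)), (p : curveOver c k) ∈ V ∧
      mres (pointCocycle c x).toModules hV (curveSec c k W r • m) = b • canSec c x V := by
    rintro ⟨p, hp⟩
    obtain ⟨t, ht⟩ := pullEq_dvd c x ((pointGl c x).idx p) r (top_le_preimage c x hx) hr
      ((pointCocycle c x).mem p) hp
    obtain ⟨V₀, hpV₀, t, rfl⟩ := (curveOver c k).presheaf.exists_germ_eq t
    let V := openAbove c k W ⊓ (pointCocycle c x).U p ⊓ V₀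
    have hVW : V ≤ openAbove c k W := inf_le_left.trans inf_le_left
    have hVU : V ≤ (pointCocycle c x).U p := inf_le_left.trans inf_le_right
    have hpV : p ∈ V := ⟨⟨hp, (pointCocycle c x).mem p⟩, hpV₀⟩
    have : Nonempty V := ⟨⟨p, hpV⟩⟩
    have e : ores hVW (curveSec c k W r) = ores hVU (eqAt c x p) * ores inf_le_right t := by
      refine germ_injective_of_isIntegral (curveOver c k) p hpV ?_
      rw [map_mul]
      refine ((curveOver c k).presheaf.germ_res_apply _ _ _ _).trans (ht.trans ?_)
      exact congrArg₂ (· * ·) ((curveOver c k).presheaf.germ_res_apply _ _ _ _).symm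
        ((curveOver c k).presheaf.germ_res_apply _ _ _ _).symm
    refine ⟨V, hVW, ores inf_le_right t *
      ores (le_inf hVW hVU : V ≤ openAbove c k W ⊓ (pointCocycle c x).U p)
        ((pointCocycle c x).comp m p), hpV, ?_⟩
    refine Cocycle.sec_ext_of_le p hVU ?_
    rw [Cocycle.comp_mres, Cocycle.comp_smul, Cocycle.comp_smul, comp_canSec]
    simp only [ores_mul, ores_ores]
    erw [e]
    ring
  choose V hV b hpV hb using key
  obtain ⟨t, ht⟩ := exists_oglue V hV (fun p hp => Opens.mem_iSup.mpr ⟨⟨p, hp⟩, hpV ⟨p, hp⟩⟩) b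
    fun i j => by
      refine canSec_cancel c x ?_
      have hi := congrArg (mres (pointCocycle c x).toModules (inf_le_left : V i ⊓ V j ≤ V i)) (hb i)
      have hj := congrArg (mres (pointCocycle c x).toModules (inf_le_right : V i ⊓ V j ≤ V j)) (hb j)
      simp only [mres_smul, mres_mres, mres_canSec, ores_ores] at hi hj
      exact hi.symm.trans hj
  refine ⟨t, mres_ext _ V hV (fun p hp => Opens.mem_iSup.mpr ⟨⟨p, hp⟩, hpV ⟨p, hp⟩⟩) fun i => ?_⟩
  rw [hb i, mres_smul, ht i, mres_canSec]

theorem ringU_one_tmul (r : (curveDatum c ε).R) :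
    ringU c ε k (1 ⊗ₜ r) = curveSec c k (baseOpen c ε) r := by
  rw [ringU]
  refine (sectionsEquiv_tmul c k _ _ _).trans ?_
  rw [map_one, one_mul]

/-- The lattice of a point of the affine curve is inverse to its ideal. -/
theorem exists_hasLatt_pointClass (hx : ptOf c x ∈ baseOpen c ε) :
    ∃ L : (curveDatum c ε).Sub k, HasLatt c ε (pointClass c x) L ∧
      L * (curveDatum c ε).pointIdeal k (pointEval c ε x hx) = 1 := by
  set D := curveDatum c ε
  set φ := pointEval c ε x hx
  set I := D.pointIdeal k φ with hI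
  have hne : ptOf c x ≠ basePt c ε := hx
  let W₁ : (curveOver c k).Opens := sqMap c x ⁻¹ᵁ ⟨(Set.range (curveDiag c))ᶜ,
    (curveDiag c).isClosedEmbedding.isClosed_range.isOpen_compl⟩
  have hfst : pullback.fst c (algSpecMap (k := k) k) (rigPt c ε) = basePt c ε := by
    rw [rigPt, ← secOf_algPoint, fst_secOf]
    rfl
  have hW₁ : rigPt c ε ∈ W₁ := fun h =>
    hne (((sqMap_mem_range_iff c x).mp h).symm.trans hfst)
  obtain ⟨g, hg, hgP, hgW⟩ := exists_isNear_le (c := c) (ε := ε) hW₁
  have hfr : ∀ p ∈ (curveOver c k).basicOpen g,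
      pullback.fst c (algSpecMap (k := k) k) p ≠ ptOf c x :=
    fun p hp h => hgW hp ((sqMap_mem_range_iff c x).mpr h)
  let N : NearTriv c ε k (pointCocycle c x) := ⟨g, hg, canSec c x _, isFrame_canSec c x hfr⟩
  have hval : N.val (canSec c x (openU c ε k)) = 1 := by
    rw [N.val_eq_of_smul (r := 1) (by rw [one_smul, mres_canSec]; exact (mres_canSec c x _).symm), map_one]
  have h1 : (1 : LaurentSeries k) ∈ N.latt := ⟨_, hval⟩
  have hle : N.latt * I ≤ 1 := by
    refine Submodule.mul_le.mpr ?_
    rintro _ ⟨m, rfl⟩ e he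
    induction he using Submodule.span_induction with
    | mem _ hz =>
      obtain ⟨r, hr, rfl⟩ := hz
      obtain ⟨b, hb⟩ := exists_smul_canSec c x hx r (by exact hr) m
      have h := congrArg N.val hb
      rw [N.val_smul, N.val_smul, hval, mul_one, ← ringU_one_tmul c ε, expU_ringU,
        ← CurveDatum.expR_eq] at h
      rw [mul_comm, h, ← (ringU c ε k).apply_symm_apply b, expU_ringU]
      exact Submodule.mem_one.mpr ⟨_, rfl⟩
    | zero => rw [mul_zero]; exact zero_mem _
    | add a b _ _ ha hb => rw [mul_add]; exact add_mem ha hb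
    | smul s a _ ha => rw [mul_smul_comm]; exact Submodule.smul_mem _ _ ha
  refine ⟨N.latt, mk_pointCocycle c x ▸ HasLatt.of_triv N, le_antisymm hle ?_⟩
  suffices h : (1 : LaurentSeries k) ∈ N.latt * I from
    Submodule.one_le.mpr h
  by_contra hcon
  -- otherwise the lattice would be trivial
  have hsub : N.latt * I ≤ I := by
    intro e he
    obtain ⟨r, rfl⟩ := D.exists_expR_of_mem_one (hle he)
    by_cases hr : φ r = 0
    · exact D.expR_mem_idealLat k hr
    · refine absurd ?_ hcon
      have hker : 1 - algebraMap k D.R (φ r)⁻¹ * r ∈ RingHom.ker φ := by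
        rw [RingHom.mem_ker, map_sub, map_one, map_mul, φ.commutes]
        exact sub_eq_zero.mpr (inv_mul_cancel₀ hr).symm
      have hin : D.expR k (1 - algebraMap k D.R (φ r)⁻¹ * r) ∈ N.latt * I := by
        rw [← one_mul (D.expR k _)]
        exact Submodule.mul_mem_mul h1 (D.expR_mem_idealLat k hker)
      have := add_mem hin (Submodule.smul_mem (N.latt * I)
        ((1 : k) ⊗ₜ algebraMap k D.R (φ r)⁻¹) he)
      rwa [D.smul_def, ← D.expR_eq, ← D.expR_mul, ← D.expR_add, sub_add_cancel, D.expR_one]
        at this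
  have hLI : N.latt * I = I := le_antisymm hsub fun e he => by
    rw [← one_mul e]
    exact Submodule.mul_mem_mul h1 he
  have hL : N.latt = 1 :=
    (D.isLat_pointIdeal k φ).isUnit.mul_right_cancel (hLI.trans (one_mul I).symm)
  -- a generator at the point is not a multiple of `1`
  set P := secOf c x (IsLocalRing.closedPoint k) with hP
  have hPU : P ∈ openU c ε k := by
    show pullback.fst c (algSpecMap (k := k) k) P ∈ baseOpen c ε
    rw [hP, fst_secOf]
    exact hx
  obtain ⟨g', s, hPg', hs⟩ :=
    (pointCocycle c x).framing.exists_section_isFrame (isAffineOpen_openU c ε k) P hPU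
  obtain ⟨y, hy⟩ := Submodule.mem_one.mp (hL.le (N.val_mem_latt s))
  have hη : genericPoint (curveOver c k) ∈ openG g := by
    rw [openG_eq]
    exact ⟨((genericPoint_spec _).mem_open_set_iff (openU c ε k).isOpen).mpr ⟨P, Set.mem_univ _, hPU⟩,
      ((genericPoint_spec _).mem_open_set_iff ((curveOver c k).basicOpen g).isOpen).mpr
        ⟨rigPt c ε, Set.mem_univ _, hgP⟩⟩
  have hsc : s = ringU c ε k y • canSec c x (openU c ε k) := N.val_injective hη (by
    rw [N.val_smul, hval, mul_one, expU_ringU]
    exact hy.symm)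
  have hu := (Cocycle.isFrame_iff _).mp hs P
  rw [hsc, mres_smul, mres_canSec, Cocycle.comp_smul, comp_canSec] at hu
  have hu' := ((IsUnit.mul_iff.mp hu).2).map
    ((curveOver c k).presheaf.germ _ P
      (show P ∈ (curveOver c k).basicOpen g' ⊓ (pointCocycle c x).U P from
        ⟨hPg', (pointCocycle c x).mem P⟩)).hom
  erw [TopCat.Presheaf.germ_res_apply] at hu'
  have hu'' := hu'.map ((secOf c x).stalkMap (IsLocalRing.closedPoint k)).hom
  erw [Scheme.Hom.germ_stalkMap_apply] at hu''
  have h0 := opull_secOf_pullEq c x ((pointGl c x).idx P)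
    (le_refl (secOf c x ⁻¹ᵁ sqMap c x ⁻¹ᵁ diagOpen c ((pointGl c x).idx P)))
  rw [Cocycle.opull, ores_self] at h0
  erw [h0, map_zero] at hu''
  exact not_isUnit_zero hu''

/-- The lattice of the base point. -/
theorem hasLatt_pointClass_algPoint :
    HasLatt c ε (pointClass c (algPoint ε)) ((curveDatum c ε).twist 1 1) := by
  set x := algPoint ε
  set P := rigPt c ε with hP
  have hPe : secOf c x (IsLocalRing.closedPoint k) = P := by rw [secOf_algPoint]; rfl
  set i := (pointGl c x).idx P
  have hPi : P ∈ sqMap c x ⁻¹ᵁ diagOpen c i := (pointCocycle c x).mem P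
  have hτ : evalHom c x (basePt_mem_chartOpen c ε) (chartParam c ε) = 0 := by
    have h := rigValue_curveSec (A := k) c ε (basePt_mem_chartOpen c ε) (chartParam c ε)
    rw [show PowerSeries.constantCoeff (expSeriesOpen c ε (basePt_mem_chartOpen c ε)
      (chartParam c ε)) = 0 from (congrArg _ (expSeriesOpen_chartVar c ε)).trans
        PowerSeries.constantCoeff_X, map_zero] at h
    refine Eq.trans ?_ h
    show (x.1.appLE _ ⊤ _ ≫ _) _ = ((pullback.fst c (algSpecMap (k := k) k)).app _ ≫
      (rigSection c (algSpecMap (k := k) k) ε).appLE _ ⊤ _ ≫ _) _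
    rw [← Scheme.Hom.appLE_eq_app, Scheme.Hom.appLE_comp_appLE_assoc]
    simp only [← secOf_algPoint, secOf, pullback.lift_fst]
    rfl
  rw [evalHom_eq_zero_iff] at hτ
  obtain ⟨t, ht⟩ := pullEq_dvd c x i (chartParam c ε)
    (top_le_preimage c x (basePt_mem_chartOpen c ε)) hτ hPi (rigPt_mem_openV c ε)
  obtain ⟨V₀, hPV₀, t, rfl⟩ := (curveOver c k).presheaf.exists_germ_eq t
  let W : (curveOver c k).Opens := openV c ε k ⊓ sqMap c x ⁻¹ᵁ diagOpen c i ⊓ V₀
  have hPW : P ∈ W := ⟨⟨rigPt_mem_openV c ε, hPi⟩, hPV₀⟩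
  have : Nonempty W := ⟨⟨P, hPW⟩⟩
  have e : ores (inf_le_left.trans inf_le_left : W ≤ openV c ε k) (chartVarA c ε k) =
      ores (inf_le_left.trans inf_le_right : W ≤ sqMap c x ⁻¹ᵁ diagOpen c i) (pullEq c x i) *
        ores inf_le_right t := by
    refine germ_injective_of_isIntegral (curveOver c k) P hPW ?_
    rw [map_mul]
    refine ((curveOver c k).presheaf.germ_res_apply _ _ _ _).trans (ht.trans ?_)
    exact congrArg₂ (· * ·) ((curveOver c k).presheaf.germ_res_apply _ _ _ _).symm
      ((curveOver c k).presheaf.germ_res_apply _ _ _ _).symm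
  obtain ⟨g, hg, hgP, hgW⟩ := exists_isNear_le (c := c) (ε := ε) hPW
  have hgi : (curveOver c k).basicOpen g ≤ sqMap c x ⁻¹ᵁ diagOpen c i :=
    hgW.trans (inf_le_left.trans inf_le_right)
  let N : NearTriv c ε k (pointCocycle c x) :=
    ⟨g, hg, mres _ hgi (pointFrame c x i), (isFrame_pointFrame c x i).res hgi⟩
  set w := ores hgi (pullEq c x i) with hw
  set v := ores (hgW.trans inf_le_right) t with hv
  have hwv : expD hg w * expD hg v = PowerSeries.X := by
    rw [← map_mul]
    have h := congrArg (ores hgW) e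
    rw [ores_mul, ores_ores, ores_ores, ores_ores] at h
    erw [← h]
    rw [expD_ores]
    refine HahnSeries.ofPowerSeries_injective (Γ := ℤ) ?_
    rw [ofPowerSeries_expVps, HahnSeries.ofPowerSeries_X]
    exact expSec_chartVarA c ε k
  have hc0 : PowerSeries.constantCoeff (expD hg w) = 0 := by
    have hrig : (⊤ : (Spec (CommRingCat.of k)).Opens) ≤
        rigSection c (algSpecMap (k := k) k) ε ⁻¹ᵁ (curveOver c k).basicOpen g := fun p _ => by
      show rigSection c (algSpecMap (k := k) k) ε p ∈ (curveOver c k).basicOpen g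
      rw [Subsingleton.elim p (IsLocalRing.closedPoint k)]
      exact hgP
    let ρ : Γ(curveOver c k, (curveOver c k).basicOpen g) →+* k :=
      ((rigSection c (algSpecMap (k := k) k) ε).appLE _ ⊤ hrig ≫
        (Scheme.ΓSpecIso (CommRingCat.of k)).hom).hom
    have hρ : PowerSeries.constantCoeff.comp (expD hg) = ρ := by
      have := (isAffineOpen_openV c ε k).isLocalization_basicOpen g
      refine IsLocalization.ringHom_ext (Submonoid.powers g) (RingHom.ext fun y => ?_)
      show PowerSeries.constantCoeff (expD hg (ores ((curveOver c k).basicOpen_le g) y)) =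
        ρ (ores ((curveOver c k).basicOpen_le g) y)
      rw [expD_ores, ← coeff_zero_ofPowerSeries, ofPowerSeries_expVps, expV,
        ← rigValue_eq_coeff_expSec c ε (basePt_mem_chartOpen c ε) (isAffineOpen_chartOpen c ε) y]
      exact congrArg (Scheme.ΓSpecIso (CommRingCat.of k)).hom
        (Cocycle.opull_ores (rigSection c (algSpecMap (k := k) k) ε) _ hrig y).symm
    refine (RingHom.congr_fun hρ w).trans ?_
    show (Scheme.ΓSpecIso (CommRingCat.of k)).hom
      (opull (rigSection c (algSpecMap (k := k) k) ε) hrig w) = 0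
    rw [hw, Cocycle.opull_ores, opull_congr (secOf_algPoint c ε).symm, opull_secOf_pullEq]
    exact map_zero _
  obtain ⟨q, hq⟩ := PowerSeries.X_dvd_iff.mpr hc0
  have hqu : IsUnit q := IsUnit.of_mul_eq_one (expD hg v) (mul_left_cancel₀ PowerSeries.X_ne_zero
    (by rw [← mul_assoc, ← hq, hwv, mul_one]))
  have hfr : IsFrame (canSec c x (openU c ε k)) := isFrame_canSec c x fun p hp => hp
  have hval : N.val (canSec c x (openU c ε k)) =
      HahnSeries.single (1 : ℤ) (1 : k) * HahnSeries.ofPowerSeries ℤ k q := by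
    rw [N.val_eq_of_smul (r := ores (openG_le_basicOpen g) w) ?_, expG_ores_basicOpen, hq, map_mul,
      HahnSeries.ofPowerSeries_X]
    rw [mres_canSec, canSec_eq_smul c x i ((openG_le_basicOpen g).trans hgi), hw, ores_ores]
    exact congrArg _ (mres_mres _ _ _ _)
  refine ⟨_, N, mk_pointCocycle c x, CurveDatum.Equiv.symm
    ⟨_, isUnitSeries_ofPowerSeries hqu, ?_⟩⟩
  rw [N.latt_eq_span hfr, hval, CurveDatum.twist, one_mul, Submodule.span_mul_span,
    Set.singleton_mul_singleton]

end FermatAgent.Jacobian
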